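import Fermat.Agent.S52.UDefs

set_option autoImplicit false

/-! # S52, FAM4: the family identity for `Hab` / `HH` -/

namespace Fermat.Agent.S52

variable {R : Type*} [CommRing R]

set_option maxHeartbeats 0 in
set_option maxRecDepth 100000 in
theorem Hab_family (a b t : R) :
    Hab (a * (1 + t * alab a b) ^ 5) (b * (1 - t * beab a b) ^ 5) = F4 (Hab a b) (Tab a b) t := by
  simp only [F4, S4, h4_1, h4_2, h4_3, h4_4, h4_5, h4_6, h4_7, h4_8, h4_9, h4_10, h4_11, h4_12,
    h4_13, h4_14, h4_15, h4_16, h4_17, h4_18, h4_19, h4_20, Hab, Tab, alab, beab]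
  ring

theorem HH_family (u v t : R) : HH (uT u v t) (vT u v t) = F4 (HH u v) (TT u v) t := by
  unfold TT HH uT vT
  rw [mul_pow, mul_pow, Hab_family]

end Fermat.Agent.S52
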