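import Fermat.Agent.S52.PDefs
import Fermat.Agent.S51.Psi5
import Fermat.Agent.S51.Doubling

set_option autoImplicit false

/-! # S52, package RED5: reduction of the 5-torsion is an injective homomorphism -/

namespace Fermat.Agent.S52

open WeierstrassCurve Polynomial Fermat.Agent.S51

namespace Red5

section int
variable {R K : Type*} [CommRing R] [IsDomain R] [IsIntegrallyClosed R] [Field K]
    [Algebra R K] [IsFractionRing R K]

omit [IsIntegrallyClosed R] [IsFractionRing R K] in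
/-- a root of a polynomial with unit leading coefficient is integral. -/
lemma isIntegral_of_unit_leading {p : R[X]} (hu : IsUnit p.leadingCoeff) {X : K}
    (h : (p.map (algebraMap R K)).eval X = 0) : IsIntegral R X := by
  obtain ⟨u, hu⟩ := hu
  refine ⟨C (↑u⁻¹ : R) * p, ?_, ?_⟩
  · rw [Monic, leadingCoeff_mul, leadingCoeff_C, ← hu, Units.inv_mul]
  · rw [eval₂_mul, eval₂_eq_eval_map (p := p), h, mul_zero]

lemma exists_x (a b : R) (h5 : IsUnit (5 : R)) {X : K}
    (hq : qX (Esh (algebraMap R K a) (algebraMap R K b)) X = 0) :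
    ∃ x : R, algebraMap R K x = X := by
  have h50 : ((5 : ℕ) : R) ≠ 0 := by
    have := h5.ne_zero
    exact_mod_cast this
  have hmap : (Esh a b).map (algebraMap R K) = Esh (algebraMap R K a) (algebraMap R K b) := by
    simp [Esh, WeierstrassCurve.map]
  refine IsIntegrallyClosed.isIntegral_iff.1
    (isIntegral_of_unit_leading (p := (Esh a b).preΨ' 5) ?_ ?_)
  · rw [leadingCoeff_preΨ' _ h50, if_neg (by decide)]
    exact_mod_cast h5
  · rw [← map_preΨ', hmap, eval_preΨ'_five, hq]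

omit [IsDomain R] in
lemma exists_sqrt {Y : K} {c : R} (h : Y ^ 2 = algebraMap R K c) :
    ∃ y : R, algebraMap R K y = Y := by
  refine IsIntegrallyClosed.isIntegral_iff.1 ⟨X ^ 2 - C c, monic_X_pow_sub_C c two_ne_zero, ?_⟩
  simp [h]

end int

lemma eqn_iff {F : Type*} [CommRing F] (A B x y : F) :
    (Esh A B).toAffine.Equation x y ↔ y ^ 2 = x ^ 3 + A * x + B := by
  rw [Affine.equation_iff]; simp [Esh]

lemma negY_eq {F : Type*} [CommRing F] (A B x y : F) : (Esh A B).toAffine.negY x y = -y := by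
  simp [Affine.negY, Esh]

lemma addX_eq {F : Type*} [CommRing F] (A B x₁ x₂ l : F) :
    (Esh A B).toAffine.addX x₁ x₂ l = l ^ 2 - x₁ - x₂ := by
  simp [Affine.addX, Esh]

lemma addY_eq {F : Type*} [CommRing F] (A B x₁ x₂ y₁ l : F) :
    (Esh A B).toAffine.addY x₁ x₂ y₁ l = -(l * (l ^ 2 - x₁ - x₂ - x₁) + y₁) := by
  rw [Affine.addY, negY_eq, Affine.negAddY, addX_eq]

lemma some_congr {F : Type*} [CommRing F] {W : WeierstrassCurve F} {x y x' y' : F}
    (h : W.toAffine.Nonsingular x y) (hx : x = x') (hy : y = y') :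
    ∃ h' : W.toAffine.Nonsingular x' y', Affine.Point.some x y h = Affine.Point.some x' y' h' := by
  subst hx hy; exact ⟨h, rfl⟩

section main
variable {R K κ : Type*} [CommRing R] [IsDomain R] [IsIntegrallyClosed R] [Field K]
    [Algebra R K] [IsFractionRing R K] [Field κ] [DecidableEq K] [DecidableEq κ] (π : R →+* κ)
    (a b : R)

local notation "ι" => algebraMap R K
local notation "EK" => WeierstrassCurve.toAffine (Esh (algebraMap R K a) (algebraMap R K b))
local notation "Eκ" => WeierstrassCurve.toAffine (Esh (π a) (π b))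

variable {a b}

lemma coords (h5 : IsUnit (5 : R)) {X Y : K} {h : (EK).Nonsingular X Y}
    (hP : (5 : ℤ) • Affine.Point.some X Y h = 0) : ∃ x y : R, ι x = X ∧ ι y = Y := by
  obtain ⟨x', y', h', -, hX5⟩ := (five_smul_eq_zero_iff _ h).1 hP
  obtain ⟨x, rfl⟩ := exists_x a b h5 (qX_eq_zero_of_isX5 _ hX5)
  have he := (eqn_iff _ _ _ _).1 h.1
  obtain ⟨y, rfl⟩ := exists_sqrt (c := x ^ 3 + a * x + b) (Y := Y) (by rw [he]; simp)
  exact ⟨x, y, rfl, rfl⟩

lemma slope_mem (h5 : IsUnit (5 : R)) {X₁ Y₁ X₂ Y₂ : K} {h₁ : (EK).Nonsingular X₁ Y₁}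
    {h₂ : (EK).Nonsingular X₂ Y₂} (hP₁ : (5 : ℤ) • Affine.Point.some X₁ Y₁ h₁ = 0)
    (hP₂ : (5 : ℤ) • Affine.Point.some X₂ Y₂ h₂ = 0)
    (hxy : ¬ (X₁ = X₂ ∧ Y₁ = (EK).negY X₂ Y₂)) : ∃ l : R, ι l = (EK).slope X₁ X₂ Y₁ Y₂ := by
  have hs := Affine.Point.add_some hxy (h₁ := h₁) (h₂ := h₂)
  have h5s : (5 : ℤ) • Affine.Point.some _ _ (Affine.nonsingular_add h₁ h₂ hxy) = 0 := by
    rw [← hs, smul_add, hP₁, hP₂, add_zero]
  obtain ⟨x₃, y₃, hx₃, -⟩ := coords h5 h5s
  obtain ⟨x₁, y₁, rfl, -⟩ := coords h5 hP₁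
  obtain ⟨x₂, y₂, rfl, -⟩ := coords h5 hP₂
  refine exists_sqrt (c := x₃ + x₁ + x₂) ?_
  rw [map_add, map_add, hx₃, addX_eq]
  ring

/-- the tangent slope at a 5-torsion point is integral. -/
lemma tangent (h5 : IsUnit (5 : R)) {x y : R} {h : (EK).Nonsingular (ι x) (ι y)}
    (hP : (5 : ℤ) • Affine.Point.some (ι x) (ι y) h = 0) :
    y ≠ -y ∧ ∃ l : R, l * (2 * y) = 3 * x ^ 2 + a ∧ ι l = (EK).slope (ι x) (ι x) (ι y) (ι y) := by
  have hinj : Function.Injective ι := IsFractionRing.injective R K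
  obtain ⟨x', y', h', -, hX5⟩ := (five_smul_eq_zero_iff _ h).1 hP
  have hy : ι y ≠ (EK).negY (ι x) (ι y) := fun e => hX5.2.1 ((Y_eq_negY_iff _ h.1).1 e)
  obtain ⟨l, hl⟩ := slope_mem h5 hP hP (fun e => hy e.2)
  refine ⟨fun e => hy ?_, l, hinj ?_, hl⟩
  · rw [negY_eq, ← map_neg, ← e]
  · have hd : ι y - (EK).negY (ι x) (ι y) ≠ 0 := sub_ne_zero.2 hy
    rw [Affine.slope_of_Y_ne rfl hy, eq_div_iff hd, negY_eq] at hl
    simp only [map_mul, map_add, map_pow, map_ofNat]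
    rw [show (2 : K) * ι y = ι y - - ι y by ring, hl]
    simp [Esh]

lemma chord (h5 : IsUnit (5 : R)) {x₁ y₁ x₂ y₂ : R} {h₁ : (EK).Nonsingular (ι x₁) (ι y₁)}
    {h₂ : (EK).Nonsingular (ι x₂) (ι y₂)}
    (hP₁ : (5 : ℤ) • Affine.Point.some (ι x₁) (ι y₁) h₁ = 0)
    (hP₂ : (5 : ℤ) • Affine.Point.some (ι x₂) (ι y₂) h₂ = 0) (hx : x₁ ≠ x₂) :
    ∃ l : R, l * (x₁ - x₂) = y₁ - y₂ ∧ ι l = (EK).slope (ι x₁) (ι x₂) (ι y₁) (ι y₂) := by
  have hinj : Function.Injective ι := IsFractionRing.injective R K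
  have hx' : ι x₁ ≠ ι x₂ := fun e => hx (hinj e)
  obtain ⟨l, hl⟩ := slope_mem h5 hP₁ hP₂ (fun e => hx' e.1)
  refine ⟨l, hinj ?_, hl⟩
  rw [Affine.slope_of_X_ne hx', eq_div_iff (sub_ne_zero.2 hx')] at hl
  simp only [map_mul, map_sub, hl]

variable (hΔ : (Esh (π a) (π b)).Δ ≠ 0)
include hΔ

omit [IsDomain R] [IsIntegrallyClosed R] [DecidableEq K] [DecidableEq κ] in
lemma nonsing {x y : R} (h : (EK).Nonsingular (ι x) (ι y)) : (Eκ).Nonsingular (π x) (π y) := by
  have hinj : Function.Injective ι := IsFractionRing.injective R K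
  refine (Affine.equation_iff_nonsingular_of_Δ_ne_zero hΔ).1 ((eqn_iff _ _ _ _).2 ?_)
  have he := (eqn_iff _ _ _ _).1 h.1
  have : y ^ 2 = x ^ 3 + a * x + b := hinj (by simpa using he)
  simpa using congrArg π this

omit [DecidableEq κ] in
lemma pi_y_ne (h5 : IsUnit (5 : R)) {x y : R} {h : (EK).Nonsingular (ι x) (ι y)}
    (hP : (5 : ℤ) • Affine.Point.some (ι x) (ι y) h = 0) : π y ≠ 0 := by
  intro h0
  obtain ⟨-, l, hl, -⟩ := tangent h5 hP
  have h1 := congrArg π hl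
  simp only [map_mul, map_add, map_pow, map_ofNat, h0, mul_zero] at h1
  have hn := (Affine.nonsingular_iff _ _).1 (nonsing π hΔ h)
  rcases hn.2 with h2 | h2
  · apply h2; simp [Esh, ← h1]
  · apply h2; simp [Esh, h0]

omit hΔ

/-- the reduction relation between points over `K` and points over `κ`. -/
def Rel (P : (EK).Point) (Q : (Eκ).Point) : Prop :=
  (P = 0 ∧ Q = 0) ∨ ∃ (x y : R) (h : (EK).Nonsingular (ι x) (ι y))
    (h' : (Eκ).Nonsingular (π x) (π y)), P = .some _ _ h ∧ Q = .some _ _ h'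

omit [IsDomain R] [IsIntegrallyClosed R] [DecidableEq K] [DecidableEq κ] in
lemma rel_unique {P : (EK).Point} {Q Q' : (Eκ).Point} (h : Rel π P Q) (h' : Rel π P Q') :
    Q = Q' := by
  have hinj : Function.Injective ι := IsFractionRing.injective R K
  rcases h with ⟨h0, rfl⟩ | ⟨x, y, h, hh, rfl, rfl⟩
  · rcases h' with ⟨-, rfl⟩ | ⟨x, y, h, hh, rfl, rfl⟩
    · rfl
    · exact absurd h0 (Affine.Point.some_ne_zero _)
  · rcases h' with ⟨h0, rfl⟩ | ⟨x', y', h', hh', e, rfl⟩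
    · exact absurd h0 (Affine.Point.some_ne_zero _)
    · rw [Affine.Point.some.injEq] at e
      obtain rfl := hinj e.1
      obtain rfl := hinj e.2
      rfl

omit [DecidableEq κ] in
lemma rel_exists (hΔ : (Esh (π a) (π b)).Δ ≠ 0) (h5 : IsUnit (5 : R)) {P : (EK).Point}
    (hP : (5 : ℤ) • P = 0) : ∃ Q, Rel π P Q := by
  rcases P with _ | ⟨X, Y, h⟩
  · exact ⟨0, Or.inl ⟨rfl, rfl⟩⟩
  · obtain ⟨x, y, rfl, rfl⟩ := coords h5 hP
    exact ⟨.some _ _ (nonsing π hΔ h), Or.inr ⟨x, y, h, _, rfl, rfl⟩⟩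

omit [IsDomain R] [IsIntegrallyClosed R] [IsFractionRing R K] in
lemma rel_add_aux {x₁ y₁ x₂ y₂ l : R} {h₁ : (EK).Nonsingular (ι x₁) (ι y₁)}
    {h₂ : (EK).Nonsingular (ι x₂) (ι y₂)}
    (hxy : ¬ (ι x₁ = ι x₂ ∧ ι y₁ = (EK).negY (ι x₂) (ι y₂)))
    (hl : ι l = (EK).slope (ι x₁) (ι x₂) (ι y₁) (ι y₂))
    {h₁' : (Eκ).Nonsingular (π x₁) (π y₁)} {h₂' : (Eκ).Nonsingular (π x₂) (π y₂)}
    (hxy' : ¬ (π x₁ = π x₂ ∧ π y₁ = (Eκ).negY (π x₂) (π y₂)))
    (hl' : π l = (Eκ).slope (π x₁) (π x₂) (π y₁) (π y₂)) :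
    Rel π (Affine.Point.some _ _ h₁ + Affine.Point.some _ _ h₂)
      (Affine.Point.some _ _ h₁' + Affine.Point.some _ _ h₂') := by
  rw [Affine.Point.add_some hxy, Affine.Point.add_some hxy']
  obtain ⟨h, e⟩ := some_congr (Affine.nonsingular_add h₁ h₂ hxy)
    (x' := ι (l ^ 2 - x₁ - x₂)) (y' := ι (-(l * (l ^ 2 - x₁ - x₂ - x₁) + y₁)))
    (by rw [← hl, addX_eq]; simp) (by rw [← hl, addY_eq]; simp)
  obtain ⟨h', e'⟩ := some_congr (Affine.nonsingular_add h₁' h₂' hxy')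
    (x' := π (l ^ 2 - x₁ - x₂)) (y' := π (-(l * (l ^ 2 - x₁ - x₂ - x₁) + y₁)))
    (by rw [← hl', addX_eq]; simp) (by rw [← hl', addY_eq]; simp)
  exact Or.inr ⟨_, _, h, h', e, e'⟩

lemma rel_add (hΔ : (Esh (π a) (π b)).Δ ≠ 0) (h5 : IsUnit (5 : R)) (h2 : (2 : κ) ≠ 0)
    {P P' : (EK).Point} {Q Q' : (Eκ).Point} (hP : (5 : ℤ) • P = 0) (hP' : (5 : ℤ) • P' = 0)
    (h : Rel π P Q) (h' : Rel π P' Q') : Rel π (P + P') (Q + Q') := by
  have hinj : Function.Injective ι := IsFractionRing.injective R K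
  rcases h with ⟨rfl, rfl⟩ | ⟨x₁, y₁, h₁, h₁', rfl, rfl⟩
  · simpa using h'
  rcases h' with ⟨rfl, rfl⟩ | ⟨x₂, y₂, h₂, h₂', rfl, rfl⟩
  · rw [add_zero, add_zero]
    exact Or.inr ⟨x₁, y₁, h₁, h₁', rfl, rfl⟩
  have hy₁ := pi_y_ne π hΔ h5 hP
  by_cases hx : x₁ = x₂
  · subst hx
    by_cases hy : y₁ = -y₂
    · subst hy
      left
      constructor
      · exact Affine.Point.add_of_Y_eq rfl (by rw [negY_eq, map_neg])
      · exact Affine.Point.add_of_Y_eq rfl (by rw [negY_eq, map_neg])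
    · -- then `y₁ = y₂`
      have e₁ := (eqn_iff _ _ _ _).1 h₁.1
      have e₂ := (eqn_iff _ _ _ _).1 h₂.1
      have hyy : y₁ = y₂ := by
        have h3 : (y₁ - y₂) * (y₁ + y₂) = 0 := hinj (by
          simp only [map_mul, map_sub, map_add, map_zero]
          linear_combination e₁ - e₂)
        rcases mul_eq_zero.1 h3 with h4 | h4
        · exact sub_eq_zero.1 h4
        · exact absurd (eq_neg_of_add_eq_zero_left h4) hy
      subst hyy
      obtain ⟨hne, l, hl, hl'⟩ := tangent h5 hP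
      have hn' : π y₁ ≠ (Eκ).negY (π x₁) (π y₁) := by
        rw [negY_eq]
        intro e
        have : (2 : κ) * π y₁ = 0 := by linear_combination e
        exact (mul_ne_zero h2 hy₁) this
      refine rel_add_aux π (l := l) (fun e => hy ?_) hl' (fun e => hn' e.2) ?_
      · apply hinj; rw [e.2, negY_eq, map_neg]
      · rw [Affine.slope_of_Y_ne rfl hn', eq_div_iff (sub_ne_zero.2 hn'), negY_eq]
        have := congrArg π hl
        simp only [map_mul, map_add, map_pow, map_ofNat] at this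
        rw [show π y₁ - - π y₁ = 2 * π y₁ by ring, this]
        simp [Esh]
  · obtain ⟨l, hl, hl'⟩ := chord h5 hP hP' hx
    have hP'' : (5 : ℤ) • Affine.Point.some (ι x₂) (ι (-y₂))
        (by
          have := (Affine.nonsingular_neg (W' := EK) (ι x₂) (ι y₂)).2 h₂
          rwa [negY_eq, ← map_neg] at this) = 0 := by
      have : -Affine.Point.some _ _ h₂ = Affine.Point.some (ι x₂) (ι (-y₂))
        (by
          have := (Affine.nonsingular_neg (W' := EK) (ι x₂) (ι y₂)).2 h₂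
          rwa [negY_eq, ← map_neg] at this) := by
        rw [Affine.Point.neg_some]
        obtain ⟨_, e⟩ := some_congr ((Affine.nonsingular_neg (W' := EK) (ι x₂) (ι y₂)).2 h₂) rfl
          (show (EK).negY (ι x₂) (ι y₂) = ι (-y₂) by rw [negY_eq, map_neg])
        exact e
      rw [← this, smul_neg, hP', neg_zero]
    obtain ⟨m, hm, -⟩ := chord h5 hP hP'' hx
    have hx' : π x₁ ≠ π x₂ := by
      intro e
      have e1 := congrArg π hl
      have e2 := congrArg π hm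
      simp only [map_mul, map_sub, map_neg, e, sub_self, mul_zero] at e1 e2
      have : (2 : κ) * π y₁ = 0 := by linear_combination - e1 - e2
      exact (mul_ne_zero h2 hy₁) this
    refine rel_add_aux π (l := l) (fun e => hx (hinj e.1)) hl' (fun e => hx' e.1) ?_
    rw [Affine.slope_of_X_ne hx', eq_div_iff (sub_ne_zero.2 hx')]
    simpa using congrArg π hl

end main

end Red5

open Red5 in
theorem exists_red5 {R K κ : Type*} [CommRing R] [IsDomain R] [IsIntegrallyClosed R] [Field K]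
    [Algebra R K] [IsFractionRing R K] [Field κ] [DecidableEq K] [DecidableEq κ] (π : R →+* κ)
    (a b : R) {aK bK : K} {aκ bκ : κ} (haK : algebraMap R K a = aK) (hbK : algebraMap R K b = bK)
    (haκ : π a = aκ) (hbκ : π b = bκ) (h5 : IsUnit (5 : R)) (h2 : (2 : κ) ≠ 0)
    (hΔ : (Esh aκ bκ).Δ ≠ 0) :
    ∃ red : tors5 (Esh aK bK).toAffine.Point →+ (Esh aκ bκ).toAffine.Point,
      Function.Injective red ∧
      ∀ (P : tors5 (Esh aK bK).toAffine.Point) (X Y : K) (h : (Esh aK bK).toAffine.Nonsingular X Y),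
        (P : (Esh aK bK).toAffine.Point) = .some X Y h →
        ∃ (x y : R) (h' : (Esh aκ bκ).toAffine.Nonsingular (π x) (π y)),
          algebraMap R K x = X ∧ algebraMap R K y = Y ∧ red P = .some (π x) (π y) h' := by
  subst haK hbK haκ hbκ
  have hex : ∀ P : tors5 (Esh (algebraMap R K a) (algebraMap R K b)).toAffine.Point,
      ∃ Q, Rel π (P : (Esh (algebraMap R K a) (algebraMap R K b)).toAffine.Point) Q :=
    fun P => rel_exists π hΔ h5 P.2
  choose f hf using hex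
  have hadd : ∀ P Q, f (P + Q) = f P + f Q := fun P Q =>
    rel_unique π (hf (P + Q)) (rel_add π hΔ h5 h2 P.2 Q.2 (hf P) (hf Q))
  have key : ∀ (P : tors5 (Esh (algebraMap R K a) (algebraMap R K b)).toAffine.Point) (X Y : K)
      (h : (Esh (algebraMap R K a) (algebraMap R K b)).toAffine.Nonsingular X Y),
      (P : (Esh (algebraMap R K a) (algebraMap R K b)).toAffine.Point) = .some X Y h →
        ∃ (x y : R) (h' : (Esh (π a) (π b)).toAffine.Nonsingular (π x) (π y)),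
          algebraMap R K x = X ∧ algebraMap R K y = Y ∧ f P = .some (π x) (π y) h' := by
    intro P X Y h e
    rcases hf P with ⟨h0, -⟩ | ⟨x, y, h1, h1', e1, e2⟩
    · rw [e] at h0
      exact absurd h0 (Affine.Point.some_ne_zero _)
    · rw [e, Affine.Point.some.injEq] at e1
      exact ⟨x, y, h1', e1.1.symm, e1.2.symm, e2⟩
  refine ⟨AddMonoidHom.mk' f hadd, ?_, key⟩
  rw [injective_iff_map_eq_zero]
  rintro ⟨P, hP⟩ h0
  rcases P with _ | ⟨X, Y, h⟩
  · rfl
  · obtain ⟨x, y, h', -, -, e⟩ := key ⟨_, hP⟩ X Y h rfl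
    rw [AddMonoidHom.mk'_apply, e] at h0
    exact absurd h0 (Affine.Point.some_ne_zero _)

end Fermat.Agent.S52

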