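import Fermat.Agent.S52.FAdapt
import Fermat.Agent.Lib.Frobenius
import Fermat.Agent.S52.Red5

set_option autoImplicit false

/-! # S52, package FROB5: `σ² - a_ℓ σ + ℓ = 0` on the 5-torsion over `Qb` -/

namespace Fermat.Agent.S52

open WeierstrassCurve

namespace Frob5

theorem charP {A : ValuationSubring Qb} {ℓ : ℕ} (hℓ : ℓ.Prime) (hA : A.LiesOverPrime ℓ) :
    CharP (IsLocalRing.ResidueField A) ℓ := by
  rw [CharP.charP_iff_prime_eq_zero hℓ]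
  obtain ⟨ha, hm⟩ := ValuationSubring.mem_nonunits_iff_exists_mem_maximalIdeal.mp hA
  have h1 : IsLocalRing.residue A ⟨(ℓ : Qb), ha⟩ = 0 :=
    (IsLocalRing.residue_eq_zero_iff _).mpr hm
  have h2 : (⟨(ℓ : Qb), ha⟩ : A) = (ℓ : A) := Subtype.ext (by simp)
  rw [h2, map_natCast] at h1
  exact h1

theorem residue_eq_pow {A : ValuationSubring Qb} {σ : GQ} {ℓ : ℕ} (hσ : A.IsFrobeniusAt σ ℓ)
    (x x' : A) (h : (x' : Qb) = σ (x : Qb)) :
    IsLocalRing.residue A x' = (IsLocalRing.residue A x) ^ ℓ := by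
  have h1 := hσ.smul_residue_eq (IsLocalRing.residue A x)
  rw [← IsLocalRing.ResidueField.residue_smul] at h1
  rw [← h1]
  congr 1
  exact Subtype.ext h

theorem Esh_Δ {R : Type*} [CommRing R] (a b : R) :
    (Esh a b).Δ = -16 * (4 * a ^ 3 + 27 * b ^ 2) := by
  simp only [Esh, WeierstrassCurve.Δ, WeierstrassCurve.b₂, WeierstrassCurve.b₄,
    WeierstrassCurve.b₆, WeierstrassCurve.b₈]
  ring

theorem not_dvd_const {ℓ : ℕ} (hℓ : ℓ.Prime) (h7 : 7 ≤ ℓ) : ¬ (ℓ : ℤ) ∣ 1259712 := by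
  intro h
  have h1 : ℓ ∣ 2 ^ 6 * 3 ^ 9 := by
    have : (ℓ : ℤ) ∣ ((2 ^ 6 * 3 ^ 9 : ℕ) : ℤ) := by
      norm_num
      exact h
    exact Int.natCast_dvd_natCast.mp this
  rcases (Nat.Prime.dvd_mul hℓ).1 h1 with h2 | h2
  · have := Nat.le_of_dvd (by norm_num) (hℓ.dvd_of_dvd_pow h2)
    omega
  · have := Nat.le_of_dvd (by norm_num) (hℓ.dvd_of_dvd_pow h2)
    omega

theorem Δ_ne_zero (κ : Type*) [Field κ] {ℓ : ℕ} [CharP κ ℓ] (hℓ : ℓ.Prime) (h7 : 7 ≤ ℓ)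
    (e4 e6 : ℤ) (hgood : ¬ (ℓ : ℤ) ∣ e4 ^ 3 - e6 ^ 2) :
    (Esh (((-27 * e4 : ℤ)) : κ) ((54 * e6 : ℤ) : κ)).Δ ≠ 0 := by
  have e : (Esh (((-27 * e4 : ℤ)) : κ) ((54 * e6 : ℤ) : κ)).Δ
      = ((1259712 * (e4 ^ 3 - e6 ^ 2) : ℤ) : κ) := by
    rw [Esh_Δ]
    push_cast
    ring
  rw [e, Ne, CharP.intCast_eq_zero_iff κ ℓ]
  intro h
  rcases (Nat.prime_iff_prime_int.mp hℓ).dvd_or_dvd h with h1 | h1
  · exact not_dvd_const hℓ h7 h1
  · exact hgood h1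

end Frob5

open Frob5

theorem frob5 (e4 e6 : ℤ) {ℓ : ℕ} (hℓ : ℓ.Prime) (h7 : 7 ≤ ℓ) (hgood : ¬ (ℓ : ℤ) ∣ e4 ^ 3 - e6 ^ 2)
    (A : ValuationSubring Qb) (σ : GQ) (hA : A.LiesOverPrime ℓ) (hσ : A.IsFrobeniusAt σ ℓ)
    (P : (Esh (-27 * (e4 : Qb)) (54 * (e6 : Qb))).toAffine.Point) (hP : P ∈ tors5 _) :
    galE e4 e6 σ (galE e4 e6 σ P)
      - ((ℓ : ℤ) + 1 - (Nat.card (Esh (((-27 * e4 : ℤ)) : ZMod ℓ) ((54 * e6 : ℤ) : ZMod ℓ)).toAffine.Point : ℤ))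
        • galE e4 e6 σ P + (ℓ : ℤ) • P = 0 := by
  classical
  have : Fact ℓ.Prime := ⟨hℓ⟩
  have : CharP (IsLocalRing.ResidueField A) ℓ := Frob5.charP hℓ hA
  have h5 : IsUnit (5 : A) := by
    by_contra h
    have h1 : (5 : A) ∈ IsLocalRing.maximalIdeal A := (IsLocalRing.mem_maximalIdeal _).2 h
    have h2 : ((5 : ℕ) : IsLocalRing.ResidueField A) = 0 := by
      rw [← map_natCast (IsLocalRing.residue A)]
      exact (IsLocalRing.residue_eq_zero_iff _).2 h1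
    rw [CharP.cast_eq_zero_iff _ ℓ] at h2
    have := Nat.le_of_dvd (by norm_num) h2
    omega
  have h2 : (2 : IsLocalRing.ResidueField A) ≠ 0 := by
    intro h
    have h2 : ((2 : ℕ) : IsLocalRing.ResidueField A) = 0 := by exact_mod_cast h
    rw [CharP.cast_eq_zero_iff _ ℓ] at h2
    have := Nat.le_of_dvd (by norm_num) h2
    omega
  obtain ⟨red, hinj, hred⟩ := exists_red5 (R := A) (K := Qb)
    (κ := IsLocalRing.ResidueField A) (IsLocalRing.residue A) ((-27 * e4 : ℤ) : A)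
    ((54 * e6 : ℤ) : A) (aK := -27 * (e4 : Qb)) (bK := 54 * (e6 : Qb))
    (aκ := ((-27 * e4 : ℤ) : IsLocalRing.ResidueField A))
    (bκ := ((54 * e6 : ℤ) : IsLocalRing.ResidueField A)) (by rw [map_intCast]; push_cast; ring) (by rw [map_intCast]; push_cast; ring)
    (map_intCast _ _) (map_intCast _ _) h5 h2 (Δ_ne_zero _ hℓ h7 e4 e6 hgood)
  -- the Frobenius of the reduced curve
  set Fr := mapE (frobenius (IsLocalRing.ResidueField A) ℓ) (map_intCast _ (-27 * e4))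
    (map_intCast _ (54 * e6)) with hFr
  have hmem : ∀ Q : (Esh (-27 * (e4 : Qb)) (54 * (e6 : Qb))).toAffine.Point, Q ∈ tors5 _ →
      galE e4 e6 σ Q ∈ tors5 _ := by
    intro Q hQ
    rw [mem_tors5, ← map_zsmul, mem_tors5.1 hQ, map_zero]
  have key : ∀ (Q : (Esh (-27 * (e4 : Qb)) (54 * (e6 : Qb))).toAffine.Point) (hQ : Q ∈ tors5 _),
      red ⟨galE e4 e6 σ Q, hmem Q hQ⟩ = Fr (red ⟨Q, hQ⟩) := by
    intro Q hQ
    rcases Q with _ | ⟨X, Y, h⟩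
    · have e1 : (⟨galE e4 e6 σ Affine.Point.zero, hmem _ hQ⟩ :
          tors5 (Esh (-27 * (e4 : Qb)) (54 * (e6 : Qb))).toAffine.Point) = 0 :=
        Subtype.ext (map_zero _)
      have e2 : (⟨Affine.Point.zero, hQ⟩ :
          tors5 (Esh (-27 * (e4 : Qb)) (54 * (e6 : Qb))).toAffine.Point) = 0 := rfl
      rw [e1, e2, map_zero, map_zero]
    · obtain ⟨x, y, h', hx, hy, e1⟩ := hred ⟨.some X Y h, hQ⟩ X Y h rfl
      obtain ⟨h2, e2⟩ := mapE_some (σ : Qb →+* Qb) (a := -27 * (e4 : Qb)) (b := 54 * (e6 : Qb))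
        (a' := -27 * (e4 : Qb)) (b' := 54 * (e6 : Qb)) (by simp [map_ofNat]) (by simp [map_ofNat]) h
      obtain ⟨x', y', h'', hx', hy', e3⟩ := hred ⟨galE e4 e6 σ (.some X Y h), hmem _ hQ⟩ _ _ h2 e2
      obtain ⟨h3, e4'⟩ := mapE_some (frobenius (IsLocalRing.ResidueField A) ℓ)
        (map_intCast _ (-27 * e4)) (map_intCast _ (54 * e6)) h'
      rw [e3, e1, hFr, e4']
      have ex : IsLocalRing.residue A x' = frobenius (IsLocalRing.ResidueField A) ℓ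
          (IsLocalRing.residue A x) := by
        rw [frobenius_def]
        refine residue_eq_pow hσ x x' ?_
        have : (x' : Qb) = σ X := hx'
        rw [this, ← hx]
        rfl
      have ey : IsLocalRing.residue A y' = frobenius (IsLocalRing.ResidueField A) ℓ
          (IsLocalRing.residue A y) := by
        rw [frobenius_def]
        refine residue_eq_pow hσ y y' ?_
        have : (y' : Qb) = σ Y := hy'
        rw [this, ← hy]
        rfl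
      simp only [Affine.Point.some.injEq]
      exact ⟨ex, ey⟩
  set c : ℤ := (ℓ : ℤ) + 1 - (Nat.card (Esh (((-27 * e4 : ℤ)) : ZMod ℓ)
    ((54 * e6 : ℤ) : ZMod ℓ)).toAffine.Point : ℤ) with hc
  set PT : tors5 (Esh (-27 * (e4 : Qb)) (54 * (e6 : Qb))).toAffine.Point := ⟨P, hP⟩ with hPT
  set Q1 : tors5 (Esh (-27 * (e4 : Qb)) (54 * (e6 : Qb))).toAffine.Point :=
    ⟨galE e4 e6 σ P, hmem P hP⟩ with hQ1
  set Q2 : tors5 (Esh (-27 * (e4 : Qb)) (54 * (e6 : Qb))).toAffine.Point :=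
    ⟨galE e4 e6 σ (galE e4 e6 σ P), hmem _ (hmem P hP)⟩ with hQ2
  have hrel := frob_relation_E (ℓ := ℓ) (by omega) (-27 * e4) (54 * e6)
    (Δ_ne_zero (ZMod ℓ) hℓ h7 e4 e6 hgood) (κ := IsLocalRing.ResidueField A) (red PT)
  have h1 : red Q1 = Fr (red PT) := key P hP
  have h2' : red Q2 = Fr (Fr (red PT)) := by
    rw [← h1]
    exact key _ (hmem P hP)
  have h3 : red ((2 : ℤ) • (Q2 - c • Q1 + (ℓ : ℤ) • PT)) = 0 := by
    rw [map_zsmul, map_add, map_sub, map_zsmul, map_zsmul, h1, h2']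
    exact hrel
  have h4 : (2 : ℤ) • (Q2 - c • Q1 + (ℓ : ℤ) • PT) = 0 := hinj (h3.trans (map_zero red).symm)
  have h5' : (5 : ℤ) • (Q2 - c • Q1 + (ℓ : ℤ) • PT) = 0 :=
    Subtype.ext (mem_tors5.1 (Q2 - c • Q1 + (ℓ : ℤ) • PT).2)
  have h6 : Q2 - c • Q1 + (ℓ : ℤ) • PT = 0 := by
    have : Q2 - c • Q1 + (ℓ : ℤ) • PT = (5 : ℤ) • (Q2 - c • Q1 + (ℓ : ℤ) • PT)
        - (2 : ℤ) • ((2 : ℤ) • (Q2 - c • Q1 + (ℓ : ℤ) • PT)) := by
      rw [smul_smul, ← sub_smul]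
      norm_num
    rw [this, h4, h5', smul_zero, sub_zero]
  exact congrArg Subtype.val h6

end Fermat.Agent.S52
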