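import Fermat.Agent.S52.UId

set_option autoImplicit false

/-! # S52, package SOL: solutions of `HH u v = e4`, `TT u v = e6` over an algebraically closed
field -/

namespace Fermat.Agent.S52

open Polynomial

namespace Sol

variable {K : Type*} [Field K]

/-- the polynomial `e6² Hab(X,1)³ - e4³ Tab(X,1)²`. -/
noncomputable def pol (e4 e6 : K) : K[X] :=
  C (e6 ^ 2) * (1 + 228 * X + 494 * X ^ 2 - 228 * X ^ 3 + X ^ 4) ^ 3
    - C (e4 ^ 3) * (1 - 522 * X - 10005 * X ^ 2 - 10005 * X ^ 4 + 522 * X ^ 5 + X ^ 6) ^ 2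

theorem eval_pol (e4 e6 x : K) :
    (pol e4 e6).eval x = e6 ^ 2 * Hab x 1 ^ 3 - e4 ^ 3 * Tab x 1 ^ 2 := by
  simp only [pol, Hab, Tab, eval_sub, eval_mul, eval_C, eval_pow, eval_add, eval_X, eval_one,
    eval_ofNat]
  ring

theorem coeff_pol (e4 e6 : K) : (pol e4 e6).coeff 12 = e6 ^ 2 - e4 ^ 3 := by
  unfold pol
  compute_degree!

theorem Hab_homog (l b : K) : Hab (l * b) b = b ^ 4 * Hab l 1 := by
  simp only [Hab]; ring

theorem Tab_homog (l b : K) : Tab (l * b) b = b ^ 6 * Tab l 1 := by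
  simp only [Tab]; ring

theorem exists_scale [IsAlgClosed K] {e4 e6 H T : K} (hd : e4 ^ 3 - e6 ^ 2 ≠ 0)
    (hHT : ¬ (H = 0 ∧ T = 0)) (h : e6 ^ 2 * H ^ 3 = e4 ^ 3 * T ^ 2) :
    ∃ b : K, b ^ 4 * H = e4 ∧ b ^ 6 * T = e6 := by
  by_cases hH : H = 0
  · have hT : T ≠ 0 := fun hT => hHT ⟨hH, hT⟩
    have he4 : e4 = 0 := by
      rw [hH] at h
      have h' : e4 ^ 3 * T ^ 2 = 0 := by rw [← h]; ring
      rcases mul_eq_zero.mp h' with h1 | h1
      · exact pow_eq_zero_iff (by norm_num) |>.mp h1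
      · exact absurd (pow_eq_zero_iff (by norm_num) |>.mp h1) hT
    obtain ⟨b, hb⟩ := IsAlgClosed.exists_pow_nat_eq (e6 / T) (n := 6) (by norm_num)
    refine ⟨b, by rw [hH, he4, mul_zero], ?_⟩
    rw [hb]; field_simp
  by_cases hT : T = 0
  · have he6 : e6 = 0 := by
      rw [hT] at h
      have h' : e6 ^ 2 * H ^ 3 = 0 := by rw [h]; ring
      rcases mul_eq_zero.mp h' with h1 | h1
      · exact pow_eq_zero_iff (by norm_num) |>.mp h1
      · exact absurd (pow_eq_zero_iff (by norm_num) |>.mp h1) hH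
    obtain ⟨b, hb⟩ := IsAlgClosed.exists_pow_nat_eq (e4 / H) (n := 4) (by norm_num)
    refine ⟨b, ?_, by rw [hT, he6, mul_zero]⟩
    rw [hb]; field_simp
  have he4 : e4 ≠ 0 := by
    intro he4
    rw [he4] at h hd
    have h' : e6 ^ 2 * H ^ 3 = 0 := by rw [h]; ring
    rcases mul_eq_zero.mp h' with h1 | h1
    · exact hd (by rw [h1]; ring)
    · exact hH (pow_eq_zero_iff (by norm_num) |>.mp h1)
  have he6 : e6 ≠ 0 := by
    intro he6
    rw [he6] at h
    have h' : e4 ^ 3 * T ^ 2 = 0 := by rw [← h]; ring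
    rcases mul_eq_zero.mp h' with h1 | h1
    · exact he4 (pow_eq_zero_iff (by norm_num) |>.mp h1)
    · exact hT (pow_eq_zero_iff (by norm_num) |>.mp h1)
  obtain ⟨b, hb⟩ := IsAlgClosed.exists_pow_nat_eq ((e6 / T) / (e4 / H)) (n := 2) (by norm_num)
  refine ⟨b, ?_, ?_⟩
  · have : b ^ 4 = (b ^ 2) ^ 2 := by ring
    rw [this, hb]
    field_simp
    linear_combination h
  · have : b ^ 6 = (b ^ 2) ^ 3 := by ring
    rw [this, hb]
    field_simp
    linear_combination h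

end Sol

theorem exists_solution {K : Type*} [Field K] [IsAlgClosed K] [CharZero K] (e4 e6 : K)
    (hd : e4 ^ 3 - e6 ^ 2 ≠ 0) : ∃ u v : K, HH u v = e4 ∧ TT u v = e6 := by
  have hc : (Sol.pol e4 e6).coeff 12 ≠ 0 := by
    rw [Sol.coeff_pol]
    intro h
    exact hd (by linear_combination -h)
  have hdeg : (Sol.pol e4 e6).degree ≠ 0 := by
    intro h
    have h1 : (Sol.pol e4 e6).natDegree = 0 := natDegree_eq_zero_iff_degree_le_zero.mpr h.le
    have h2 := le_natDegree_of_ne_zero hc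
    omega
  obtain ⟨l, hl⟩ := IsAlgClosed.exists_root _ hdeg
  rw [IsRoot.def, Sol.eval_pol] at hl
  have hHT : ¬ (Hab l 1 = 0 ∧ Tab l 1 = 0) := by
    rintro ⟨h1, h2⟩
    exact one_ne_zero (Hab_Tab_zero (by norm_num) (by norm_num) (by norm_num) h1 h2).2
  obtain ⟨b, hb4, hb6⟩ := Sol.exists_scale hd hHT (by linear_combination hl)
  obtain ⟨u, hu⟩ := IsAlgClosed.exists_pow_nat_eq (l * b) (n := 5) (by norm_num)
  obtain ⟨v, hv⟩ := IsAlgClosed.exists_pow_nat_eq b (n := 5) (by norm_num)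
  refine ⟨u, v, ?_, ?_⟩
  · rw [HH, hu, hv, Sol.Hab_homog, hb4]
  · rw [TT, hu, hv, Sol.Tab_homog, hb6]

end Fermat.Agent.S52
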