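import Mathlib

set_option autoImplicit false

/-! # S52: homogenisation of a polynomial identity in `(a, b, t)` of weights `(1, 1, -2)` -/

namespace Fermat.Agent.S52.Refl

universe u

open Polynomial in
/-- a natural family of functions `Φ(a, b, t)`, homogeneous for the weights `(1, 1, -2)`, which
vanishes for `b = 1`, vanishes. -/
theorem eq_zero_of_homog (d : ℕ) (Φ : ∀ (R : Type u) [CommRing R], R → R → R → R)
    (nat : ∀ (R S : Type u) [CommRing R] [CommRing S] (f : R →+* S) (a b t : R),
      f (Φ R a b t) = Φ S (f a) (f b) (f t))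
    (hom : ∀ (R : Type u) [CommRing R] (x y t : R), Φ R (y * x) y t = y ^ d * Φ R x 1 (y ^ 2 * t))
    (one : ∀ (R : Type u) [CommRing R] (x s : R), Φ R x 1 s = 0)
    (R : Type u) [CommRing R] (a b t : R) : Φ R a b t = 0 := by
  -- units
  have unit : ∀ (S : Type u) [CommRing S] (a y y' t : S), y * y' = 1 → Φ S a y t = 0 := by
    intro S _ a y y' t h
    have e : a = y * (y' * a) := by rw [← mul_assoc, h, one_mul]
    rw [e, hom, one, mul_zero]
  -- the generic `b`
  have gen : Φ R[X] (C a) X (C t) = 0 := by
    apply Polynomial.toLaurent_injective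
    have h := nat R[X] (LaurentPolynomial R) (Polynomial.toLaurent (R := R)) (C a) X (C t)
    rw [map_zero]
    refine h.trans (unit _ _ _ (LaurentPolynomial.T (-1)) _ ?_)
    rw [Polynomial.toLaurent_X, ← LaurentPolynomial.T_add]
    simp
  have h := nat R[X] R (Polynomial.evalRingHom b) (C a) X (C t)
  rw [gen, map_zero] at h
  simpa using h.symm

end Fermat.Agent.S52.Refl
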