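import Fermat.Agent.S52.Fam6One
import Fermat.Agent.S52.Homog

set_option autoImplicit false

/-! # S52, package FAM6 : `Tab_family`, `TT_family` -/

namespace Fermat.Agent.S52

namespace Fam6

universe u

/-- the difference of the two sides -/
def Phi (R : Type u) [CommRing R] (a b t : R) : R :=
  Tab (a * (1 + t * alab a b) ^ 5) (b * (1 - t * beab a b) ^ 5) - F6 (Hab a b) (Tab a b) t

section
variable {R : Type u} [CommRing R]

theorem map_Tab {S : Type u} [CommRing S] (f : R →+* S) (a b : R) :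
    f (Tab a b) = Tab (f a) (f b) := by
  simp only [Tab, map_add, map_sub, map_mul, map_pow, map_ofNat]

theorem map_Hab {S : Type u} [CommRing S] (f : R →+* S) (a b : R) :
    f (Hab a b) = Hab (f a) (f b) := by
  simp only [Hab, map_add, map_sub, map_mul, map_pow, map_ofNat]

theorem map_alab {S : Type u} [CommRing S] (f : R →+* S) (a b : R) :
    f (alab a b) = alab (f a) (f b) := by
  simp only [alab, map_add, map_sub, map_mul, map_pow, map_ofNat]

theorem map_beab {S : Type u} [CommRing S] (f : R →+* S) (a b : R) :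
    f (beab a b) = beab (f a) (f b) := by
  simp only [beab, map_add, map_sub, map_mul, map_pow, map_ofNat]

theorem map_F6 {S : Type u} [CommRing S] (f : R →+* S) (e4 e6 t : R) :
    f (F6 e4 e6 t) = F6 (f e4) (f e6) (f t) := by
  simp only [F6, S6, h6_1, h6_2, h6_3, h6_4, h6_5, h6_6, h6_7, h6_8, h6_9, h6_10, h6_11, h6_12, h6_13, h6_14, h6_15, h6_16, h6_17, h6_18, h6_19, h6_20, h6_21, h6_22, h6_23, h6_24, h6_25, h6_26, h6_27, h6_28, h6_29, h6_30, map_add, map_sub, map_mul, map_pow, map_neg, map_ofNat]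

theorem Tab_homog (y A B : R) : Tab (y * A) (y * B) = y ^ 6 * Tab A B := by
  simp only [Tab]
  ring

theorem Hab_homog (y A B : R) : Hab (y * A) (y * B) = y ^ 4 * Hab A B := by
  simp only [Hab]
  ring

theorem alab_homog (y A B : R) : alab (y * A) (y * B) = y ^ 2 * alab A B := by
  simp only [alab]
  ring

theorem beab_homog (y A B : R) : beab (y * A) (y * B) = y ^ 2 * beab A B := by
  simp only [beab]
  ring

theorem F6_homog (y e4 e6 t : R) :
    F6 (y ^ 4 * e4) (y ^ 6 * e6) t = y ^ 6 * F6 e4 e6 (y ^ 2 * t) := by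
  simp only [F6, S6, h6_1, h6_2, h6_3, h6_4, h6_5, h6_6, h6_7, h6_8, h6_9, h6_10, h6_11, h6_12, h6_13, h6_14, h6_15, h6_16, h6_17, h6_18, h6_19, h6_20, h6_21, h6_22, h6_23, h6_24, h6_25, h6_26, h6_27, h6_28, h6_29, h6_30]
  ring

theorem Phi_homog (x y t : R) : Phi R (y * x) y t = y ^ 6 * Phi R x 1 (y ^ 2 * t) := by
  have e : ∀ g : R → R → R, g (y * x) y = g (y * x) (y * 1) := fun g => by rw [mul_one]
  rw [Phi, Phi, e alab, e beab, e Hab, e Tab, alab_homog, beab_homog, Hab_homog, Tab_homog,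
    F6_homog, mul_sub, ← Tab_homog]
  congr 2 <;> ring

end

end Fam6

/-- **FAM6**. -/
theorem Tab_family {R : Type*} [CommRing R] (a b t : R) :
    Tab (a * (1 + t * alab a b) ^ 5) (b * (1 - t * beab a b) ^ 5) = F6 (Hab a b) (Tab a b) t := by
  refine sub_eq_zero.mp (Refl.eq_zero_of_homog 6 (fun R _ a b t => Fam6.Phi R a b t) ?_ ?_ ?_ R a b t)
  · intro R S _ _ f a b t
    simp only [Fam6.Phi, map_sub, Fam6.map_Tab, Fam6.map_F6, Fam6.map_Hab, map_mul, map_pow,
      map_add, map_one, Fam6.map_alab, Fam6.map_beab]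
  · intro R _ x y t
    exact Fam6.Phi_homog x y t
  · intro R _ x s
    exact sub_eq_zero.mpr (Fam6.Tab_family_one x s)

/-- **FAM6**. -/
theorem TT_family {R : Type*} [CommRing R] (u v t : R) :
    TT (uT u v t) (vT u v t) = F6 (HH u v) (TT u v) t := by
  simp only [TT, HH, uT, vT, mul_pow]
  exact Tab_family _ _ _

end Fermat.Agent.S52
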