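import Fermat.Agent.S52.UDefs

set_option autoImplicit false

/-! # S52, package UID: polynomial identities for the icosahedral family -/

namespace Fermat.Agent.S52

section UID
variable {R : Type*} [CommRing R]

theorem Hab_Tab_rel (a b : R) : Hab a b ^ 3 - Tab a b ^ 2 = 1728 * Dab a b := by
  simp only [Hab, Tab, Dab]; ring

theorem HH_TT_rel (u v : R) : HH u v ^ 3 - TT u v ^ 2 = 1728 * ff u v ^ 5 := by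
  have h := Hab_Tab_rel (u ^ 5) (v ^ 5)
  simp only [HH, TT, h, Dab, ff]; ring

theorem Y1_sq (u v : R) : 3 * Y1 u v ^ 2 = X1 u v ^ 3 - 3 * HH u v * X1 u v + 2 * TT u v := by
  simp only [Y1, X1, HH, TT, Hab, Tab]; ring

theorem dbl12 (u v : R) : 4 * X2 u v * (X1 u v ^ 3 - 3 * HH u v * X1 u v + 2 * TT u v)
    = X1 u v ^ 4 + 6 * HH u v * X1 u v ^ 2 - 16 * TT u v * X1 u v + 9 * HH u v ^ 2 := by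
  simp only [X1, X2, HH, TT, Hab, Tab]; ring

theorem dbl21 (u v : R) : 4 * X1 u v * (X2 u v ^ 3 - 3 * HH u v * X2 u v + 2 * TT u v)
    = X2 u v ^ 4 + 6 * HH u v * X2 u v ^ 2 - 16 * TT u v * X2 u v + 9 * HH u v ^ 2 := by
  simp only [X1, X2, HH, TT, Hab, Tab]; ring

theorem X1_sub_X2 (u v : R) : (X1 u v - X2 u v) * (v ^ 2 - u * v - u ^ 2) = 12 * ff u v := by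
  simp only [X1, X2, ff]; ring

theorem alab_add_beab (a b : R) : alab a b + beab a b = 12 * (b ^ 2 - 11 * a * b - a ^ 2) := by
  simp only [alab, beab]; ring

/-- no common zero of `Hab`, `Tab` in characteristic `≠ 2, 3, 5`. -/
theorem Hab_Tab_zero {κ : Type*} [Field κ] (h2 : (2 : κ) ≠ 0) (h3 : (3 : κ) ≠ 0) (h5 : (5 : κ) ≠ 0)
    {a b : κ} (hH : Hab a b = 0) (hT : Tab a b = 0) : a = 0 ∧ b = 0 := by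
  have hrel := Hab_Tab_rel a b
  rw [hH, hT] at hrel
  have h1728 : (1728 : κ) ≠ 0 := by
    have : (1728 : κ) = 2 ^ 6 * 3 ^ 3 := by norm_num
    rw [this]
    exact mul_ne_zero (pow_ne_zero _ h2) (pow_ne_zero _ h3)
  have hD : Dab a b = 0 := by
    have : (1728 : κ) * Dab a b = 0 := by rw [← hrel]; ring
    exact (mul_eq_zero.mp this).resolve_left h1728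
  simp only [Dab] at hD
  rcases mul_eq_zero.mp hD with hab | hd
  · rcases mul_eq_zero.mp hab with ha | hb
    · subst ha
      refine ⟨rfl, ?_⟩
      have : b ^ 4 = 0 := by rw [← hH]; simp only [Hab]; ring
      exact pow_eq_zero_iff (by norm_num) |>.mp this
    · subst hb
      refine ⟨?_, rfl⟩
      have : a ^ 4 = 0 := by rw [← hH]; simp only [Hab]; ring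
      exact pow_eq_zero_iff (by norm_num) |>.mp this
  · have hd' : b ^ 2 - 11 * a * b - a ^ 2 = 0 := pow_eq_zero_iff (by norm_num) |>.mp hd
    have h3125 : (3125 : κ) ≠ 0 := by
      have : (3125 : κ) = 5 ^ 5 := by norm_num
      rw [this]; exact pow_ne_zero _ h5
    have hred : 3125 * (a ^ 3 * (a + 11 * b)) = 0 := by
      have : Hab a b = (b ^ 2 + 239 * a * b + 3124 * a ^ 2) * (b ^ 2 - 11 * a * b - a ^ 2)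
          + 3125 * (a ^ 3 * (a + 11 * b)) := by
        simp only [Hab]; ring
      rw [hd', hH] at this
      linear_combination -this
    rcases mul_eq_zero.mp ((mul_eq_zero.mp hred).resolve_left h3125) with ha | hab
    · have ha0 : a = 0 := pow_eq_zero_iff (by norm_num) |>.mp ha
      subst ha0
      refine ⟨rfl, ?_⟩
      have : b ^ 2 = 0 := by linear_combination hd'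
      exact pow_eq_zero_iff (by norm_num) |>.mp this
    · have hb2 : b ^ 2 = 0 := by linear_combination hd' + (a) * hab
      have hb0 : b = 0 := pow_eq_zero_iff (by norm_num) |>.mp hb2
      subst hb0
      refine ⟨?_, rfl⟩
      linear_combination hab

/-- Fourier extraction of monomials (`ζ` a primitive 5-th root of unity). -/
theorem fourier_X1_1 (u v ζ : R) (hζ : ζ ^ 4 + ζ ^ 3 + ζ ^ 2 + ζ + 1 = 0) :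
    X1 u v + ζ ^ 4 * X1 (ζ * u) v + ζ ^ 3 * X1 (ζ ^ 2 * u) v + ζ ^ 2 * X1 (ζ ^ 3 * u) v
      + ζ * X1 (ζ ^ 4 * u) v = 60 * u * v ^ 9 + 120 * u ^ 6 * v ^ 4 := by
  simp only [X1]
  linear_combination ((1) * u ^ 0 * v ^ 10 * (1 * ζ ^ 0) + (12) * u ^ 1 * v ^ 9 * ((-4) * ζ ^ 0 + 4 * ζ ^ 1) + (24) * u ^ 2 * v ^ 8 * (1 * ζ ^ 0 + (-1) * ζ ^ 1 + 1 * ζ ^ 5) + (36) * u ^ 3 * v ^ 7 * (1 * ζ ^ 0 + (-1) * ζ ^ 1 + 1 * ζ ^ 5 + (-1) * ζ ^ 6 + 1 * ζ ^ 7 + (-1) * ζ ^ 8 + 1 * ζ ^ 9) + (60) * u ^ 4 * v ^ 6 * (1 * ζ ^ 0 + (-1) * ζ ^ 1 + 1 * ζ ^ 5 + (-1) * ζ ^ 6 + 1 * ζ ^ 8 + (-1) * ζ ^ 9 + 1 * ζ ^ 10 + (-1) * ζ ^ 12 + 1 * ζ ^ 13) + (30) * u ^ 5 * v ^ 5 * (1 * ζ ^ 0 + (-1) * ζ ^ 1 + 1 * ζ ^ 5 + (-1) * ζ ^ 6 + 1 * ζ ^ 9 + (-1)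 * ζ ^ 11 + 1 * ζ ^ 13 + (-1) * ζ ^ 16 + 1 * ζ ^ 17) + (24) * u ^ 6 * v ^ 4 * ((-4) * ζ ^ 0 + 4 * ζ ^ 1 + (-4) * ζ ^ 5 + 4 * ζ ^ 6 + (-3) * ζ ^ 10 + 3 * ζ ^ 11 + (-2) * ζ ^ 15 + 2 * ζ ^ 16 + (-1) * ζ ^ 20 + 1 * ζ ^ 21) + (-12) * u ^ 7 * v ^ 3 * (1 * ζ ^ 0 + (-1) * ζ ^ 1 + 1 * ζ ^ 5 + (-1) * ζ ^ 6 + 1 * ζ ^ 10 + (-1) * ζ ^ 12 + 1 * ζ ^ 15 + (-1) * ζ ^ 18 + 1 * ζ ^ 20 + (-1) * ζ ^ 24 + 1 * ζ ^ 25) + (12) * u ^ 8 * v ^ 2 * (1 * ζ ^ 0 + (-1) * ζ ^ 1 + 1 * ζ ^ 5 + (-1) * ζ ^ 6 + 1 * ζ ^ 10 + (-1) * ζ ^ 11 + 1 * ζ ^ 12 + (-1) * ζ ^ 13 + 1 * ζ ^ 15 + (-1) * ζ ^ 16 + 1 * ζ ^ 17 + (-1) * ζ ^ 18 + 1 * ζ ^ 19 + (-1) * ζ ^ 21 + 1 * ζ ^ 22 + (-1) * ζ ^ 23 + 1 * ζ ^ 24 + (-1) * ζ ^ 28 + 1 * ζ ^ 29) + (1) * u ^ 10 * v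 ^ 0 * (1 * ζ ^ 0 + (-1) * ζ ^ 1 + 1 * ζ ^ 5 + (-1) * ζ ^ 6 + 1 * ζ ^ 10 + (-1) * ζ ^ 11 + 1 * ζ ^ 14 + (-1) * ζ ^ 16 + 1 * ζ ^ 19 + (-1) * ζ ^ 21 + 1 * ζ ^ 23 + (-1) * ζ ^ 26 + 1 * ζ ^ 28 + (-1) * ζ ^ 31 + 1 * ζ ^ 32 + (-1) * ζ ^ 36 + 1 * ζ ^ 37)) * hζ

theorem fourier_X1_4 (u v ζ : R) (hζ : ζ ^ 4 + ζ ^ 3 + ζ ^ 2 + ζ + 1 = 0) :
    X1 u v + ζ * X1 (ζ * u) v + ζ ^ 2 * X1 (ζ ^ 2 * u) v + ζ ^ 3 * X1 (ζ ^ 3 * u) v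
      + ζ ^ 4 * X1 (ζ ^ 4 * u) v = 300 * u ^ 4 * v ^ 6 := by
  simp only [X1]
  linear_combination ((1) * u ^ 0 * v ^ 10 * (1 * ζ ^ 0) + (12) * u ^ 1 * v ^ 9 * (1 * ζ ^ 0 + (-1) * ζ ^ 1 + 1 * ζ ^ 2 + (-1) * ζ ^ 3 + 1 * ζ ^ 4) + (24) * u ^ 2 * v ^ 8 * (1 * ζ ^ 0 + (-1) * ζ ^ 1 + 1 * ζ ^ 3 + (-1) * ζ ^ 4 + 1 * ζ ^ 5 + (-1) * ζ ^ 7 + 1 * ζ ^ 8) + (36) * u ^ 3 * v ^ 7 * (1 * ζ ^ 0 + (-1) * ζ ^ 1 + 1 * ζ ^ 4 + (-1) * ζ ^ 6 + 1 * ζ ^ 8 + (-1) * ζ ^ 11 + 1 * ζ ^ 12) + (60) * u ^ 4 * v ^ 6 * ((-4) * ζ ^ 0 + 4 * ζ ^ 1 + (-3) * ζ ^ 5 + 3 * ζ ^ 6 + (-2) * ζ ^ 10 + 2 * ζ ^ 11 + (-1) * ζ ^ 15 + 1 * ζ ^ 16) + (30) * u ^ 5 * v ^ 5 * (1 * ζ ^ 0 + (-1) * ζ ^ 1 + 1 * ζ ^ 5 + (-1) * ζ ^ 7 + 1 * ζ ^ 10 + (-1) * ζ ^ 13 + 1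 * ζ ^ 15 + (-1) * ζ ^ 19 + 1 * ζ ^ 20) + (24) * u ^ 6 * v ^ 4 * (1 * ζ ^ 0 + (-1) * ζ ^ 1 + 1 * ζ ^ 5 + (-1) * ζ ^ 6 + 1 * ζ ^ 7 + (-1) * ζ ^ 8 + 1 * ζ ^ 10 + (-1) * ζ ^ 11 + 1 * ζ ^ 12 + (-1) * ζ ^ 13 + 1 * ζ ^ 14 + (-1) * ζ ^ 16 + 1 * ζ ^ 17 + (-1) * ζ ^ 18 + 1 * ζ ^ 19 + (-1) * ζ ^ 23 + 1 * ζ ^ 24) + (-12) * u ^ 7 * v ^ 3 * (1 * ζ ^ 0 + (-1) * ζ ^ 1 + 1 * ζ ^ 5 + (-1) * ζ ^ 6 + 1 * ζ ^ 8 + (-1) * ζ ^ 9 + 1 * ζ ^ 10 + (-1) * ζ ^ 11 + 1 * ζ ^ 13 + (-1) * ζ ^ 14 + 1 * ζ ^ 15 + (-1) * ζ ^ 17 + 1 * ζ ^ 18 + (-1) * ζ ^ 19 + 1 * ζ ^ 20 + (-1) * ζ ^ 22 + 1 * ζ ^ 23 + (-1) * ζ ^ 27 + 1 * ζ ^ 28) + (12) * u ^ 8 * v ^ 2 * (1 * ζ ^ 0 + (-1) * ζ ^ 1 + 1 * ζ ^ 5 + (-1) * ζ ^ 6 + 1 * ζ ^ 9 + (-1) * ζ ^ 11 + 1 * ζ ^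 14 + (-1) * ζ ^ 16 + 1 * ζ ^ 18 + (-1) * ζ ^ 21 + 1 * ζ ^ 23 + (-1) * ζ ^ 26 + 1 * ζ ^ 27 + (-1) * ζ ^ 31 + 1 * ζ ^ 32) + (1) * u ^ 10 * v ^ 0 * (1 * ζ ^ 0 + (-1) * ζ ^ 1 + 1 * ζ ^ 5 + (-1) * ζ ^ 6 + 1 * ζ ^ 10 + (-1) * ζ ^ 12 + 1 * ζ ^ 15 + (-1) * ζ ^ 17 + 1 * ζ ^ 20 + (-1) * ζ ^ 23 + 1 * ζ ^ 25 + (-1) * ζ ^ 28 + 1 * ζ ^ 30 + (-1) * ζ ^ 34 + 1 * ζ ^ 35 + (-1) * ζ ^ 39 + 1 * ζ ^ 40)) * hζ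

theorem fourier_X2_1 (u v ζ : R) (hζ : ζ ^ 4 + ζ ^ 3 + ζ ^ 2 + ζ + 1 = 0) :
    X2 u v + ζ ^ 4 * X2 (ζ * u) v + ζ ^ 3 * X2 (ζ ^ 2 * u) v + ζ ^ 2 * X2 (ζ ^ 3 * u) v
      + ζ * X2 (ζ ^ 4 * u) v = 300 * u ^ 6 * v ^ 4 := by
  simp only [X2]
  linear_combination ((1) * u ^ 0 * v ^ 10 * (1 * ζ ^ 0) + (12) * u ^ 2 * v ^ 8 * (1 * ζ ^ 0 + (-1) * ζ ^ 1 + 1 * ζ ^ 5) + (12) * u ^ 3 * v ^ 7 * (1 * ζ ^ 0 + (-1) * ζ ^ 1 + 1 * ζ ^ 5 + (-1) * ζ ^ 6 + 1 * ζ ^ 7 + (-1) * ζ ^ 8 + 1 * ζ ^ 9) + (24) * u ^ 4 * v ^ 6 * (1 * ζ ^ 0 + (-1) * ζ ^ 1 + 1 * ζ ^ 5 + (-1) * ζ ^ 6 + 1 * ζ ^ 8 + (-1) * ζ ^ 9 + 1 * ζ ^ 10 + (-1) * ζ ^ 12 + 1 * ζ ^ 13) + (-30) * u ^ 5 * v ^ 5 * (1 * ζ ^ 0 + (-1) * ζ ^ 1 + 1 * ζ ^ 5 + (-1) * ζ ^ 6 + 1 * ζ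 ^ 9 + (-1) * ζ ^ 11 + 1 * ζ ^ 13 + (-1) * ζ ^ 16 + 1 * ζ ^ 17) + (60) * u ^ 6 * v ^ 4 * ((-4) * ζ ^ 0 + 4 * ζ ^ 1 + (-4) * ζ ^ 5 + 4 * ζ ^ 6 + (-3) * ζ ^ 10 + 3 * ζ ^ 11 + (-2) * ζ ^ 15 + 2 * ζ ^ 16 + (-1) * ζ ^ 20 + 1 * ζ ^ 21) + (-36) * u ^ 7 * v ^ 3 * (1 * ζ ^ 0 + (-1) * ζ ^ 1 + 1 * ζ ^ 5 + (-1) * ζ ^ 6 + 1 * ζ ^ 10 + (-1) * ζ ^ 12 + 1 * ζ ^ 15 + (-1) * ζ ^ 18 + 1 * ζ ^ 20 + (-1) * ζ ^ 24 + 1 * ζ ^ 25) + (24) * u ^ 8 * v ^ 2 * (1 * ζ ^ 0 + (-1) * ζ ^ 1 + 1 * ζ ^ 5 + (-1) * ζ ^ 6 + 1 * ζ ^ 10 + (-1) * ζ ^ 11 + 1 * ζ ^ 12 + (-1) * ζ ^ 13 + 1 * ζ ^ 15 + (-1) * ζ ^ 16 + 1 * ζ ^ 17 + (-1) * ζ ^ 18 + 1 * ζ ^ 19 + (-1) * ζ ^ 21 + 1 * ζ ^ 22 + (-1) * ζ ^ 23 + 1 * ζ ^ 24 + (-1) * ζ ^ 28 + 1 * ζ ^ 29) + (-12)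 * u ^ 9 * v ^ 1 * (1 * ζ ^ 0 + (-1) * ζ ^ 1 + 1 * ζ ^ 5 + (-1) * ζ ^ 6 + 1 * ζ ^ 10 + (-1) * ζ ^ 11 + 1 * ζ ^ 13 + (-1) * ζ ^ 14 + 1 * ζ ^ 15 + (-1) * ζ ^ 16 + 1 * ζ ^ 18 + (-1) * ζ ^ 19 + 1 * ζ ^ 20 + (-1) * ζ ^ 22 + 1 * ζ ^ 23 + (-1) * ζ ^ 24 + 1 * ζ ^ 25 + (-1) * ζ ^ 27 + 1 * ζ ^ 28 + (-1) * ζ ^ 32 + 1 * ζ ^ 33) + (1) * u ^ 10 * v ^ 0 * (1 * ζ ^ 0 + (-1) * ζ ^ 1 + 1 * ζ ^ 5 + (-1) * ζ ^ 6 + 1 * ζ ^ 10 + (-1) * ζ ^ 11 + 1 * ζ ^ 14 + (-1) * ζ ^ 16 + 1 * ζ ^ 19 + (-1) * ζ ^ 21 + 1 * ζ ^ 23 + (-1) * ζ ^ 26 + 1 * ζ ^ 28 + (-1) * ζ ^ 31 + 1 * ζ ^ 32 + (-1) * ζ ^ 36 + 1 * ζ ^ 37)) * hζ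
end UID

end Fermat.Agent.S52
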