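import Fermat.Agent.S52.PDefs
import Fermat.Agent.S52.UId
import Fermat.Agent.S51.Galois

set_option autoImplicit false

/-! # S52, package UTORS : the 5-torsion points attached to the solutions of `HH = e4`, `TT = e6` -/

namespace Fermat.Agent.S52

open WeierstrassCurve Fermat.Agent.S51
open scoped WeierstrassCurve.Affine

namespace UTors

section alg

variable {K : Type*} [Field K] [CharZero K]

/-- `F(X) = X³ - 3HX + 2T` does not vanish at `X` if `4 X' F(X) = N(X)`. -/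
lemma F_ne_zero {H T X X' : K} (hd : H ^ 3 - T ^ 2 ≠ 0)
    (hdbl : 4 * X' * (X ^ 3 - 3 * H * X + 2 * T)
      = X ^ 4 + 6 * H * X ^ 2 - 16 * T * X + 9 * H ^ 2) :
    X ^ 3 - 3 * H * X + 2 * T ≠ 0 := by
  intro hF
  rw [hF, mul_zero] at hdbl
  have h1 : (3 * X ^ 2 - 3 * H) ^ 2 = 0 := by linear_combination (-1) * hdbl + 8 * X * hF
  have h1' : 3 * X ^ 2 - 3 * H = 0 := by simpa using h1
  have h2 : X ^ 2 = H := by linear_combination (1 / 3) * h1'
  have h3 : T = H * X := by linear_combination (1 / 2) * hF - (1 / 2) * X * h2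
  apply hd
  rw [h3, ← h2]
  ring

lemma ff_ne_zero {u v : K} (hd : HH u v ^ 3 - TT u v ^ 2 ≠ 0) : ff u v ≠ 0 := by
  intro h
  apply hd
  rw [HH_TT_rel, h]
  ring

lemma X1_ne_X2 {u v : K} (hd : HH u v ^ 3 - TT u v ^ 2 ≠ 0) : X1 u v ≠ X2 u v := by
  intro h
  have := X1_sub_X2 u v
  rw [h, sub_self, zero_mul] at this
  exact ff_ne_zero hd (by
    have h12 : (12 : K) ≠ 0 := by norm_num
    exact (mul_eq_zero.1 this.symm).resolve_left h12)

lemma F1_ne_zero {u v : K} (hd : HH u v ^ 3 - TT u v ^ 2 ≠ 0) :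
    X1 u v ^ 3 - 3 * HH u v * X1 u v + 2 * TT u v ≠ 0 := F_ne_zero hd (dbl12 u v)

lemma F2_ne_zero {u v : K} (hd : HH u v ^ 3 - TT u v ^ 2 ≠ 0) :
    X2 u v ^ 3 - 3 * HH u v * X2 u v + 2 * TT u v ≠ 0 := F_ne_zero hd (dbl21 u v)

end alg

section maps

variable {R S : Type*} [CommRing R] [CommRing S] (f : R →+* S)

lemma map_HH (u v : R) : f (HH u v) = HH (f u) (f v) := by
  simp only [HH, Hab, map_add, map_sub, map_mul, map_pow, map_ofNat]

lemma map_TT (u v : R) : f (TT u v) = TT (f u) (f v) := by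
  simp only [TT, Tab, map_add, map_sub, map_mul, map_pow, map_ofNat]

lemma map_X1 (u v : R) : f (X1 u v) = X1 (f u) (f v) := by
  simp only [X1, map_add, map_sub, map_mul, map_pow, map_ofNat]

lemma map_Y1 (u v : R) : f (Y1 u v) = Y1 (f u) (f v) := by
  simp only [Y1, map_add, map_sub, map_mul, map_pow, map_ofNat]

end maps

section core

variable {K : Type*} [Field K] [DecidableEq K]

lemma some_congr {E : WeierstrassCurve K} {x x' y y' : K} (hx : x = x') (hy : y = y')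
    (h : E.toAffine.Nonsingular x y) (h' : E.toAffine.Nonsingular x' y') :
    (Affine.Point.some x y h : E.toAffine.Point) = .some x' y' h' := by
  subst hx hy
  rfl

/-- A point whose `x`-coordinate satisfies `IsX5`. -/
theorem core (E : WeierstrassCurve K) {x₁ x₂ y : K} (h : E.toAffine.Nonsingular x₁ y)
    (hX : IsX5 E x₁ x₂) :
    (5 : ℤ) • (Affine.Point.some x₁ y h : E.toAffine.Point) = 0 ∧
      ∃ y' h', (2 : ℤ) • (Affine.Point.some x₁ y h : E.toAffine.Point) = .some x₂ y' h' := by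
  obtain ⟨x', y', h', e, hx⟩ := two_smul_some E h hX.2.1
  have hxx : x' = x₂ := by
    rw [← hX.2.2.2.1] at hx
    exact mul_right_cancel₀ hX.2.1 hx
  subst hxx
  exact ⟨(five_smul_eq_zero_iff E h).2 ⟨x', y', h', e, hX⟩, y', h', e⟩

end core

section esh

variable {K : Type*} [Field K] [CharZero K]

lemma fX_Esh (A B x : K) : fX (Esh A B) x = 4 * x ^ 3 + 4 * A * x + 4 * B := by
  simp only [fX, Esh, WeierstrassCurve.b₂, WeierstrassCurve.b₄, WeierstrassCurve.b₆]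
  ring

lemma nX_Esh (A B x : K) : nX (Esh A B) x = x ^ 4 - 2 * A * x ^ 2 - 8 * B * x + A ^ 2 := by
  simp only [nX, Esh, WeierstrassCurve.b₄, WeierstrassCurve.b₆, WeierstrassCurve.b₈]
  ring

lemma Δ_Esh (A B : K) : (Esh A B).Δ = -16 * (4 * A ^ 3 + 27 * B ^ 2) := by
  simp only [WeierstrassCurve.Δ, Esh, WeierstrassCurve.b₂, WeierstrassCurve.b₄,
    WeierstrassCurve.b₆, WeierstrassCurve.b₈]
  ring

lemma Δ_Esh_ne_zero {e4 e6 : K} (hd : e4 ^ 3 - e6 ^ 2 ≠ 0) :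
    (Esh (-27 * e4) (54 * e6)).Δ ≠ 0 := by
  rw [Δ_Esh]
  intro h
  apply hd
  have : (1259712 : K) * (e4 ^ 3 - e6 ^ 2) = 0 := by linear_combination h
  exact (mul_eq_zero.1 this).resolve_left (by norm_num)

lemma nonsingular_of_equation (E : WeierstrassCurve K) (hΔ : E.Δ ≠ 0) {x y : K}
    (h : E.toAffine.Equation x y) : E.toAffine.Nonsingular x y := by
  haveI : E.IsElliptic := ⟨isUnit_iff_ne_zero.2 hΔ⟩
  exact Affine.equation_iff_nonsingular.1 h

lemma nonsingular_Q {e4 e6 u v : K} (h4 : HH u v = e4) (h6 : TT u v = e6)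
    (hd : e4 ^ 3 - e6 ^ 2 ≠ 0) :
    (Esh (-27 * e4) (54 * e6)).toAffine.Nonsingular (3 * X1 u v) (9 * Y1 u v) := by
  apply nonsingular_of_equation _ (Δ_Esh_ne_zero hd)
  rw [Affine.equation_iff]
  simp only [Esh]
  have := Y1_sq u v
  rw [h4, h6] at this
  linear_combination 27 * this

lemma isX5_Q {e4 e6 u v : K} (h4 : HH u v = e4) (h6 : TT u v = e6) (hd : e4 ^ 3 - e6 ^ 2 ≠ 0) :
    IsX5 (Esh (-27 * e4) (54 * e6)) (3 * X1 u v) (3 * X2 u v) := by
  subst h4 h6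
  have h3 : (3 : K) ≠ 0 := by norm_num
  have h108 : (108 : K) ≠ 0 := by norm_num
  refine ⟨fun h => X1_ne_X2 hd (mul_left_cancel₀ h3 h), ?_, ?_, ?_, ?_⟩
  · rw [fX_Esh]
    intro h
    apply F1_ne_zero hd
    have : (108 : K) * (X1 u v ^ 3 - 3 * HH u v * X1 u v + 2 * TT u v) = 0 := by
      linear_combination h
    exact (mul_eq_zero.1 this).resolve_left h108
  · rw [fX_Esh]
    intro h
    apply F2_ne_zero hd
    have : (108 : K) * (X2 u v ^ 3 - 3 * HH u v * X2 u v + 2 * TT u v) = 0 := by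
      linear_combination h
    exact (mul_eq_zero.1 this).resolve_left h108
  · rw [fX_Esh, nX_Esh]
    linear_combination 81 * dbl12 u v
  · rw [fX_Esh, nX_Esh]
    linear_combination 81 * dbl21 u v

end esh

section gen

variable {K : Type*} [Field K] [CharZero K]

lemma fX_gen (E : WeierstrassCurve K) (X : K) :
    432 * fX E ((X - E.b₂) / 12) = X ^ 3 - 3 * E.c₄ * X - 2 * E.c₆ := by
  simp only [fX, WeierstrassCurve.c₄, WeierstrassCurve.c₆]
  ring

lemma nX_gen (E : WeierstrassCurve K) (X : K) :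
    20736 * nX E ((X - E.b₂) / 12) = X ^ 4 + 6 * E.c₄ * X ^ 2 + 16 * E.c₆ * X + 9 * E.c₄ ^ 2
      - 4 * E.b₂ * (X ^ 3 - 3 * E.c₄ * X - 2 * E.c₆) := by
  have := E.b_relation
  simp only [nX, WeierstrassCurve.c₄, WeierstrassCurve.c₆]
  linear_combination (-5184) * this

lemma hd_gen (E : WeierstrassCurve K) {u v : K} (h4 : HH u v = E.c₄) (h6 : TT u v = - E.c₆)
    (hΔ : E.Δ ≠ 0) : HH u v ^ 3 - TT u v ^ 2 ≠ 0 := by
  rw [h4, h6, neg_sq, ← E.c_relation]
  exact mul_ne_zero (by norm_num) hΔ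

lemma isX5_gen (E : WeierstrassCurve K) {u v : K} (h4 : HH u v = E.c₄) (h6 : TT u v = - E.c₆)
    (hΔ : E.Δ ≠ 0) : IsX5 E ((X1 u v - E.b₂) / 12) ((X2 u v - E.b₂) / 12) := by
  have hd := hd_gen E h4 h6 hΔ
  have h6' : E.c₆ = - TT u v := by rw [h6, neg_neg]
  have hf1 := fX_gen E (X1 u v)
  have hf2 := fX_gen E (X2 u v)
  have hn1 := nX_gen E (X1 u v)
  have hn2 := nX_gen E (X2 u v)
  rw [← h4, h6'] at hf1 hf2 hn1 hn2
  have h20736 : (20736 : K) ≠ 0 := by norm_num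
  refine ⟨fun h => X1_ne_X2 hd ?_, ?_, ?_, ?_, ?_⟩
  · linear_combination 12 * h
  · intro h
    apply F1_ne_zero hd
    rw [h] at hf1
    linear_combination (-1) * hf1
  · intro h
    apply F2_ne_zero hd
    rw [h] at hf2
    linear_combination (-1) * hf2
  · apply mul_left_cancel₀ h20736
    rw [hn1]
    linear_combination (4 * (X2 u v - E.b₂)) * hf1 + dbl12 u v
  · apply mul_left_cancel₀ h20736
    rw [hn2]
    linear_combination (4 * (X1 u v - E.b₂)) * hf2 + dbl21 u v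

lemma nonsingular_gen (E : WeierstrassCurve K) {u v : K} (h4 : HH u v = E.c₄)
    (h6 : TT u v = - E.c₆) (hΔ : E.Δ ≠ 0) :
    E.toAffine.Nonsingular ((X1 u v - E.b₂) / 12)
      ((Y1 u v / 12 - E.a₁ * ((X1 u v - E.b₂) / 12) - E.a₃) / 2) := by
  apply nonsingular_of_equation E hΔ
  have h6' : E.c₆ = - TT u v := by rw [h6, neg_neg]
  have hf1 := fX_gen E (X1 u v)
  rw [← h4, h6'] at hf1
  have hY := Y1_sq u v
  set x := (X1 u v - E.b₂) / 12 with hx
  rw [Affine.equation_iff]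
  simp only [fX, WeierstrassCurve.b₂, WeierstrassCurve.b₄, WeierstrassCurve.b₆] at hf1
  linear_combination (1 / 1728) * hY - (1 / 1728) * hf1

end gen

end UTors

open UTors

section UTORS
variable {K : Type*} [Field K] [CharZero K] [DecidableEq K]

theorem Qpt_spec {e4 e6 u v : K} (h4 : HH u v = e4) (h6 : TT u v = e6) (hd : e4 ^ 3 - e6 ^ 2 ≠ 0) :
    ∃ h, Qpt e4 e6 u v = .some (3 * X1 u v) (9 * Y1 u v) h :=
  ⟨nonsingular_Q h4 h6 hd, by rw [Qpt, dif_pos (nonsingular_Q h4 h6 hd)]⟩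

theorem Qpt_mem_tors5 {e4 e6 u v : K} (h4 : HH u v = e4) (h6 : TT u v = e6)
    (hd : e4 ^ 3 - e6 ^ 2 ≠ 0) : Qpt e4 e6 u v ∈ tors5 _ := by
  obtain ⟨h, e⟩ := Qpt_spec h4 h6 hd
  rw [mem_tors5, e]
  exact (core _ h (isX5_Q h4 h6 hd)).1

theorem mapE_Qpt {K' : Type*} [Field K'] [CharZero K'] [DecidableEq K'] (f : K →+* K')
    {e4 e6 u v : K} (h4 : HH u v = e4) (h6 : TT u v = e6) (hd : e4 ^ 3 - e6 ^ 2 ≠ 0)
    {e4' e6' : K'} (h4' : f e4 = e4') (h6' : f e6 = e6')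
    (ha : f (-27 * e4) = -27 * e4') (hb : f (54 * e6) = 54 * e6') :
    mapE f ha hb (Qpt e4 e6 u v) = Qpt e4' e6' (f u) (f v) := by
  obtain ⟨h, e⟩ := Qpt_spec h4 h6 hd
  have h4'' : HH (f u) (f v) = e4' := by rw [← map_HH, h4, h4']
  have h6'' : TT (f u) (f v) = e6' := by rw [← map_TT, h6, h6']
  have hd' : e4' ^ 3 - e6' ^ 2 ≠ 0 := by
    rw [← h4', ← h6', ← map_pow, ← map_pow, ← map_sub]
    exact (map_ne_zero f).2 hd
  obtain ⟨h', e'⟩ := Qpt_spec h4'' h6'' hd'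
  obtain ⟨h'', e''⟩ := mapE_some f ha hb h
  rw [e, e', e'']
  apply some_congr
  · rw [map_mul, map_X1, map_ofNat]
  · rw [map_mul, map_Y1, map_ofNat]

theorem QW_spec (E : WeierstrassCurve K) {u v : K} (h4 : HH u v = E.c₄) (h6 : TT u v = - E.c₆)
    (hΔ : E.Δ ≠ 0) :
    (∃ y h, QW E u v = .some ((X1 u v - E.b₂) / 12) y h) ∧ (5 : ℤ) • QW E u v = 0 ∧
      ∃ y h, (2 : ℤ) • QW E u v = .some ((X2 u v - E.b₂) / 12) y h := by
  have hn := nonsingular_gen E h4 h6 hΔ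
  have e : QW E u v = .some _ _ hn := by rw [QW, dif_pos hn]
  obtain ⟨h5, h2⟩ := core E hn (isX5_gen E h4 h6 hΔ)
  rw [e]
  exact ⟨⟨_, hn, rfl⟩, h5, h2⟩

end UTORS

end Fermat.Agent.S52
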