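import Fermat.Agent.S52.Fam4
import Fermat.Agent.S52.Fam6
import Fermat.Agent.S52.UTors
import Fermat.Agent.S52.Red5

set_option autoImplicit false
set_option linter.unusedSimpArgs false
set_option linter.unusedSectionVars false

/-! # S52, package TRANSFER : relations between the points `Qpt` are constant in the family

Relations `m Q_{w₁} + n Q_{w₂} + k Q_{w₃} = 0` on the curve `(e4, e6)` transfer to the member `c` of
the family: the generic points over `K(X)` are `5`-torsion, and the reductions at `X = 0` and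
`X = c` are injective on the `5`-torsion. -/

namespace Fermat.Agent.S52

open Polynomial WeierstrassCurve

namespace Transfer

section maps

variable {R S : Type*} [CommRing R] [CommRing S] (f : R →+* S)

lemma map_Hab (a b : R) : f (Hab a b) = Hab (f a) (f b) := by
  simp only [Hab, map_add, map_sub, map_mul, map_pow, map_ofNat]

lemma map_Tab (a b : R) : f (Tab a b) = Tab (f a) (f b) := by
  simp only [Tab, map_add, map_sub, map_mul, map_pow, map_ofNat]

lemma map_HH (u v : R) : f (HH u v) = HH (f u) (f v) := by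
  simp only [HH, map_Hab, map_pow]

lemma map_TT (u v : R) : f (TT u v) = TT (f u) (f v) := by
  simp only [TT, map_Tab, map_pow]

lemma map_X1 (u v : R) : f (X1 u v) = X1 (f u) (f v) := by
  simp only [X1, map_add, map_sub, map_mul, map_pow, map_ofNat]

lemma map_Y1 (u v : R) : f (Y1 u v) = Y1 (f u) (f v) := by
  simp only [Y1, map_add, map_sub, map_mul, map_pow, map_ofNat]

lemma map_uT (u v t : R) : f (uT u v t) = uT (f u) (f v) (f t) := by
  simp only [uT, alab, map_add, map_sub, map_mul, map_pow, map_ofNat, map_one]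

lemma map_vT (u v t : R) : f (vT u v t) = vT (f u) (f v) (f t) := by
  simp only [vT, beab, map_add, map_sub, map_mul, map_pow, map_ofNat, map_one]

lemma map_S4 (a b t : R) : f (S4 a b t) = S4 (f a) (f b) (f t) := by
  simp only [S4, h4_1, h4_2, h4_3, h4_4, h4_5, h4_6, h4_7, h4_8, h4_9, h4_10, h4_11, h4_12, h4_13,
    h4_14, h4_15, h4_16, h4_17, h4_18, h4_19, h4_20, map_add, map_sub, map_mul, map_pow, map_ofNat,
    map_neg]

lemma map_S6 (a b t : R) : f (S6 a b t) = S6 (f a) (f b) (f t) := by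
  simp only [S6, h6_1, h6_2, h6_3, h6_4, h6_5, h6_6, h6_7, h6_8, h6_9, h6_10, h6_11, h6_12, h6_13,
    h6_14, h6_15, h6_16, h6_17, h6_18, h6_19, h6_20, h6_21, h6_22, h6_23, h6_24, h6_25, h6_26,
    h6_27, h6_28, h6_29, h6_30, map_add, map_sub, map_mul, map_pow, map_ofNat, map_neg]

lemma map_F4 (a b t : R) : f (F4 a b t) = F4 (f a) (f b) (f t) := by
  simp only [F4, map_add, map_mul, map_S4]

lemma map_F6 (a b t : R) : f (F6 a b t) = F6 (f a) (f b) (f t) := by
  simp only [F6, map_add, map_mul, map_S6]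

lemma F4_zero (a b : R) : F4 a b 0 = a := by simp [F4]

lemma F6_zero (a b : R) : F6 a b 0 = b := by simp [F6]

lemma uT_zero (u v : R) : uT u v 0 = u := by simp [uT]

lemma vT_zero (u v : R) : vT u v 0 = v := by simp [vT]

lemma Esh_Δ (e4 e6 : R) : (Esh (-27 * e4) (54 * e6)).Δ = 1259712 * (e4 ^ 3 - e6 ^ 2) := by
  simp only [Esh, WeierstrassCurve.Δ, WeierstrassCurve.b₂, WeierstrassCurve.b₄,
    WeierstrassCurve.b₆, WeierstrassCurve.b₈]
  ring

end maps

section generic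

variable {K : Type*} [Field K] [CharZero K] [DecidableEq K]
  {L : Type*} [Field L] [Algebra K[X] L] [IsFractionRing K[X] L] [CharZero L] [DecidableEq L]

/-- `E4` of the generic member. -/
noncomputable def g4 (e4 e6 : K) : K[X] := F4 (C e4) (C e6) X

/-- `E6` of the generic member. -/
noncomputable def g6 (e4 e6 : K) : K[X] := F6 (C e4) (C e6) X

/-- the generic solution. -/
noncomputable def gu (u v : K) : K[X] := uT (C u) (C v) X

/-- the generic solution. -/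
noncomputable def gv (u v : K) : K[X] := vT (C u) (C v) X

lemma eval_g4 (e4 e6 c : K) : evalRingHom c (g4 e4 e6) = F4 e4 e6 c := by
  rw [g4, map_F4]; simp

lemma eval_g6 (e4 e6 c : K) : evalRingHom c (g6 e4 e6) = F6 e4 e6 c := by
  rw [g6, map_F6]; simp

lemma eval_gu (u v c : K) : evalRingHom c (gu u v) = uT u v c := by
  rw [gu, map_uT]; simp

lemma eval_gv (u v c : K) : evalRingHom c (gv u v) = vT u v c := by
  rw [gv, map_vT]; simp

lemma HH_gen {e4 e6 u v : K} (h4 : HH u v = e4) (h6 : TT u v = e6) :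
    HH (gu u v) (gv u v) = g4 e4 e6 := by
  rw [gu, gv, HH_family, g4, ← map_HH, ← map_TT, h4, h6]

lemma TT_gen {e4 e6 u v : K} (h4 : HH u v = e4) (h6 : TT u v = e6) :
    TT (gu u v) (gv u v) = g6 e4 e6 := by
  rw [gu, gv, TT_family, g6, ← map_HH, ← map_TT, h4, h6]

lemma disc_gen_ne_zero {e4 e6 : K} (hd : e4 ^ 3 - e6 ^ 2 ≠ 0) :
    (algebraMap K[X] L (g4 e4 e6)) ^ 3 - (algebraMap K[X] L (g6 e4 e6)) ^ 2 ≠ 0 := by
  rw [← map_pow, ← map_pow, ← map_sub]
  intro h0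
  have h1 : g4 e4 e6 ^ 3 - g6 e4 e6 ^ 2 = 0 :=
    (IsFractionRing.injective K[X] L) (by rw [h0, map_zero])
  have h2 := congrArg (evalRingHom (0 : K)) h1
  rw [map_sub, map_pow, map_pow, eval_g4, eval_g6, F4_zero, F6_zero, map_zero] at h2
  exact hd h2

variable (L) in
/-- the generic point attached to a solution. -/
noncomputable def G (e4 e6 u v : K) :
    (Esh (-27 * algebraMap K[X] L (g4 e4 e6)) (54 * algebraMap K[X] L (g6 e4 e6))).toAffine.Point :=
  Qpt (algebraMap K[X] L (g4 e4 e6)) (algebraMap K[X] L (g6 e4 e6))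
    (algebraMap K[X] L (gu u v)) (algebraMap K[X] L (gv u v))

lemma HH_L {e4 e6 u v : K} (h4 : HH u v = e4) (h6 : TT u v = e6) :
    HH (algebraMap K[X] L (gu u v)) (algebraMap K[X] L (gv u v)) = algebraMap K[X] L (g4 e4 e6) := by
  rw [← map_HH, HH_gen h4 h6]

lemma TT_L {e4 e6 u v : K} (h4 : HH u v = e4) (h6 : TT u v = e6) :
    TT (algebraMap K[X] L (gu u v)) (algebraMap K[X] L (gv u v)) = algebraMap K[X] L (g6 e4 e6) := by
  rw [← map_TT, TT_gen h4 h6]

lemma G_mem {e4 e6 u v : K} (hd : e4 ^ 3 - e6 ^ 2 ≠ 0) (h4 : HH u v = e4) (h6 : TT u v = e6) :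
    G L e4 e6 u v ∈ tors5 _ :=
  Qpt_mem_tors5 (HH_L h4 h6) (TT_L h4 h6) (disc_gen_ne_zero hd)

/-- reduction of the generic curve at `X = c`. -/
theorem exists_redc {e4 e6 : K} (hd : e4 ^ 3 - e6 ^ 2 ≠ 0) (c : K) {e4' e6' : K}
    (h4' : F4 e4 e6 c = e4') (h6' : F6 e4 e6 c = e6') (hd' : e4' ^ 3 - e6' ^ 2 ≠ 0) :
    ∃ red : tors5 (Esh (-27 * algebraMap K[X] L (g4 e4 e6))
        (54 * algebraMap K[X] L (g6 e4 e6))).toAffine.Point →+
        (Esh (-27 * e4') (54 * e6')).toAffine.Point,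
      Function.Injective red ∧
      ∀ (u v u' v' : K) (h4 : HH u v = e4) (h6 : TT u v = e6), uT u v c = u' → vT u v c = v' →
        red ⟨G L e4 e6 u v, G_mem hd h4 h6⟩ = Qpt e4' e6' u' v' := by
  have h5 : IsUnit (5 : K[X]) := by
    have : (5 : K[X]) = C (5 : K) := (map_ofNat C 5).symm
    rw [this]
    exact isUnit_C.2 (isUnit_iff_ne_zero.2 (by norm_num))
  have hΔ : (Esh (-27 * e4') (54 * e6')).Δ ≠ 0 := by
    rw [Esh_Δ]
    exact mul_ne_zero (by norm_num) hd'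
  obtain ⟨red, hinj, hred⟩ := exists_red5 (R := K[X]) (K := L) (κ := K) (evalRingHom c)
    (-27 * g4 e4 e6) (54 * g6 e4 e6)
    (aK := -27 * algebraMap K[X] L (g4 e4 e6)) (bK := 54 * algebraMap K[X] L (g6 e4 e6))
    (aκ := -27 * e4') (bκ := 54 * e6')
    (by rw [map_mul, map_neg, map_ofNat]) (by rw [map_mul, map_ofNat])
    (by rw [map_mul, map_neg, map_ofNat, eval_g4, h4']) (by rw [map_mul, map_ofNat, eval_g6, h6'])
    h5 (by norm_num) hΔ
  refine ⟨red, hinj, ?_⟩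
  intro u v u' v' h4 h6 hu hv
  obtain ⟨hns, hG⟩ := Qpt_spec (HH_L (L := L) h4 h6) (TT_L h4 h6) (disc_gen_ne_zero hd)
  obtain ⟨x, y, h', hx, hy, hr⟩ := hred ⟨G L e4 e6 u v, G_mem hd h4 h6⟩ _ _ hns hG
  have hinjL := IsFractionRing.injective K[X] L
  have hx' : x = 3 * X1 (gu u v) (gv u v) := hinjL (by rw [hx, map_mul, map_ofNat, map_X1])
  have hy' : y = 9 * Y1 (gu u v) (gv u v) := hinjL (by rw [hy, map_mul, map_ofNat, map_Y1])
  have h4c : HH u' v' = e4' := by rw [← hu, ← hv, HH_family, h4, h6, h4']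
  have h6c : TT u' v' = e6' := by rw [← hu, ← hv, TT_family, h4, h6, h6']
  obtain ⟨hns', hQ⟩ := Qpt_spec h4c h6c hd'
  rw [hr, hQ]
  have ex : evalRingHom c x = 3 * X1 u' v' := by
    rw [hx', map_mul, map_ofNat, map_X1, eval_gu, eval_gv, hu, hv]
  have ey : evalRingHom c y = 9 * Y1 u' v' := by
    rw [hy', map_mul, map_ofNat, map_Y1, eval_gu, eval_gv, hu, hv]
  simp only [ex, ey]

end generic

end Transfer

open Transfer in
theorem transfer {K : Type*} [Field K] [CharZero K] [DecidableEq K] {e4 e6 c : K}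
    (hd : e4 ^ 3 - e6 ^ 2 ≠ 0) (hd' : F4 e4 e6 c ^ 3 - F6 e4 e6 c ^ 2 ≠ 0)
    {u₁ v₁ u₂ v₂ u₃ v₃ : K} (h41 : HH u₁ v₁ = e4) (h61 : TT u₁ v₁ = e6) (h42 : HH u₂ v₂ = e4)
    (h62 : TT u₂ v₂ = e6) (h43 : HH u₃ v₃ = e4) (h63 : TT u₃ v₃ = e6) (m n k : ℤ)
    (h : m • Qpt e4 e6 u₁ v₁ + n • Qpt e4 e6 u₂ v₂ + k • Qpt e4 e6 u₃ v₃ = 0) :
    m • Qpt (F4 e4 e6 c) (F6 e4 e6 c) (uT u₁ v₁ c) (vT u₁ v₁ c)
      + n • Qpt (F4 e4 e6 c) (F6 e4 e6 c) (uT u₂ v₂ c) (vT u₂ v₂ c)
      + k • Qpt (F4 e4 e6 c) (F6 e4 e6 c) (uT u₃ v₃ c) (vT u₃ v₃ c) = 0 := by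
  classical
  have hchar : CharZero (RatFunc K) :=
    charZero_of_injective_algebraMap (algebraMap K (RatFunc K)).injective
  obtain ⟨r0, hinj0, hr0⟩ := exists_redc (L := RatFunc K) hd 0 (F4_zero e4 e6) (F6_zero e4 e6) hd
  obtain ⟨rc, -, hrc⟩ := exists_redc (L := RatFunc K) hd c rfl rfl hd'
  set G1 : tors5 _ := ⟨G (RatFunc K) e4 e6 u₁ v₁, G_mem hd h41 h61⟩
  set G2 : tors5 _ := ⟨G (RatFunc K) e4 e6 u₂ v₂, G_mem hd h42 h62⟩
  set G3 : tors5 _ := ⟨G (RatFunc K) e4 e6 u₃ v₃, G_mem hd h43 h63⟩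
  have hz : m • G1 + n • G2 + k • G3 = 0 := by
    apply hinj0
    rw [map_add, map_add, map_zsmul, map_zsmul, map_zsmul, map_zero,
      hr0 u₁ v₁ u₁ v₁ h41 h61 (uT_zero _ _) (vT_zero _ _),
      hr0 u₂ v₂ u₂ v₂ h42 h62 (uT_zero _ _) (vT_zero _ _),
      hr0 u₃ v₃ u₃ v₃ h43 h63 (uT_zero _ _) (vT_zero _ _)]
    exact h
  have := congrArg rc hz
  rw [map_add, map_add, map_zsmul, map_zsmul, map_zsmul, map_zero,
    hrc u₁ v₁ _ _ h41 h61 rfl rfl, hrc u₂ v₂ _ _ h42 h62 rfl rfl,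
    hrc u₃ v₃ _ _ h43 h63 rfl rfl] at this
  exact this

end Fermat.Agent.S52
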