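import Fermat.Agent.S52.Fam6
import Fermat.Agent.S52.Sol
import Fermat.Agent.S52.Transfer
import Fermat.Agent.S52.UTors
import Fermat.Agent.S52.Fam4
import Fermat.Agent.S52.Frob5

set_option autoImplicit false

/-! # S52, package AP: `a_ℓ` is constant mod 5 along the family -/

namespace Fermat.Agent.S52

open WeierstrassCurve

namespace Ap

section maps

variable {R S : Type*} [CommRing R] [CommRing S] (f : R →+* S)

lemma map_HH (u v : R) : f (HH u v) = HH (f u) (f v) := by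
  simp [HH, Hab, map_ofNat]

lemma map_TT (u v : R) : f (TT u v) = TT (f u) (f v) := by
  simp [TT, Tab, map_ofNat]

lemma map_uT (u v t : R) : f (uT u v t) = uT (f u) (f v) (f t) := by
  simp [uT, alab, map_ofNat]

lemma map_vT (u v t : R) : f (vT u v t) = vT (f u) (f v) (f t) := by
  simp [vT, beab, map_ofNat]

lemma map_F4 (a b t : R) : f (F4 a b t) = F4 (f a) (f b) (f t) := by
  simp only [F4, S4, h4_1, h4_2, h4_3, h4_4, h4_5, h4_6, h4_7, h4_8, h4_9, h4_10, h4_11, h4_12,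
    h4_13, h4_14, h4_15, h4_16, h4_17, h4_18, h4_19, h4_20, map_add, map_sub, map_mul, map_pow,
    map_neg, map_ofNat]

lemma map_F6 (a b t : R) : f (F6 a b t) = F6 (f a) (f b) (f t) := by
  simp only [F6, S6, h6_1, h6_2, h6_3, h6_4, h6_5, h6_6, h6_7, h6_8, h6_9, h6_10, h6_11, h6_12,
    h6_13, h6_14, h6_15, h6_16, h6_17, h6_18, h6_19, h6_20, h6_21, h6_22, h6_23, h6_24, h6_25,
    h6_26, h6_27, h6_28, h6_29, h6_30, map_add, map_sub, map_mul, map_pow, map_neg, map_ofNat]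

end maps

/-- the Galois action on the points `Qpt`. -/
lemma galE_Qpt (e4 e6 : ℤ) (σ : GQ) {u v : Qb} (h4 : HH u v = (e4 : Qb)) (h6 : TT u v = (e6 : Qb))
    (hd : (e4 : Qb) ^ 3 - (e6 : Qb) ^ 2 ≠ 0) :
    galE e4 e6 σ (Qpt (e4 : Qb) (e6 : Qb) u v) = Qpt (e4 : Qb) (e6 : Qb) (σ u) (σ v) :=
  mapE_Qpt (σ : Qb →+* Qb) h4 h6 hd (by simp) (by simp) _ _

lemma sol_map (e4 e6 : ℤ) (σ : GQ) {u v : Qb} (h4 : HH u v = (e4 : Qb)) (h6 : TT u v = (e6 : Qb)) :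
    HH (σ u) (σ v) = (e4 : Qb) ∧ TT (σ u) (σ v) = (e6 : Qb) := by
  constructor
  · have := map_HH (σ : Qb →+* Qb) u v
    rw [h4] at this
    simpa using this.symm
  · have := map_TT (σ : Qb →+* Qb) u v
    rw [h6] at this
    simpa using this.symm

/-- the Frobenius relation for the points `Qpt`. -/
lemma frob_Qpt (e4 e6 : ℤ) {ℓ : ℕ} (hℓ : ℓ.Prime) (h7 : 7 ≤ ℓ)
    (hgood : ¬ (ℓ : ℤ) ∣ e4 ^ 3 - e6 ^ 2)
    (A : ValuationSubring Qb) (σ : GQ) (hA : A.LiesOverPrime ℓ) (hσ : A.IsFrobeniusAt σ ℓ)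
    {u v : Qb} (h4 : HH u v = (e4 : Qb)) (h6 : TT u v = (e6 : Qb)) :
    (1 : ℤ) • Qpt (e4 : Qb) (e6 : Qb) (σ (σ u)) (σ (σ v))
      + (-((ℓ : ℤ) + 1 - (Nat.card (Esh (((-27 * e4 : ℤ)) : ZMod ℓ)
          ((54 * e6 : ℤ) : ZMod ℓ)).toAffine.Point : ℤ))) • Qpt (e4 : Qb) (e6 : Qb) (σ u) (σ v)
      + (ℓ : ℤ) • Qpt (e4 : Qb) (e6 : Qb) u v = 0 := by
  have hd : (e4 : Qb) ^ 3 - (e6 : Qb) ^ 2 ≠ 0 := by
    intro h
    apply hgood
    have : e4 ^ 3 - e6 ^ 2 = 0 := by exact_mod_cast h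
    rw [this]
    exact dvd_zero _
  have h := frob5 e4 e6 hℓ h7 hgood A σ hA hσ _ (Qpt_mem_tors5 h4 h6 hd)
  obtain ⟨h4', h6'⟩ := sol_map e4 e6 σ h4 h6
  rw [galE_Qpt e4 e6 σ h4 h6 hd, galE_Qpt e4 e6 σ h4' h6' hd] at h
  rw [one_smul, neg_smul, ← sub_eq_add_neg]
  exact h

end Ap

open Ap

theorem ap_congr (e4 e6 t : ℤ) {ℓ : ℕ} (hℓ : ℓ.Prime) (h7 : 7 ≤ ℓ)
    (h1 : ¬ (ℓ : ℤ) ∣ e4 ^ 3 - e6 ^ 2) (h2 : ¬ (ℓ : ℤ) ∣ F4 e4 e6 t ^ 3 - F6 e4 e6 t ^ 2) :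
    (5 : ℤ) ∣
      (Nat.card (Esh ((-27 * F4 e4 e6 t : ℤ) : ZMod ℓ) ((54 * F6 e4 e6 t : ℤ) : ZMod ℓ)).toAffine.Point : ℤ)
      - (Nat.card (Esh ((-27 * e4 : ℤ) : ZMod ℓ) ((54 * e6 : ℤ) : ZMod ℓ)).toAffine.Point : ℤ) := by
  classical
  obtain ⟨A, σ, hA, hσ⟩ := Lib.Frobenius.exists_frobenius_pair hℓ
  have hd : (e4 : Qb) ^ 3 - (e6 : Qb) ^ 2 ≠ 0 := by
    intro h
    apply h1
    have : e4 ^ 3 - e6 ^ 2 = 0 := by exact_mod_cast h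
    rw [this]
    exact dvd_zero _
  have hd' : ((F4 e4 e6 t : ℤ) : Qb) ^ 3 - ((F6 e4 e6 t : ℤ) : Qb) ^ 2 ≠ 0 := by
    intro h
    apply h2
    have : F4 e4 e6 t ^ 3 - F6 e4 e6 t ^ 2 = 0 := by exact_mod_cast h
    rw [this]
    exact dvd_zero _
  have hE4 : ((F4 e4 e6 t : ℤ) : Qb) = F4 (e4 : Qb) (e6 : Qb) (t : Qb) :=
    map_F4 (Int.castRingHom Qb) e4 e6 t
  have hE6 : ((F6 e4 e6 t : ℤ) : Qb) = F6 (e4 : Qb) (e6 : Qb) (t : Qb) :=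
    map_F6 (Int.castRingHom Qb) e4 e6 t
  obtain ⟨u, v, h4, h6⟩ := exists_solution (e4 : Qb) (e6 : Qb) hd
  obtain ⟨h4', h6'⟩ := sol_map e4 e6 σ h4 h6
  obtain ⟨h4'', h6''⟩ := sol_map e4 e6 σ h4' h6'
  -- the relation on the first curve, transferred to the second one
  have r1 := frob_Qpt e4 e6 hℓ h7 h1 A σ hA hσ h4 h6
  have r2 := transfer (c := (t : Qb)) hd (by rw [← hE4, ← hE6]; exact hd') h4'' h6'' h4' h6'
    h4 h6 _ _ _ r1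
  rw [← hE4, ← hE6] at r2
  -- the relation on the second curve
  have k4 : HH (uT u v (t : Qb)) (vT u v (t : Qb)) = ((F4 e4 e6 t : ℤ) : Qb) := by
    rw [HH_family, h4, h6, hE4]
  have k6 : TT (uT u v (t : Qb)) (vT u v (t : Qb)) = ((F6 e4 e6 t : ℤ) : Qb) := by
    rw [TT_family, h4, h6, hE6]
  have r3 := frob_Qpt (F4 e4 e6 t) (F6 e4 e6 t) hℓ h7 h2 A σ hA hσ k4 k6
  have hu : ∀ u v : Qb, σ (uT u v (t : Qb)) = uT (σ u) (σ v) (t : Qb) := by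
    intro u v
    have := map_uT (σ : Qb →+* Qb) u v (t : Qb)
    simpa using this
  have hv : ∀ u v : Qb, σ (vT u v (t : Qb)) = vT (σ u) (σ v) (t : Qb) := by
    intro u v
    have := map_vT (σ : Qb →+* Qb) u v (t : Qb)
    simpa using this
  rw [hu, hv, hu, hv] at r3
  -- the point `σ P'`
  have m4 : HH (uT (σ u) (σ v) (t : Qb)) (vT (σ u) (σ v) (t : Qb)) = ((F4 e4 e6 t : ℤ) : Qb) := by
    rw [HH_family, h4', h6', hE4]
  have m6 : TT (uT (σ u) (σ v) (t : Qb)) (vT (σ u) (σ v) (t : Qb)) = ((F6 e4 e6 t : ℤ) : Qb) := by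
    rw [TT_family, h4', h6', hE6]
  obtain ⟨hns, hQ⟩ := Qpt_spec m4 m6 hd'
  have hQ5 := Qpt_mem_tors5 m4 m6 hd'
  rw [mem_tors5] at hQ5
  generalize Qpt ((F4 e4 e6 t : ℤ) : Qb) ((F6 e4 e6 t : ℤ) : Qb) (uT (σ u) (σ v) (t : Qb))
    (vT (σ u) (σ v) (t : Qb)) = Q at r2 r3 hQ hQ5
  have hQ0 : Q ≠ 0 := by
    rw [hQ]
    exact Affine.Point.some_ne_zero _
  generalize (Nat.card (Esh ((-27 * F4 e4 e6 t : ℤ) : ZMod ℓ)
    ((54 * F6 e4 e6 t : ℤ) : ZMod ℓ)).toAffine.Point : ℤ) = N' at r3 ⊢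
  generalize (Nat.card (Esh ((-27 * e4 : ℤ) : ZMod ℓ)
    ((54 * e6 : ℤ) : ZMod ℓ)).toAffine.Point : ℤ) = N at r2 ⊢
  have r4 : (N' - N) • Q = 0 := by
    have h := congrArg₂ (· - ·) r3 r2
    simp only [sub_zero] at h
    rw [← h]
    have e : N' - N = (-((ℓ : ℤ) + 1 - N')) - (-((ℓ : ℤ) + 1 - N)) := by ring
    rw [e, sub_smul]
    abel
  by_contra hnd
  have hcop : IsCoprime (5 : ℤ) (N' - N) :=
    (Int.prime_iff_natAbs_prime.mpr (by norm_num)).irreducible.coprime_iff_not_dvd.mpr hnd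
  obtain ⟨a, b, hab⟩ := hcop
  apply hQ0
  have : (a * 5 + b * (N' - N)) • Q = 0 := by
    rw [add_smul, mul_smul, mul_smul, hQ5, r4, smul_zero, smul_zero, add_zero]
  rw [hab, one_smul] at this
  exact this

end Fermat.Agent.S52
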