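import Fermat.Agent.S52.FDefs

set_option autoImplicit false

/-! # S52, package CARD: a Weierstrass curve over `ZMod ℓ` (`ℓ ≥ 5`) has as many points as its short
model `y² = x³ - 27 c₄ x - 54 c₆`. -/

namespace Fermat.Agent.S52

open WeierstrassCurve

section

variable {k : Type*} [Field k]

/-- the basic identity behind the change of variables `(x, y) ↦ (36 x + 3 b₂, 108 (2 y + a₁ x + a₃))`. -/
lemma card_short_ident (W : WeierstrassCurve k) (x y : k) :
    (108 * (2 * y + W.a₁ * x + W.a₃)) ^ 2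
      - ((36 * x + 3 * W.b₂) ^ 3 + (-27 * W.c₄) * (36 * x + 3 * W.b₂) + (-54 * W.c₆))
    = 46656 * (y ^ 2 + W.a₁ * x * y + W.a₃ * y - (x ^ 3 + W.a₂ * x ^ 2 + W.a₄ * x + W.a₆)) := by
  simp only [WeierstrassCurve.c₄, WeierstrassCurve.c₆, WeierstrassCurve.b₂, WeierstrassCurve.b₄,
    WeierstrassCurve.b₆]
  ring

lemma Esh_short_Δ (W : WeierstrassCurve k) :
    (Esh (-27 * W.c₄) (-54 * W.c₆)).Δ = 6 ^ 12 * W.Δ := by
  simp only [Esh, WeierstrassCurve.Δ, WeierstrassCurve.c₄, WeierstrassCurve.c₆,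
    WeierstrassCurve.b₂, WeierstrassCurve.b₄, WeierstrassCurve.b₆, WeierstrassCurve.b₈]
  ring

lemma Esh_short_equation (W : WeierstrassCurve k) (h6 : (6 : k) ≠ 0) (x y : k) :
    (Esh (-27 * W.c₄) (-54 * W.c₆)).toAffine.Equation (36 * x + 3 * W.b₂)
      (108 * (2 * y + W.a₁ * x + W.a₃)) ↔ W.toAffine.Equation x y := by
  have h := card_short_ident W x y
  have h46 : (46656 : k) ≠ 0 := by
    have : (46656 : k) = 6 ^ 6 := by norm_num
    rw [this]
    exact pow_ne_zero _ h6
  rw [WeierstrassCurve.Affine.equation_iff, WeierstrassCurve.Affine.equation_iff]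
  simp only [Esh, zero_mul, add_zero]
  constructor
  · intro h1
    have h2 : (46656 : k) *
        (y ^ 2 + W.a₁ * x * y + W.a₃ * y - (x ^ 3 + W.a₂ * x ^ 2 + W.a₄ * x + W.a₆)) = 0 := by
      rw [← h, h1]; ring
    have h3 := (mul_eq_zero.mp h2).resolve_left h46
    exact sub_eq_zero.mp h3
  · intro h1
    have h2 : (108 * (2 * y + W.a₁ * x + W.a₃)) ^ 2
      - ((36 * x + 3 * W.b₂) ^ 3 + (-27 * W.c₄) * (36 * x + 3 * W.b₂) + (-54 * W.c₆)) = 0 := by
      rw [h, h1]; ring
    have h3 := sub_eq_zero.mp h2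
    rw [h3]

/-- the bijection on points. -/
noncomputable def shortEquiv (W : WeierstrassCurve k) (h6 : (6 : k) ≠ 0) (hΔ : W.Δ ≠ 0) :
    W.toAffine.Point ≃ (Esh (-27 * W.c₄) (-54 * W.c₆)).toAffine.Point :=
  have hΔ' : (Esh (-27 * W.c₄) (-54 * W.c₆)).Δ ≠ 0 := by
    rw [Esh_short_Δ]; exact mul_ne_zero (pow_ne_zero _ h6) hΔ
  have h2 : (2 : k) ≠ 0 := fun h => h6 (by
    have : (6 : k) = 2 * 3 := by norm_num
    rw [this, h, zero_mul])
  have h36 : (36 : k) ≠ 0 := by
    have : (36 : k) = 6 ^ 2 := by norm_num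
    rw [this]; exact pow_ne_zero _ h6
  have h108 : (108 : k) ≠ 0 := fun h => h6 (by
    have h' : (6 : k) ^ 3 = 2 * 108 := by norm_num
    rw [h, mul_zero] at h'
    exact pow_eq_zero_iff (by norm_num) |>.mp h')
  { toFun := fun P => match P with
      | .zero => .zero
      | .some x y h => .some (36 * x + 3 * W.b₂) (108 * (2 * y + W.a₁ * x + W.a₃))
          ((WeierstrassCurve.Affine.equation_iff_nonsingular_of_Δ_ne_zero hΔ').mp
            ((Esh_short_equation W h6 x y).mpr h.1))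
    invFun := fun P => match P with
      | .zero => .zero
      | .some X Y h => .some ((X - 3 * W.b₂) / 36)
          ((Y / 108 - W.a₁ * ((X - 3 * W.b₂) / 36) - W.a₃) / 2)
          ((WeierstrassCurve.Affine.equation_iff_nonsingular_of_Δ_ne_zero hΔ).mp
            ((Esh_short_equation W h6 _ _).mp (by
              have e1 : 36 * ((X - 3 * W.b₂) / 36) + 3 * W.b₂ = X := by field_simp; ring
              have e2 : 108 * (2 * ((Y / 108 - W.a₁ * ((X - 3 * W.b₂) / 36) - W.a₃) / 2)
                  + W.a₁ * ((X - 3 * W.b₂) / 36) + W.a₃) = Y := by field_simp; ring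
              rw [e1, e2]; exact h.1)))
    left_inv := by
      rintro (_ | ⟨x, y, h⟩)
      · rfl
      · simp only
        congr 1
        · field_simp; ring
        · field_simp; ring
    right_inv := by
      rintro (_ | ⟨X, Y, h⟩)
      · rfl
      · simp only
        congr 1
        · field_simp; ring
        · field_simp; ring }

end

theorem card_short {ℓ : ℕ} [Fact ℓ.Prime] (h5 : 5 ≤ ℓ) (W : WeierstrassCurve (ZMod ℓ)) (hΔ : W.Δ ≠ 0) :
    Nat.card W.toAffine.Point = Nat.card (Esh (-27 * W.c₄) (-54 * W.c₆)).toAffine.Point := by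
  have h6 : (6 : ZMod ℓ) ≠ 0 := by
    intro h
    have h' : ((6 : ℕ) : ZMod ℓ) = 0 := by exact_mod_cast h
    rw [ZMod.natCast_eq_zero_iff] at h'
    have hp : ℓ.Prime := Fact.out
    have : ℓ ∣ 2 * 3 := by simpa using h'
    rcases (Nat.Prime.dvd_mul hp).mp this with h | h
    · have := Nat.le_of_dvd (by norm_num) h; omega
    · have := Nat.le_of_dvd (by norm_num) h; omega
  exact Nat.card_congr (shortEquiv W h6 hΔ)

end Fermat.Agent.S52
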