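import Mathlib

set_option autoImplicit false
set_option linter.unusedVariables false

/-! # S52: the explicit icosahedral (Klein / Rubin-Silverberg) family: definitions -/

namespace Fermat.Agent.S52

section polys

variable {R : Type*} [CommRing R]

/-- `E4` in terms of `(a, b) = (u⁵, v⁵)`. -/
def Hab (a b : R) : R := b ^ 4 + 228 * a * b ^ 3 + 494 * a ^ 2 * b ^ 2 - 228 * a ^ 3 * b + a ^ 4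

/-- `E6` in terms of `(a, b) = (u⁵, v⁵)`. -/
def Tab (a b : R) : R :=
  b ^ 6 - 522 * a * b ^ 5 - 10005 * a ^ 2 * b ^ 4 - 10005 * a ^ 4 * b ^ 2 + 522 * a ^ 5 * b + a ^ 6

/-- `Δ = a b (b² - 11ab - a²)⁵`. -/
def Dab (a b : R) : R := a * b * (b ^ 2 - 11 * a * b - a ^ 2) ^ 5

def alab (a b : R) : R := 11 * b ^ 2 - 66 * a * b - a ^ 2

def beab (a b : R) : R := b ^ 2 - 66 * a * b - 11 * a ^ 2

/-- Klein's `H` (degree 20). -/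
def HH (u v : R) : R := Hab (u ^ 5) (v ^ 5)

/-- Klein's `T` (degree 30). -/
def TT (u v : R) : R := Tab (u ^ 5) (v ^ 5)

/-- Klein's `f` (degree 12); `HH³ - TT² = 1728 ff⁵`. -/
def ff (u v : R) : R := u * v * (v ^ 10 - 11 * u ^ 5 * v ^ 5 - u ^ 10)

/-- the first coordinate of `w_t = w + t (f_v, -f_u)`. -/
def uT (u v t : R) : R := u * (1 + t * alab (u ^ 5) (v ^ 5))

/-- the second coordinate of `w_t = w + t (f_v, -f_u)`. -/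
def vT (u v t : R) : R := v * (1 - t * beab (u ^ 5) (v ^ 5))

/-- `12 ℘`-type `x`-coordinate of the 5-torsion point attached to `w = (u, v)`. -/
def X1 (u v : R) : R :=
  v ^ 10 + 12 * u * v ^ 9 + 24 * u ^ 2 * v ^ 8 + 36 * u ^ 3 * v ^ 7 + 60 * u ^ 4 * v ^ 6 + 30 * u ^ 5 * v ^ 5 + 24 * u ^ 6 * v ^ 4 - 12 * u ^ 7 * v ^ 3 + 12 * u ^ 8 * v ^ 2 + u ^ 10

/-- `x`-coordinate of its double. -/
def X2 (u v : R) : R :=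
  v ^ 10 + 12 * u ^ 2 * v ^ 8 + 12 * u ^ 3 * v ^ 7 + 24 * u ^ 4 * v ^ 6 - 30 * u ^ 5 * v ^ 5 + 60 * u ^ 6 * v ^ 4 - 36 * u ^ 7 * v ^ 3 + 24 * u ^ 8 * v ^ 2 - 12 * u ^ 9 * v + u ^ 10

/-- `y`-coordinate: `3 Y1² = X1³ - 3 HH X1 + 2 TT`. -/
def Y1 (u v : R) : R :=
  12 * u * v ^ 14 + 48 * u ^ 2 * v ^ 13 + 108 * u ^ 3 * v ^ 12 + 180 * u ^ 4 * v ^ 11 + 300 * u ^ 5 * v ^ 10 + 348 * u ^ 6 * v ^ 9 + 252 * u ^ 7 * v ^ 8 + 72 * u ^ 8 * v ^ 7 + 60 * u ^ 9 * v ^ 6 + 48 * u ^ 11 * v ^ 4 + 12 * u ^ 12 * v ^ 3 + 12 * u ^ 13 * v ^ 2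

def h4_1 (e4 e6 : R) : R := -20 * e6
def h4_2 (e4 e6 : R) : R := 190 * e4 ^ 2
def h4_3 (e4 e6 : R) : R := -1140 * e4 * e6
def h4_4 (e4 e6 : R) : R := 5700 * e6 ^ 2 - 855 * e4 ^ 3
def h4_5 (e4 e6 : R) : R := -15504 * e4 ^ 2 * e6
def h4_6 (e4 e6 : R) : R := -63840 * e4 * e6 ^ 2 + 102600 * e4 ^ 4
def h4_7 (e4 e6 : R) : R := 182400 * e6 ^ 3 - 259920 * e4 ^ 3 * e6
def h4_8 (e4 e6 : R) : R := 1126320 * e4 ^ 2 * e6 ^ 2 - 1000350 * e4 ^ 5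
def h4_9 (e4 e6 : R) : R := -7904000 * e4 * e6 ^ 3 + 7736040 * e4 ^ 4 * e6
def h4_10 (e4 e6 : R) : R := 15808000 * e6 ^ 4 - 5619744 * e4 ^ 3 * e6 ^ 2 - 10003500 * e4 ^ 6
def h4_11 (e4 e6 : R) : R := -54853760 * e4 ^ 2 * e6 ^ 3 + 54685800 * e4 ^ 5 * e6
def h4_12 (e4 e6 : R) : R := 37939200 * e4 * e6 ^ 4 + 7202520 * e4 ^ 4 * e6 ^ 2 - 45015750 * e4 ^ 7
def h4_13 (e4 e6 : R) : R := -58368000 * e6 ^ 5 + 23201280 * e4 ^ 3 * e6 ^ 3 + 35089200 * e4 ^ 6 * e6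
def h4_14 (e4 e6 : R) : R := 287462400 * e4 ^ 2 * e6 ^ 4 - 495188640 * e4 ^ 5 * e6 ^ 2 + 207765000 * e4 ^ 8
def h4_15 (e4 e6 : R) : R := -466944000 * e4 * e6 ^ 5 + 882458496 * e4 ^ 4 * e6 ^ 3 - 415530000 * e4 ^ 7 * e6
def h4_16 (e4 e6 : R) : R := 583680000 * e6 ^ 6 - 1220474880 * e4 ^ 3 * e6 ^ 4 + 714711600 * e4 ^ 6 * e6 ^ 2 - 77911875 * e4 ^ 9
def h4_17 (e4 e6 : R) : R := -361881600 * e4 ^ 2 * e6 ^ 5 + 715080960 * e4 ^ 5 * e6 ^ 3 - 353200500 * e4 ^ 8 * e6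
def h4_18 (e4 e6 : R) : R := -622592000 * e4 * e6 ^ 6 + 2026391040 * e4 ^ 4 * e6 ^ 4 - 2182917600 * e4 ^ 7 * e6 ^ 2 + 779118750 * e4 ^ 10
def h4_19 (e4 e6 : R) : R := 655360000 * e6 ^ 7 - 2005401600 * e4 ^ 3 * e6 ^ 5 + 2044414080 * e4 ^ 6 * e6 ^ 3 - 694372500 * e4 ^ 9 * e6
def h4_20 (e4 e6 : R) : R := -180224000 * e4 ^ 2 * e6 ^ 6 + 544997376 * e4 ^ 5 * e6 ^ 4 - 549301500 * e4 ^ 8 * e6 ^ 2 + 184528125 * e4 ^ 11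

def h6_1 (e4 e6 : R) : R := -30 * e4 ^ 2
def h6_2 (e4 e6 : R) : R := 435 * e4 * e6
def h6_3 (e4 e6 : R) : R := -2900 * e6 ^ 2 - 1160 * e4 ^ 3
def h6_4 (e4 e6 : R) : R := 27405 * e4 ^ 2 * e6
def h6_5 (e4 e6 : R) : R := -46980 * e4 * e6 ^ 2 - 95526 * e4 ^ 4
def h6_6 (e4 e6 : R) : R := 156600 * e6 ^ 3 + 437175 * e4 ^ 3 * e6
def h6_7 (e4 e6 : R) : R := -3915000 * e4 ^ 2 * e6 ^ 2 + 1879200 * e4 ^ 5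
def h6_8 (e4 e6 : R) : R := 14407200 * e4 * e6 ^ 3 - 8554275 * e4 ^ 4 * e6
def h6_9 (e4 e6 : R) : R := -32016000 * e6 ^ 4 + 42021000 * e4 ^ 3 * e6 ^ 2 - 24312150 * e4 ^ 6
def h6_10 (e4 e6 : R) : R := -216588240 * e4 ^ 2 * e6 ^ 3 + 246633255 * e4 ^ 5 * e6
def h6_11 (e4 e6 : R) : R := 1459929600 * e4 * e6 ^ 4 - 1352475900 * e4 ^ 4 * e6 ^ 2 - 162081000 * e4 ^ 7
def h6_12 (e4 e6 : R) : R := -2433216000 * e6 ^ 5 - 1612005600 * e4 ^ 3 * e6 ^ 3 + 4131714825 * e4 ^ 6 * e6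
def h6_13 (e4 e6 : R) : R := 12044419200 * e4 ^ 2 * e6 ^ 4 - 5235216300 * e4 ^ 5 * e6 ^ 2 - 6928962750 * e4 ^ 8
def h6_14 (e4 e6 : R) : R := -43045111800 * e4 ^ 4 * e6 ^ 3 + 43190534475 * e4 ^ 7 * e6
def h6_15 (e4 e6 : R) : R := 79420170240 * e4 ^ 3 * e6 ^ 4 - 79575287760 * e4 ^ 6 * e6 ^ 2
def h6_16 (e4 e6 : R) : R := -297825638400 * e4 ^ 2 * e6 ^ 5 + 474659611200 * e4 ^ 5 * e6 ^ 3 - 176688550125 * e4 ^ 8 * e6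
def h6_17 (e4 e6 : R) : R := 700766208000 * e4 * e6 ^ 6 - 935084908800 * e4 ^ 4 * e6 ^ 4 - 77604382800 * e4 ^ 7 * e6 ^ 2 + 311803323750 * e4 ^ 10
def h6_18 (e4 e6 : R) : R := -778629120000 * e6 ^ 7 - 303665356800 * e4 ^ 3 * e6 ^ 5 + 2776512362400 * e4 ^ 6 * e6 ^ 3 - 1694131392375 * e4 ^ 9 * e6
def h6_19 (e4 e6 : R) : R := 4290656256000 * e4 ^ 2 * e6 ^ 6 - 8100765158400 * e4 ^ 5 * e6 ^ 4 + 3481840250100 * e4 ^ 8 * e6 ^ 2 + 328214025000 * e4 ^ 11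
def h6_20 (e4 e6 : R) : R := -3442360320000 * e4 * e6 ^ 7 + 3892110842880 * e4 ^ 4 * e6 ^ 5 + 2424887357760 * e4 ^ 7 * e6 ^ 3 - 2874607835625 * e4 ^ 10 * e6
def h6_21 (e4 e6 : R) : R := 3278438400000 * e6 ^ 8 - 5125838438400 * e4 ^ 3 * e6 ^ 6 + 2709129888000 * e4 ^ 6 * e6 ^ 4 - 3077188825500 * e4 ^ 9 * e6 ^ 2 + 2215444668750 * e4 ^ 12
def h6_22 (e4 e6 : R) : R := -4573421568000 * e4 ^ 2 * e6 ^ 7 + 7701051801600 * e4 ^ 5 * e6 ^ 5 - 1724509423800 * e4 ^ 8 * e6 ^ 3 - 1403114956875 * e4 ^ 11 * e6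
def h6_23 (e4 e6 : R) : R := -6157762560000 * e4 * e6 ^ 8 + 30337884979200 * e4 ^ 4 * e6 ^ 6 - 49888700928000 * e4 ^ 7 * e6 ^ 4 + 33414470973000 * e4 ^ 10 * e6 ^ 2 - 7705894500000 * e4 ^ 13
def h6_24 (e4 e6 : R) : R := 5131468800000 * e6 ^ 9 - 22779445248000 * e4 ^ 3 * e6 ^ 7 + 35246094796800 * e4 ^ 6 * e6 ^ 5 - 22687218914400 * e4 ^ 9 * e6 ^ 3 + 5089101159375 * e4 ^ 12 * e6
def h6_25 (e4 e6 : R) : R := 18216714240000 * e4 ^ 2 * e6 ^ 8 - 71274600677376 * e4 ^ 5 * e6 ^ 6 + 105528606261120 * e4 ^ 8 * e6 ^ 4 - 70097953635000 * e4 ^ 11 * e6 ^ 2 + 17627233668750 * e4 ^ 14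
def h6_26 (e4 e6 : R) : R := -41051750400000 * e4 * e6 ^ 9 + 163803539865600 * e4 ^ 4 * e6 ^ 7 - 245438120632320 * e4 ^ 7 * e6 ^ 5 + 163672057566000 * e4 ^ 10 * e6 ^ 3 - 40985726371875 * e4 ^ 13 * e6
def h6_27 (e4 e6 : R) : R := 30408704000000 * e6 ^ 10 - 111934439424000 * e4 ^ 3 * e6 ^ 8 + 143803576074240 * e4 ^ 6 * e6 ^ 6 - 63806176396800 * e4 ^ 9 * e6 ^ 4 - 8104032382500 * e4 ^ 12 * e6 ^ 2 + 9632368125000 * e4 ^ 15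
def h6_28 (e4 e6 : R) : R := -21438136320000 * e4 ^ 2 * e6 ^ 9 + 85731449241600 * e4 ^ 5 * e6 ^ 7 - 128580522647040 * e4 ^ 8 * e6 ^ 5 + 85719228804000 * e4 ^ 11 * e6 ^ 3 - 21432019078125 * e4 ^ 14 * e6
def h6_29 (e4 e6 : R) : R := -5033164800000 * e4 * e6 ^ 10 + 31344427008000 * e4 ^ 4 * e6 ^ 8 - 75042714746880 * e4 ^ 7 * e6 ^ 6 + 87394892457600 * e4 ^ 10 * e6 ^ 4 - 49873523512500 * e4 ^ 13 * e6 ^ 2 + 11210083593750 * e4 ^ 16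
def h6_30 (e4 e6 : R) : R := 3355443200000 * e6 ^ 11 - 17532190720000 * e4 ^ 3 * e6 ^ 9 + 36574189977600 * e4 ^ 6 * e6 ^ 7 - 38083944628224 * e4 ^ 9 * e6 ^ 5 + 19796866155000 * e4 ^ 12 * e6 ^ 3 - 4110363984375 * e4 ^ 15 * e6

/-- `F4 = e4 + t S4`. -/
def S4 (e4 e6 t : R) : R :=
  h4_1 e4 e6 + h4_2 e4 e6 * t + h4_3 e4 e6 * t ^ 2 + h4_4 e4 e6 * t ^ 3 + h4_5 e4 e6 * t ^ 4
    + h4_6 e4 e6 * t ^ 5 + h4_7 e4 e6 * t ^ 6 + h4_8 e4 e6 * t ^ 7 + h4_9 e4 e6 * t ^ 8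
    + h4_10 e4 e6 * t ^ 9 + h4_11 e4 e6 * t ^ 10 + h4_12 e4 e6 * t ^ 11 + h4_13 e4 e6 * t ^ 12
    + h4_14 e4 e6 * t ^ 13 + h4_15 e4 e6 * t ^ 14 + h4_16 e4 e6 * t ^ 15 + h4_17 e4 e6 * t ^ 16
    + h4_18 e4 e6 * t ^ 17 + h4_19 e4 e6 * t ^ 18 + h4_20 e4 e6 * t ^ 19

/-- `F6 = e6 + t S6`. -/
def S6 (e4 e6 t : R) : R :=
  h6_1 e4 e6 + h6_2 e4 e6 * t + h6_3 e4 e6 * t ^ 2 + h6_4 e4 e6 * t ^ 3 + h6_5 e4 e6 * t ^ 4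
    + h6_6 e4 e6 * t ^ 5 + h6_7 e4 e6 * t ^ 6 + h6_8 e4 e6 * t ^ 7 + h6_9 e4 e6 * t ^ 8
    + h6_10 e4 e6 * t ^ 9 + h6_11 e4 e6 * t ^ 10 + h6_12 e4 e6 * t ^ 11 + h6_13 e4 e6 * t ^ 12
    + h6_14 e4 e6 * t ^ 13 + h6_15 e4 e6 * t ^ 14 + h6_16 e4 e6 * t ^ 15 + h6_17 e4 e6 * t ^ 16
    + h6_18 e4 e6 * t ^ 17 + h6_19 e4 e6 * t ^ 18 + h6_20 e4 e6 * t ^ 19 + h6_21 e4 e6 * t ^ 20
    + h6_22 e4 e6 * t ^ 21 + h6_23 e4 e6 * t ^ 22 + h6_24 e4 e6 * t ^ 23 + h6_25 e4 e6 * t ^ 24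
    + h6_26 e4 e6 * t ^ 25 + h6_27 e4 e6 * t ^ 26 + h6_28 e4 e6 * t ^ 27 + h6_29 e4 e6 * t ^ 28
    + h6_30 e4 e6 * t ^ 29

/-- `E4` of the member `t` of the family through `(e4, e6)`. -/
def F4 (e4 e6 t : R) : R := e4 + t * S4 e4 e6 t

/-- `E6` of the member `t` of the family through `(e4, e6)`. -/
def F6 (e4 e6 t : R) : R := e6 + t * S6 e4 e6 t

end polys

end Fermat.Agent.S52
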