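import Fermat.Agent.S52.FDefs
import Fermat.Agent.S52.UDefs
import Fermat.Prelude.Def_FLTPrelim_GaloisRep

set_option autoImplicit false

/-! # S52: points of short Weierstrass curves, coordinatewise maps, the points `Qpt` -/

namespace Fermat.Agent.S52

open WeierstrassCurve

section maps

variable {F K : Type*} [Field F] [Field K] [DecidableEq F] [DecidableEq K]

/-- The homomorphism on points induced by a ring homomorphism of fields. -/
noncomputable def mapW (W : WeierstrassCurve F) (f : F →+* K) :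
    W.toAffine.Point →+ (W.map f).toAffine.Point where
  toFun P := match P with
    | 0 => 0
    | .some x y h => .some (f x) (f y) ((W.toAffine.map_nonsingular f.injective x y).mpr h)
  map_zero' := rfl
  map_add' := by
    rintro (_ | ⟨x₁, y₁, h₁⟩) (_ | ⟨x₂, y₂, h₂⟩)
    any_goals rfl
    by_cases hxy : x₁ = x₂ ∧ y₁ = W.toAffine.negY x₂ y₂
    · rw [Affine.Point.add_of_Y_eq hxy.left hxy.right,
        Affine.Point.add_of_Y_eq (congr_arg _ hxy.left) <| by rw [hxy.right, Affine.map_negY]]
    · simpa only [Affine.Point.add_some hxy, ← Affine.map_addX, ← Affine.map_addY,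
        ← Affine.map_slope] using!
        (Affine.Point.add_some fun h ↦ hxy ⟨f.injective h.1,
          f.injective (Affine.map_negY (W' := W) f .. ▸ h).2⟩).symm

/-- Transport of points along an equality of curves. -/
def congrW {W₁ W₂ : WeierstrassCurve K} (h : W₁ = W₂) : W₁.toAffine.Point ≃+ W₂.toAffine.Point :=
  h ▸ AddEquiv.refl _

lemma congrW_zero {W₁ W₂ : WeierstrassCurve K} (h : W₁ = W₂) :
    congrW h (0 : W₁.toAffine.Point) = 0 := map_zero _

lemma congrW_some {W₁ W₂ : WeierstrassCurve K} (h : W₁ = W₂) {x y : K}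
    (hn : W₁.toAffine.Nonsingular x y) :
    congrW h (.some x y hn) = .some x y (h ▸ hn) := by
  subst h; rfl

omit [DecidableEq F] [DecidableEq K] in
lemma Esh_map {a b : F} (f : F →+* K) {a' b' : K} (ha : f a = a') (hb : f b = b') :
    (Esh a b).map f = Esh a' b' := by
  subst ha hb
  simp [Esh, WeierstrassCurve.map]

/-- The homomorphism `(x, y) ↦ (f x, f y)` from `y² = x³ + a x + b` to `y² = x³ + a' x + b'`,
where `a' = f a`, `b' = f b`. -/
noncomputable def mapE (f : F →+* K) {a b : F} {a' b' : K} (ha : f a = a') (hb : f b = b') :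
    (Esh a b).toAffine.Point →+ (Esh a' b').toAffine.Point :=
  (congrW (Esh_map f ha hb)).toAddMonoidHom.comp (mapW (Esh a b) f)

lemma mapE_some (f : F →+* K) {a b : F} {a' b' : K} (ha : f a = a') (hb : f b = b') {x y : F}
    (h : (Esh a b).toAffine.Nonsingular x y) :
    ∃ h', mapE f ha hb (.some x y h) = .some (f x) (f y) h' :=
  ⟨_, congrW_some _ _⟩

lemma mapE_injective (f : F →+* K) {a b : F} {a' b' : K} (ha : f a = a') (hb : f b = b') :
    Function.Injective (mapE f ha hb) := by
  rw [injective_iff_map_eq_zero]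
  rintro (_ | ⟨x, y, h⟩) h0
  · rfl
  · obtain ⟨h', e⟩ := mapE_some f ha hb h
    rw [e] at h0
    exact absurd h0 (Affine.Point.some_ne_zero _)

end maps

/-- The `5`-torsion subgroup. -/
def tors5 (G : Type*) [AddCommGroup G] : AddSubgroup G := (zsmulAddGroupHom (5 : ℤ)).ker

lemma mem_tors5 {G : Type*} [AddCommGroup G] {P : G} : P ∈ tors5 G ↔ (5 : ℤ) • P = 0 := Iff.rfl

section Q

variable {K : Type*} [Field K]

open Classical in
/-- The point `(3 X1(w), 9 Y1(w))` of `y² = x³ - 27 e4 x + 54 e6` attached to a solution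
`w = (u, v)` of `HH w = e4`, `TT w = e6` (junk value `0`). -/
noncomputable def Qpt (e4 e6 u v : K) : (Esh (-27 * e4) (54 * e6)).toAffine.Point :=
  if h : (Esh (-27 * e4) (54 * e6)).toAffine.Nonsingular (3 * X1 u v) (9 * Y1 u v) then
    .some _ _ h else 0

open Classical in
/-- The 5-torsion point attached to a solution `w = (u, v)` of `HH w = c₄`, `TT w = -c₆` on a
general Weierstrass curve: `x = (X1 - b₂)/12`, `2y + a₁x + a₃ = Y1/12` (junk value `0`). -/
noncomputable def QW (E : WeierstrassCurve K) (u v : K) : E.toAffine.Point :=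
  if h : E.toAffine.Nonsingular ((X1 u v - E.b₂) / 12)
      ((Y1 u v / 12 - E.a₁ * ((X1 u v - E.b₂) / 12) - E.a₃) / 2) then
    .some _ _ h else 0

end Q

section galois

/-- `Qb = AlgebraicClosure ℚ`. -/
abbrev Qb : Type := AlgebraicClosure ℚ

/-- The absolute Galois group of `ℚ`. -/
abbrev GQ : Type := Qb ≃ₐ[ℚ] Qb

/-- The Galois action on the points of `y² = x³ - 27 e4 x + 54 e6`, `e4, e6 ∈ ℤ`. -/
noncomputable def galE (e4 e6 : ℤ) (σ : GQ) :
    (Esh (-27 * (e4 : Qb)) (54 * (e6 : Qb))).toAffine.Point →+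
      (Esh (-27 * (e4 : Qb)) (54 * (e6 : Qb))).toAffine.Point :=
  mapE (σ : Qb →+* Qb) (by simp [map_ofNat]) (by simp [map_ofNat])

end galois

end Fermat.Agent.S52
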