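import Fermat.Agent.ES.Cheb
import Fermat.Agent.ES.ResField
import Fermat.Agent.S52.PDefs

set_option autoImplicit false
set_option linter.style.haveILetI false

/-! # S52, package CHEBAPP: the Chebotarev step -/

namespace Fermat.Agent.S52

open Polynomial

namespace ChebApp

instance instIsAlgClosureQb : IsAlgClosure ℚ Qb := @AlgebraicClosure.instIsAlgClosure ℚ _

/-- two elements of `Qb` lie in a finite Galois extension of `ℚ`. -/
theorem exists_galois (x y : Qb) :
    ∃ E : IntermediateField ℚ Qb, FiniteDimensional ℚ E ∧ IsGalois ℚ E ∧ x ∈ E ∧ y ∈ E := by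
  have hint : ∀ z ∈ ({x, y} : Set Qb), IsIntegral ℚ z := fun z _ =>
    (Algebra.IsAlgebraic.isAlgebraic z).isIntegral
  have h3 : FiniteDimensional ℚ (IntermediateField.adjoin ℚ ({x, y} : Set Qb)) :=
    IntermediateField.finiteDimensional_adjoin hint
  refine ⟨IntermediateField.normalClosure ℚ (IntermediateField.adjoin ℚ ({x, y} : Set Qb)) Qb,
    normalClosure.is_finiteDimensional _ _ _, ?_, ?_, ?_⟩
  · have : Normal ℚ (IntermediateField.normalClosure ℚ
        (IntermediateField.adjoin ℚ ({x, y} : Set Qb)) Qb) := normalClosure.normal _ _ _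
    exact isGalois_iff.2 ⟨inferInstance, this⟩
  · exact IntermediateField.le_normalClosure _ (IntermediateField.subset_adjoin _ _ (by simp))
  · exact IntermediateField.le_normalClosure _ (IntermediateField.subset_adjoin _ _ (by simp))

lemma pow_fix (σ : GQ) {x : Qb} (h : σ x = x) (j : ℕ) : (σ ^ j) x = x := by
  induction j with
  | zero => simp
  | succ n ih => rw [pow_succ, AlgEquiv.mul_apply, h, ih]

lemma pow_neg (σ : GQ) {x : Qb} (h : σ x = -x) (j : ℕ) : (σ ^ j) x = x ∨ (σ ^ j) x = -x := by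
  induction j with
  | zero => left; simp
  | succ n ih =>
    rw [pow_succ, AlgEquiv.mul_apply, h, map_neg]
    rcases ih with ih | ih
    · right; rw [ih]
    · left; rw [ih, neg_neg]

lemma residue_eq_zero_iff (A : ValuationSubring Qb) (a : A) :
    IsLocalRing.residue A a = 0 ↔ (a : Qb) ∈ A.nonunits := by
  rw [IsLocalRing.residue_eq_zero_iff, ValuationSubring.coe_mem_nonunits_iff]

end ChebApp

open ChebApp

/-- abstract form of the Chebotarev step. -/
theorem exists_prime_of_root (f : ℤ[X]) (t₁ s : Qb) (ht : aeval t₁ f = 0) (hs : s ^ 2 = 3) (σ : GQ)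
    (h1 : σ t₁ = t₁) (h2 : σ s = -s) (T : Finset ℕ) :
    ∃ (ℓ : ℕ) (t₀ : ℤ), ℓ.Prime ∧ ℓ ∉ T ∧ (ℓ : ℤ) ∣ f.eval t₀ ∧ ∀ s : ZMod ℓ, s ^ 2 ≠ 3 := by
  classical
  obtain ⟨E, hE1, hE2, htE, hsE⟩ := exists_galois t₁ s
  have halg : IsAlgebraic ℤ t₁ :=
    (IsFractionRing.isAlgebraic_iff ℤ ℚ Qb).mpr (Algebra.IsAlgebraic.isAlgebraic t₁)
  obtain ⟨d, hd0, hdint⟩ := halg.exists_integral_multiple
  obtain ⟨ℓ, A, σ', j, k, hℓ, hℓT, hA, hF, hj, hk⟩ :=
    ES.Cheb.weak_chebotarev E (T ∪ {2, 3} ∪ d.natAbs.primeFactors) σ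
  simp only [Finset.mem_union, Finset.mem_insert, Finset.mem_singleton, not_or] at hℓT
  obtain ⟨⟨hℓT, hℓ2, hℓ3⟩, hℓd⟩ := hℓT
  have hℓd' : ¬ (ℓ : ℤ) ∣ d := by
    intro h
    apply hℓd
    rw [Nat.mem_primeFactors]
    exact ⟨hℓ, Int.natCast_dvd.mp h, by simpa using hd0⟩
  have hs0 : s ≠ 0 := by
    rintro rfl
    norm_num at hs
  -- the Frobenius fixes `t₁` and moves `s`
  have hσt : σ' t₁ = t₁ := by rw [hj _ htE, pow_fix σ h1]
  have hσs : σ' s = -s := by
    rcases pow_neg σ h2 j with h | h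
    · exfalso
      have h3 : σ' s = s := by rw [hj _ hsE, h]
      have h4 := hk _ hsE
      rw [pow_fix σ' h3, h2] at h4
      have : (2 : Qb) * s = 0 := by linear_combination -h4
      simp [hs0] at this
    · rw [hj _ hsE, h]
  -- integrality
  have htA : t₁ ∈ A := by
    have h3 : (d : Qb) * t₁ ∈ A := by
      have := Lib.Frobenius.mem_of_isIntegral A hdint
      rwa [zsmul_eq_mul] at this
    have h4 : A.valuation (d : Qb) = 1 :=
      Lib.Frobenius.valuation_eq_one A (Lib.Frobenius.intCast_mem' A d)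
        (Lib.Frobenius.intCast_notMem_nonunits A hℓ hA hℓd')
    rw [← ValuationSubring.valuation_le_one_iff, map_mul, h4, one_mul,
      ValuationSubring.valuation_le_one_iff] at h3
    exact h3
  have hsA : s ∈ A := by
    apply Lib.Frobenius.mem_of_isIntegral A
    apply IsIntegral.of_pow (n := 2) (by norm_num)
    rw [hs]
    have : (3 : Qb) = algebraMap ℤ Qb 3 := by simp
    rw [this]
    exact isIntegral_algebraMap
  haveI : Fact ℓ.Prime := ⟨hℓ⟩
  haveI : CharP (IsLocalRing.ResidueField A) ℓ := ES.ResField.charP hℓ hA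
  set res := IsLocalRing.residue A with hres
  set r := res ⟨t₁, htA⟩ with hr
  set ρ := res ⟨s, hsA⟩ with hρ
  have hrℓ : r ^ ℓ = r := by
    have h3 := ES.Cheb.frob_sub_pow_mem_nonunits A σ' ℓ hF htA
    rw [hσt] at h3
    have h4 : res (⟨t₁, htA⟩ - ⟨t₁, htA⟩ ^ ℓ) = 0 := (residue_eq_zero_iff A _).mpr h3
    rw [map_sub, map_pow, sub_eq_zero] at h4
    exact h4.symm
  have hρℓ : ρ ^ ℓ = -ρ := by
    have h3 := ES.Cheb.frob_sub_pow_mem_nonunits A σ' ℓ hF hsA
    rw [hσs] at h3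
    have h4 : res (-⟨s, hsA⟩ - ⟨s, hsA⟩ ^ ℓ) = 0 := (residue_eq_zero_iff A _).mpr h3
    rw [map_sub, map_pow, map_neg, sub_eq_zero] at h4
    exact h4.symm
  have hρ2 : ρ ^ 2 = 3 := by
    rw [hρ, ← map_pow]
    have : (⟨s, hsA⟩ : A) ^ 2 = 3 := Subtype.ext hs
    rw [this, map_ofNat]
  obtain ⟨t₀, ht₀⟩ := (mem_bot_iff_intCast ℓ (IsLocalRing.ResidueField A)).mp
    ((Subfield.mem_bot_iff_pow_eq_self (IsLocalRing.ResidueField A) ℓ).mpr hrℓ)
  refine ⟨ℓ, t₀, hℓ, hℓT, ?_, ?_⟩
  · rw [← CharP.intCast_eq_zero_iff (IsLocalRing.ResidueField A) ℓ]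
    have ha : f.eval₂ (Int.castRingHom A) ⟨t₁, htA⟩ = 0 := by
      apply Subtype.ext
      have h3 := Polynomial.hom_eval₂ f (Int.castRingHom A) A.subtype ⟨t₁, htA⟩
      have h4 : A.subtype.comp (Int.castRingHom A) = algebraMap ℤ Qb := RingHom.ext_int _ _
      rw [h4] at h3
      exact h3.trans ht
    have h5 := Polynomial.hom_eval₂ f (Int.castRingHom A) res ⟨t₁, htA⟩
    rw [ha, map_zero] at h5
    have h6 := Polynomial.hom_eval₂ f (RingHom.id ℤ) (Int.castRingHom (IsLocalRing.ResidueField A)) t₀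
    rw [Polynomial.eval₂_id] at h6
    have h7 : (Int.castRingHom (IsLocalRing.ResidueField A)).comp (RingHom.id ℤ)
        = res.comp (Int.castRingHom A) := RingHom.ext_int _ _
    rw [h7] at h6
    have h8 : (Int.castRingHom (IsLocalRing.ResidueField A)) t₀ = res ⟨t₁, htA⟩ := ht₀
    rw [h8, ← h5] at h6
    exact h6
  · intro s' hs'
    obtain ⟨n, rfl⟩ := ZMod.intCast_surjective s'
    have h3 : ((n ^ 2 - 3 : ℤ) : ZMod ℓ) = 0 := by
      push_cast
      rw [hs', sub_self]
    rw [ZMod.intCast_zmod_eq_zero_iff_dvd, ← CharP.intCast_eq_zero_iff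
      (IsLocalRing.ResidueField A) ℓ] at h3
    push_cast at h3
    have h4 : (ρ - n) * (ρ + n) = 0 := by linear_combination hρ2 - h3
    have h5 : ρ ∈ (⊥ : Subfield (IsLocalRing.ResidueField A)) := by
      rw [mem_bot_iff_intCast ℓ]
      rcases mul_eq_zero.mp h4 with h | h
      · exact ⟨n, (sub_eq_zero.mp h).symm⟩
      · exact ⟨-n, by push_cast; linear_combination -h⟩
    rw [Subfield.mem_bot_iff_pow_eq_self _ ℓ, hρℓ] at h5
    have h20 : (2 : IsLocalRing.ResidueField A) ≠ 0 := by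
      intro h
      have : ((2 : ℕ) : IsLocalRing.ResidueField A) = 0 := by exact_mod_cast h
      rw [CharP.cast_eq_zero_iff _ ℓ] at this
      exact hℓ2 ((Nat.prime_dvd_prime_iff_eq hℓ Nat.prime_two).mp this)
    have h6 : ρ = 0 := by
      have : (2 : IsLocalRing.ResidueField A) * ρ = 0 := by linear_combination -h5
      exact (mul_eq_zero.mp this).resolve_left h20
    rw [h6] at hρ2
    have : ((3 : ℕ) : IsLocalRing.ResidueField A) = 0 := by
      push_cast
      rw [← hρ2]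
      simp
    rw [CharP.cast_eq_zero_iff _ ℓ] at this
    exact hℓ3 ((Nat.prime_dvd_prime_iff_eq hℓ Nat.prime_three).mp this)

end Fermat.Agent.S52
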