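import Fermat.Agent.S52.UTors

set_option autoImplicit false

/-! # S52, package CLA : an automorphism fixing `W[5]` and `ζ₅` fixes `u / v` and `v ^ 10` -/

namespace Fermat.Agent.S52

open Polynomial WeierstrassCurve Fermat.Agent.S51
open scoped WeierstrassCurve.Affine

namespace ClaimA

/-- pure field theory: `u v⁹`, `u⁴ v⁶`, `u⁶ v⁴` fixed ⟹ `u / v`, `v¹⁰` fixed. -/
lemma fixed_of_monomials {F : Type*} [Field F] (σ : F →+* F) {u v : F} (hu : u ≠ 0) (hv : v ≠ 0)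
    (h1 : σ (u * v ^ 9) = u * v ^ 9) (h2 : σ (u ^ 4 * v ^ 6) = u ^ 4 * v ^ 6)
    (h3 : σ (u ^ 6 * v ^ 4) = u ^ 6 * v ^ 4) : σ (u / v) = u / v ∧ σ (v ^ 10) = v ^ 10 := by
  have e1 : u / v = (u ^ 4 * v ^ 6) ^ 2 / ((u * v ^ 9) * (u ^ 6 * v ^ 4)) := by
    field_simp
  have hr : σ (u / v) = u / v := by
    conv_lhs => rw [e1]
    rw [map_div₀, map_pow, h2, map_mul σ (u * v ^ 9), h1, h3, ← e1]
  refine ⟨hr, ?_⟩
  have e2 : v ^ 10 = (u * v ^ 9) / (u / v) := by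
    field_simp
  conv_lhs => rw [e2]
  rw [map_div₀, h1, hr, ← e2]

lemma zeta_pow_five {R : Type*} [CommRing R] {ζ : R} (hζ : ζ ^ 4 + ζ ^ 3 + ζ ^ 2 + ζ + 1 = 0) :
    ζ ^ 5 = 1 := by
  linear_combination (ζ - 1) * hζ

lemma HH_zeta {R : Type*} [CommRing R] {ζ : R} (hζ : ζ ^ 5 = 1) (j : ℕ) (u v : R) :
    HH (ζ ^ j * u) v = HH u v := by
  have : (ζ ^ j * u) ^ 5 = u ^ 5 := by
    rw [mul_pow, ← pow_mul, mul_comm j 5, pow_mul, hζ, one_pow, one_mul]
  rw [HH, HH, this]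

lemma TT_zeta {R : Type*} [CommRing R] {ζ : R} (hζ : ζ ^ 5 = 1) (j : ℕ) (u v : R) :
    TT (ζ ^ j * u) v = TT u v := by
  have : (ζ ^ j * u) ^ 5 = u ^ 5 := by
    rw [mul_pow, ← pow_mul, mul_comm j 5, pow_mul, hζ, one_pow, one_mul]
  rw [TT, TT, this]

end ClaimA

open ClaimA in
theorem claimA (W : WeierstrassCurve ℤ) (hΔ : W.Δ ≠ 0) {u v ζ : Qb} (h4 : HH u v = (W.c₄ : Qb))
    (h6 : TT u v = - (W.c₆ : Qb)) (hζ : ζ ^ 4 + ζ ^ 3 + ζ ^ 2 + ζ + 1 = 0) (σ : GQ)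
    (hσ : ∀ P : ((W.map (Int.castRingHom ℚ))⁄Qb).Point, (5 : ℤ) • P = 0 → σ • P = P)
    (hσζ : σ ζ = ζ) : σ (u / v) = u / v ∧ σ (v ^ 10) = v ^ 10 := by
  set E : WeierstrassCurve Qb := (W.map (Int.castRingHom ℚ)).baseChange Qb with hE
  have hc4 : E.c₄ = (W.c₄ : Qb) := by
    rw [hE, WeierstrassCurve.baseChange, WeierstrassCurve.map_c₄, WeierstrassCurve.map_c₄]
    simp
  have hc6 : E.c₆ = (W.c₆ : Qb) := by
    rw [hE, WeierstrassCurve.baseChange, WeierstrassCurve.map_c₆, WeierstrassCurve.map_c₆]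
    simp
  have hb2 : E.b₂ = (W.b₂ : Qb) := by
    rw [hE, WeierstrassCurve.baseChange, WeierstrassCurve.map_b₂, WeierstrassCurve.map_b₂]
    simp
  have hEΔ : E.Δ ≠ 0 := by
    rw [hE, WeierstrassCurve.baseChange, WeierstrassCurve.map_Δ, WeierstrassCurve.map_Δ]
    simpa using hΔ
  have h5 := zeta_pow_five hζ
  -- `σ` fixes `X1 (ζ ^ j u, v)` and `X2 (ζ ^ j u, v)`
  have key : ∀ j : ℕ, σ (X1 (ζ ^ j * u) v) = X1 (ζ ^ j * u) v ∧
      σ (X2 (ζ ^ j * u) v) = X2 (ζ ^ j * u) v := by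
    intro j
    obtain ⟨⟨y, h, hQ⟩, h5Q, ⟨y2, h2, h2Q⟩⟩ := QW_spec E (u := ζ ^ j * u) (v := v)
      (by rw [HH_zeta h5, h4, hc4]) (by rw [TT_zeta h5, h6, hc6]) hEΔ
    have hfix : ∀ (x y : Qb) (h : E.toAffine.Nonsingular x y),
        (5 : ℤ) • (Affine.Point.some x y h : E.toAffine.Point) = 0 → σ x = x := by
      intro x y h h0
      have h1 := hσ (Affine.Point.some x y h) h0
      obtain ⟨h', e⟩ := Galois.smul_some (W.map (Int.castRingHom ℚ)) σ h
      rw [e] at h1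
      exact (Affine.Point.some.inj h1).1
    have hσb : σ (E.b₂) = E.b₂ := by rw [hb2]; simp
    have aux : ∀ X : Qb, σ ((X - E.b₂) / 12) = (X - E.b₂) / 12 → σ X = X := by
      intro X hX
      rw [map_div₀, map_sub, hσb, map_ofNat] at hX
      have h12 : (12 : Qb) ≠ 0 := by norm_num
      have := (div_left_inj' h12).1 hX
      linear_combination this
    constructor
    · apply aux
      apply hfix _ y h
      rw [← hQ]; exact h5Q
    · apply aux
      apply hfix _ y2 h2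
      rw [← h2Q, smul_smul, mul_comm, ← smul_smul, h5Q]
      exact zsmul_zero 2
  have k0 := key 0
  have k1 := key 1
  have k2 := key 2
  have k3 := key 3
  have k4 := key 4
  rw [pow_zero, one_mul] at k0
  rw [pow_one] at k1
  -- `u`, `v` are nonzero
  have hff : ff u v ≠ 0 := by
    intro h0
    have h1 := HH_TT_rel u v
    rw [h0, h4, h6] at h1
    have h2 : (W.c₄ : Qb) ^ 3 - (W.c₆ : Qb) ^ 2 = 1728 * (W.Δ : Qb) := by
      have := W.c_relation
      have h3 := congrArg (fun z : ℤ => (z : Qb)) this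
      push_cast at h3
      linear_combination -h3
    have h3 : (W.Δ : Qb) = 0 := by
      have h1728 : (1728 : Qb) ≠ 0 := by norm_num
      apply mul_left_cancel₀ h1728
      rw [← h2]
      linear_combination h1
    exact hΔ (by exact_mod_cast h3)
  have hu : u ≠ 0 := by
    rintro rfl
    exact hff (by simp [ff])
  have hv : v ≠ 0 := by
    rintro rfl
    exact hff (by simp [ff])
  have f1 := fourier_X1_1 u v ζ hζ
  have f4 := fourier_X1_4 u v ζ hζ
  have f2 := fourier_X2_1 u v ζ hζ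
  have g1 := congrArg σ f1
  have g4 := congrArg σ f4
  have g2 := congrArg σ f2
  simp only [map_add, map_mul, map_pow, hσζ, k0.1, k1.1, k2.1, k3.1, k4.1, k0.2, k1.2, k2.2, k3.2,
    k4.2, map_ofNat] at g1 g4 g2
  rw [f1] at g1
  rw [f4] at g4
  rw [f2] at g2
  refine fixed_of_monomials (σ : Qb →+* Qb) hu hv ?_ ?_ ?_
  · show σ (u * v ^ 9) = u * v ^ 9
    rw [map_mul, map_pow]
    have h60 : (60 : Qb) ≠ 0 := by norm_num
    apply mul_left_cancel₀ h60
    linear_combination -g1 + (2 / 5 : Qb) * g2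
  · show σ (u ^ 4 * v ^ 6) = u ^ 4 * v ^ 6
    rw [map_mul, map_pow, map_pow]
    have h300 : (300 : Qb) ≠ 0 := by norm_num
    apply mul_left_cancel₀ h300
    linear_combination -g4
  · show σ (u ^ 6 * v ^ 4) = u ^ 6 * v ^ 4
    rw [map_mul, map_pow, map_pow]
    have h300 : (300 : Qb) ≠ 0 := by norm_num
    apply mul_left_cancel₀ h300
    linear_combination -g2

end Fermat.Agent.S52
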