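import Fermat.Agent.S52.FDefs

set_option autoImplicit false

/-! # S52, block F: F-COUNT (Manin's degree computation: `deg x(Φ - gen) = #E(𝔽_ℓ)`) -/

namespace Fermat.Agent.S52

open Polynomial WeierstrassCurve

namespace FCount


theorem Hdeg_div' {k : Type*} [Field k] {p q : k[X]} (hq : q ≠ 0) (h : IsCoprime p q) :
    Hdeg (algebraMap k[X] (RatFunc k) p / algebraMap k[X] (RatFunc k) q)
      = max p.natDegree q.natDegree := by
  classical
  have hg : gcd p q = 1 := by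
    have h1 : IsUnit (gcd p q) := (gcd_isUnit_iff p q).2 h
    rw [← normalize_gcd]
    exact normalize_eq_one.2 h1
  have hu : (q.leadingCoeff)⁻¹ ≠ 0 := inv_ne_zero (leadingCoeff_ne_zero.2 hq)
  rw [Hdeg, RatFunc.num_div, RatFunc.denom_div _ hq, hg, EuclideanDomain.div_one,
    EuclideanDomain.div_one, natDegree_C_mul hu, natDegree_C_mul hu]

theorem prod_X_sub_C (ℓ : ℕ) [Fact ℓ.Prime] :
    (X ^ ℓ - X : (ZMod ℓ)[X]) = ∏ c : ZMod ℓ, (X - C c) := by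
  have h1 := FiniteField.roots_X_pow_card_sub_X (ZMod ℓ)
  rw [ZMod.card] at h1
  have hdeg : (X ^ ℓ - X : (ZMod ℓ)[X]).natDegree = ℓ :=
    FiniteField.X_pow_card_sub_X_natDegree_eq _ (Fact.out (p := ℓ.Prime)).one_lt
  have hmonic : (X ^ ℓ - X : (ZMod ℓ)[X]).Monic := by
    apply monic_X_pow_sub
    rw [degree_X]
    exact_mod_cast (Fact.out (p := ℓ.Prime)).one_lt
  have h2 := Polynomial.prod_multiset_X_sub_C_of_monic_of_roots_card_eq hmonic
    (by rw [h1, hdeg]; simp [ZMod.card])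
  rw [← h2, h1]
  rfl



theorem exists_cofactor {k : Type*} [Field k] [Fintype k] (n : k[X]) (e : k → ℕ) (E : ℕ)
    (h1 : ∀ c, (X - C c) ^ (e c) ∣ n) (h2 : ∀ c, e c < E → ¬ (X - C c) ^ (e c + 1) ∣ n) :
    ∃ n', n = (∏ c, (X - C c) ^ (e c)) * n' ∧ IsCoprime n' (∏ c, (X - C c) ^ (E - e c)) := by
  classical
  have hD : (∏ c, (X - C c) ^ (e c)) ∣ n := by
    refine Finset.prod_dvd_of_coprime ?_ fun c _ => h1 c
    intro a _ b _ hab
    exact ((pairwise_coprime_X_sub_C (Function.injective_id (α := k))) hab).pow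
  obtain ⟨n', hn'⟩ := hD
  refine ⟨n', hn', IsCoprime.prod_right fun c _ => ?_⟩
  by_cases hc : e c < E
  · refine IsCoprime.pow_right ?_
    rw [isCoprime_comm, (irreducible_X_sub_C c).coprime_iff_not_dvd]
    rintro ⟨g, rfl⟩
    apply h2 c hc
    rw [hn', ← Finset.mul_prod_erase Finset.univ _ (Finset.mem_univ c), pow_succ]
    exact ⟨(∏ x ∈ Finset.univ.erase c, (X - C x) ^ e x) * g, by ring⟩
  · rw [Nat.sub_eq_zero_of_le (not_lt.1 hc), pow_zero]
    exact isCoprime_one_right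

theorem derivative_eval_of_sq_dvd {k : Type*} [Field k] {c : k} {g : k[X]}
    (h : (X - C c) ^ 2 ∣ g) : g.derivative.eval c = 0 := by
  obtain ⟨q, rfl⟩ := h
  simp [derivative_mul, derivative_pow]



variable {ℓ : ℕ} [Fact ℓ.Prime] (A B : ZMod ℓ)

/-- the numerator. -/
noncomputable def nPol : (ZMod ℓ)[X] :=
  fPol A B * (fPol A B ^ ((ℓ - 1) / 2) + 1) ^ 2 - (X ^ ℓ + X) * (X ^ ℓ - X) ^ 2

theorem fPol_pow_card : fPol A B ^ ℓ = X ^ (3 * ℓ) + C A * X ^ ℓ + C B := by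
  rw [← ZMod.expand_card, fPol]
  simp only [map_add, map_mul, map_pow, expand_X, expand_C]
  ring

theorem nPol_eq (hℓ : 5 ≤ ℓ) : nPol A B = X ^ (2 * ℓ + 1) + (X ^ (ℓ + 2) + C A * X ^ ℓ + C B
    + 2 * fPol A B ^ ((ℓ - 1) / 2 + 1) + fPol A B - X ^ 3) := by
  have hodd : ℓ = 2 * ((ℓ - 1) / 2) + 1 := by
    have := (Fact.out (p := ℓ.Prime)).eq_two_or_odd
    omega
  have h1 : fPol A B * (fPol A B ^ ((ℓ - 1) / 2) + 1) ^ 2
      = fPol A B ^ (2 * ((ℓ - 1) / 2) + 1) + 2 * fPol A B ^ ((ℓ - 1) / 2 + 1) + fPol A B := by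
    ring
  rw [nPol, h1, ← hodd, fPol_pow_card]
  ring

theorem natDegree_nPol (hℓ : 5 ≤ ℓ) : (nPol A B).natDegree = 2 * ℓ + 1 := by
  rw [nPol_eq A B hℓ, natDegree_add_eq_left_of_natDegree_lt, natDegree_X_pow]
  rw [natDegree_X_pow, Nat.lt_succ_iff, fPol]
  compute_degree
  omega



open Classical in
/-- the local exponent of the gcd. -/
noncomputable def eC (c : ZMod ℓ) : ℕ :=
  if (fPol A B).eval c = 0 then 1 else if IsSquare ((fPol A B).eval c) then 0 else 2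

theorem eC_le (c : ZMod ℓ) : eC A B c ≤ 2 := by
  unfold eC
  split_ifs <;> omega

theorem X_sub_C_dvd (c : ZMod ℓ) : (X - C c) ∣ (X ^ ℓ - X : (ZMod ℓ)[X]) := by
  rw [dvd_iff_isRoot]
  simp [ZMod.pow_card]

theorem eval_nPol (c : ZMod ℓ) : (nPol A B).eval c
    = (fPol A B).eval c * ((fPol A B).eval c ^ ((ℓ - 1) / 2) + 1) ^ 2 := by
  simp [nPol, ZMod.pow_card]

theorem half_eq (hℓ : 5 ≤ ℓ) : (ℓ - 1) / 2 = ℓ / 2 := by
  have := (Fact.out (p := ℓ.Prime)).eq_two_or_odd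
  omega

theorem two_ne_zero' (hℓ : 5 ≤ ℓ) : (2 : ZMod ℓ) ≠ 0 := by
  intro h
  have h1 : ((2 : ℕ) : ZMod ℓ) = 0 := by exact_mod_cast h
  rw [ZMod.natCast_eq_zero_iff] at h1
  have := Nat.le_of_dvd (by norm_num) h1
  omega

theorem disc_ne_zero (hΔ : (Esh A B).Δ ≠ 0) : 4 * A ^ 3 + 27 * B ^ 2 ≠ 0 := by
  intro h
  apply hΔ
  have : (Esh A B).Δ = -16 * (4 * A ^ 3 + 27 * B ^ 2) := by
    simp [Esh, WeierstrassCurve.Δ, WeierstrassCurve.b₂, WeierstrassCurve.b₄, WeierstrassCurve.b₆,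
      WeierstrassCurve.b₈]
    ring
  rw [this, h, mul_zero]

theorem sq_dvd_W (c : ZMod ℓ) : (X - C c) ^ 2 ∣ ((X ^ ℓ + X) * (X ^ ℓ - X) ^ 2 : (ZMod ℓ)[X]) :=
  Dvd.dvd.mul_left (pow_dvd_pow_of_dvd (X_sub_C_dvd c) 2) _

theorem pow_eC_dvd (hℓ : 5 ≤ ℓ) (c : ZMod ℓ) : (X - C c) ^ (eC A B c) ∣ nPol A B := by
  unfold eC
  split_ifs with h0 hs
  · rw [pow_one, dvd_iff_isRoot, IsRoot.def, eval_nPol, h0, zero_mul]
  · rw [pow_zero]; exact one_dvd _
  · have h1 : (fPol A B).eval c ^ ((ℓ - 1) / 2) = -1 := by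
      rw [half_eq hℓ]
      rcases ZMod.pow_div_two_eq_neg_one_or_one ℓ h0 with h | h
      · exact absurd ((ZMod.euler_criterion ℓ h0).2 h) hs
      · exact h
    have h2 : (X - C c) ∣ fPol A B ^ ((ℓ - 1) / 2) + 1 := by
      rw [dvd_iff_isRoot, IsRoot.def, eval_add, eval_pow, h1, eval_one, neg_add_cancel]
    exact dvd_sub (Dvd.dvd.mul_left (pow_dvd_pow_of_dvd h2 2) _) (sq_dvd_W c)

theorem not_dvd (hℓ : 5 ≤ ℓ) (hΔ : (Esh A B).Δ ≠ 0) (c : ZMod ℓ) (h : eC A B c < 2) :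
    ¬ (X - C c) ^ (eC A B c + 1) ∣ nPol A B := by
  unfold eC at h ⊢
  split_ifs at h ⊢ with h0 hs
  · intro hd
    have h1 : (X - C c) ^ 2 ∣ fPol A B * (fPol A B ^ ((ℓ - 1) / 2) + 1) ^ 2 := by
      have := dvd_add hd (sq_dvd_W c)
      rwa [nPol, sub_add_cancel] at this
    have h2 := derivative_eval_of_sq_dvd h1
    rw [derivative_mul, eval_add, eval_mul, eval_mul, h0, zero_mul, add_zero, eval_pow, eval_add,
      eval_pow, h0, zero_pow (by omega), eval_one, zero_add, one_pow, mul_one] at h2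
    apply disc_ne_zero A B hΔ
    have h3 : c ^ 3 + A * c + B = 0 := by simpa [fPol] using h0
    have h4 : 3 * c ^ 2 + A = 0 := by simpa [fPol, derivative_pow] using h2
    have hA : A = -3 * c ^ 2 := by linear_combination h4
    have hB : B = 2 * c ^ 3 := by linear_combination h3 - c * h4
    rw [hA, hB]; ring
  · rw [zero_add, pow_one, dvd_iff_isRoot, IsRoot.def, eval_nPol, half_eq hℓ,
      (ZMod.euler_criterion ℓ h0).1 hs]
    have := two_ne_zero' hℓ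
    refine mul_ne_zero h0 (pow_ne_zero 2 ?_)
    rw [one_add_one_eq_two]; exact this
  · omega



theorem card_sqrt (hℓ : 5 ≤ ℓ) (c : ZMod ℓ) :
    Fintype.card {y : ZMod ℓ // y ^ 2 = (fPol A B).eval c} = 2 - eC A B c := by
  unfold eC
  split_ifs with h0 hs
  · rw [h0, Fintype.card_eq_one_iff]
    refine ⟨⟨0, by simp⟩, fun y => Subtype.ext ?_⟩
    exact pow_eq_zero_iff (two_ne_zero) |>.1 y.2
  · obtain ⟨b, hb⟩ := hs
    have hb0 : b ≠ 0 := by
      rintro rfl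
      exact h0 (by rw [hb, mul_zero])
    rw [← Nat.card_eq_fintype_card, Nat.sub_zero, Nat.card_eq_two_iff]
    refine ⟨⟨b, by rw [hb, sq]⟩, ⟨-b, by rw [hb, neg_sq, sq]⟩, ?_, ?_⟩
    · intro h
      have h1 : b = -b := congrArg Subtype.val h
      have h2 : 2 * b = 0 := by linear_combination h1
      exact (mul_ne_zero (two_ne_zero' hℓ) hb0) h2
    · ext ⟨y, hy⟩
      simp only [Set.mem_insert_iff, Set.mem_singleton_iff, Set.mem_univ, iff_true, Subtype.mk.injEq]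
      rw [hb, ← sq] at hy
      exact sq_eq_sq_iff_eq_or_eq_neg.1 hy
  · rw [Nat.sub_self, Fintype.card_eq_zero_iff]
    exact ⟨fun y => hs ⟨y.1, y.2.symm.trans (sq y.1)⟩⟩

theorem equation_iff' (x y : ZMod ℓ) :
    (Esh A B).toAffine.Equation x y ↔ y ^ 2 = (fPol A B).eval x := by
  rw [WeierstrassCurve.Affine.equation_iff]
  simp [Esh, fPol]

/-- points = `0` and the pairs `(x, y)` with `y² = f(x)`. -/
noncomputable def pointEquiv (hΔ : (Esh A B).Δ ≠ 0) : (Esh A B).toAffine.Point ≃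
    Option (Σ c : ZMod ℓ, {y : ZMod ℓ // y ^ 2 = (fPol A B).eval c}) where
  toFun P := match P with
    | .zero => none
    | .some x y h => some ⟨x, y, (equation_iff' A B x y).1 h.1⟩
  invFun o := match o with
    | none => .zero
    | some ⟨x, y, hy⟩ => .some x y
        ((WeierstrassCurve.Affine.equation_iff_nonsingular_of_Δ_ne_zero hΔ).1
          ((equation_iff' A B x y).2 hy))
  left_inv := by rintro (_ | _) <;> rfl
  right_inv := by rintro (_ | ⟨x, y, hy⟩) <;> rfl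

theorem card_point (hℓ : 5 ≤ ℓ) (hΔ : (Esh A B).Δ ≠ 0) :
    Nat.card (Esh A B).toAffine.Point = 1 + ∑ c : ZMod ℓ, (2 - eC A B c) := by
  rw [Nat.card_congr (pointEquiv A B hΔ), Nat.card_eq_fintype_card, Fintype.card_option,
    Fintype.card_sigma, add_comm]
  congr 1
  exact Finset.sum_congr rfl fun c _ => card_sqrt A B hℓ c


theorem natDegree_prod_pow (e : ZMod ℓ → ℕ) :
    (∏ c : ZMod ℓ, (X - C c) ^ (e c)).natDegree = ∑ c, e c := by
  rw [natDegree_prod_of_monic _ _ fun c _ => (monic_X_sub_C c).pow (e c)]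
  refine Finset.sum_congr rfl fun c _ => ?_
  rw [natDegree_pow, natDegree_X_sub_C, mul_one]

theorem prod_pow_ne_zero (e : ZMod ℓ → ℕ) : (∏ c : ZMod ℓ, (X - C c) ^ (e c)) ≠ 0 :=
  (monic_prod_of_monic _ _ fun c _ => (monic_X_sub_C c).pow (e c)).ne_zero

end FCount

open FCount in
theorem Hdeg_manin {ℓ : ℕ} [Fact ℓ.Prime] (hℓ : 5 ≤ ℓ) (A B : ZMod ℓ) (hΔ : (Esh A B).Δ ≠ 0) :
    Hdeg (fT A B * ((fT A B ^ ((ℓ - 1) / 2) + 1) / (RatFunc.X ^ ℓ - RatFunc.X)) ^ 2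
      - RatFunc.X ^ ℓ - RatFunc.X) = Nat.card (Esh A B).toAffine.Point := by
  obtain ⟨n', hn', hcop⟩ := exists_cofactor (nPol A B) (eC A B) 2 (pow_eC_dvd A B hℓ)
    (not_dvd A B hℓ hΔ)
  have hD0 := prod_pow_ne_zero (eC A B)
  have hd'0 := prod_pow_ne_zero (fun c => 2 - eC A B c)
  have hdegD := natDegree_prod_pow (eC A B)
  have hdegd' := natDegree_prod_pow (fun c => 2 - eC A B c)
  set D : (ZMod ℓ)[X] := ∏ c, (X - C c) ^ (eC A B c) with hD
  set d' : (ZMod ℓ)[X] := ∏ c, (X - C c) ^ (2 - eC A B c) with hd'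
  have hd : (X ^ ℓ - X : (ZMod ℓ)[X]) ^ 2 = D * d' := by
    rw [prod_X_sub_C, ← Finset.prod_pow, hD, hd', ← Finset.prod_mul_distrib]
    refine Finset.prod_congr rfl fun c _ => ?_
    rw [← pow_add, Nat.add_sub_cancel' (eC_le A B c)]
  have hn'0 : n' ≠ 0 := by
    rintro rfl
    have := natDegree_nPol A B hℓ
    rw [hn', mul_zero, natDegree_zero] at this
    omega
  have hz : fT A B * ((fT A B ^ ((ℓ - 1) / 2) + 1) / (RatFunc.X ^ ℓ - RatFunc.X)) ^ 2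
      - RatFunc.X ^ ℓ - RatFunc.X
      = algebraMap (ZMod ℓ)[X] (RatFunc (ZMod ℓ)) n' / algebraMap (ZMod ℓ)[X] (RatFunc (ZMod ℓ)) d' := by
    have hinj := IsFractionRing.injective (ZMod ℓ)[X] (RatFunc (ZMod ℓ))
    have hDa : algebraMap (ZMod ℓ)[X] (RatFunc (ZMod ℓ)) D ≠ 0 :=
      (map_ne_zero_iff _ hinj).2 hD0
    have hda : algebraMap (ZMod ℓ)[X] (RatFunc (ZMod ℓ)) d' ≠ 0 :=
      (map_ne_zero_iff _ hinj).2 hd'0
    have hT : (RatFunc.X ^ ℓ - RatFunc.X : RatFunc (ZMod ℓ)) ^ 2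
        = algebraMap (ZMod ℓ)[X] (RatFunc (ZMod ℓ)) D * algebraMap (ZMod ℓ)[X] (RatFunc (ZMod ℓ)) d' := by
      rw [← map_mul, ← hd]
      simp only [map_pow, map_sub, RatFunc.algebraMap_X]
    have hT0 : (RatFunc.X ^ ℓ - RatFunc.X : RatFunc (ZMod ℓ)) ≠ 0 := by
      intro h
      rw [h, zero_pow two_ne_zero] at hT
      exact mul_ne_zero hDa hda hT.symm
    have hN : fT A B * (fT A B ^ ((ℓ - 1) / 2) + 1) ^ 2
        - (RatFunc.X ^ ℓ + RatFunc.X) * (RatFunc.X ^ ℓ - RatFunc.X) ^ 2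
        = algebraMap (ZMod ℓ)[X] (RatFunc (ZMod ℓ)) D * algebraMap (ZMod ℓ)[X] (RatFunc (ZMod ℓ)) n' := by
      rw [← map_mul, ← hn', nPol, fT]
      simp only [map_pow, map_sub, map_add, map_mul, map_one, RatFunc.algebraMap_X]
    rw [eq_div_iff hda]
    apply mul_left_cancel₀ hDa
    rw [← hN]
    have e1 : algebraMap (ZMod ℓ)[X] (RatFunc (ZMod ℓ)) D *
        ((fT A B * ((fT A B ^ ((ℓ - 1) / 2) + 1) / (RatFunc.X ^ ℓ - RatFunc.X)) ^ 2
          - RatFunc.X ^ ℓ - RatFunc.X) * algebraMap (ZMod ℓ)[X] (RatFunc (ZMod ℓ)) d')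
        = (fT A B * ((fT A B ^ ((ℓ - 1) / 2) + 1) / (RatFunc.X ^ ℓ - RatFunc.X)) ^ 2
          - RatFunc.X ^ ℓ - RatFunc.X) * (RatFunc.X ^ ℓ - RatFunc.X) ^ 2 := by
      rw [hT]; ring
    rw [e1]
    field_simp
    ring
  rw [hz, Hdeg_div' hd'0 hcop, card_point A B hℓ hΔ, hdegd']
  have h1 : n'.natDegree + D.natDegree = 2 * ℓ + 1 := by
    rw [← natDegree_nPol A B hℓ, hn', natDegree_mul hD0 hn'0, add_comm]
  have h2 : ∑ c, eC A B c + ∑ c, (2 - eC A B c) = 2 * ℓ := by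
    rw [← Finset.sum_add_distrib]
    have : ∀ c ∈ (Finset.univ : Finset (ZMod ℓ)), eC A B c + (2 - eC A B c) = 2 := fun c _ =>
      Nat.add_sub_cancel' (eC_le A B c)
    rw [Finset.sum_congr rfl this, Finset.sum_const, Finset.card_univ, ZMod.card, smul_eq_mul,
      mul_comm]
  rw [hdegD] at h1
  omega

end Fermat.Agent.S52
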