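import Fermat.Agent.S52.FDefs

set_option autoImplicit false

/-! # S52, block F, package F-H: API of the degree `Hdeg` of a rational function -/

namespace Fermat.Agent.S52

open Polynomial IntermediateField

variable {k : Type*} [Field k]

theorem Hdeg_C (c : k) : Hdeg (RatFunc.C c) = 0 := by
  simp [Hdeg]

theorem Hdeg_X : Hdeg (RatFunc.X : RatFunc k) = 1 := by
  simp [Hdeg]

theorem exists_C_of_Hdeg_eq_zero {z : RatFunc k} (h : Hdeg z = 0) : ∃ c, z = RatFunc.C c := by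
  rw [RatFunc.eq_C_iff]
  unfold Hdeg at h
  omega

theorem transcendental_of_Hdeg_ne_zero {z : RatFunc k} (h : Hdeg z ≠ 0) : Transcendental k z := by
  apply RatFunc.transcendental_of_ne_C
  rintro ⟨c, rfl⟩
  exact h (Hdeg_C c)

namespace FH

lemma natDegree_aux (p q g : k[X]) (hq : q ≠ 0) (hu : IsUnit g) :
    (C (q / g).leadingCoeff⁻¹ * (p / g)).natDegree = p.natDegree := by
  obtain ⟨u, hu0, rfl⟩ := Polynomial.isUnit_iff.mp hu
  have hu1 : u⁻¹ ≠ 0 := inv_ne_zero hu0.ne_zero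
  have hq' : q * C u⁻¹ ≠ 0 := mul_ne_zero hq (by simpa using hu0.ne_zero)
  have hc : ((q * C u⁻¹).leadingCoeff)⁻¹ ≠ 0 := inv_ne_zero (leadingCoeff_ne_zero.mpr hq')
  rw [Polynomial.div_C, Polynomial.div_C, natDegree_C_mul hc, natDegree_mul_C hu1]

lemma isUnit_gcd_aux (I : GCDMonoid k[X]) (p q : k[X]) (h : IsCoprime p q) :
    IsUnit (@GCDMonoid.gcd _ _ I p q) :=
  (@gcd_isUnit_iff_isRelPrime _ _ I p q).mpr h.isRelPrime

end FH

theorem Hdeg_div {p q : k[X]} (hq : q ≠ 0) (h : IsCoprime p q) :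
    Hdeg (algebraMap k[X] (RatFunc k) p / algebraMap k[X] (RatFunc k) q)
      = max p.natDegree q.natDegree := by
  unfold Hdeg
  rw [RatFunc.num_div, RatFunc.denom_div _ hq,
    FH.natDegree_aux _ _ _ hq, FH.natDegree_aux _ _ _ hq]
  all_goals exact FH.isUnit_gcd_aux _ p q h

namespace FH

lemma Hdeg_eq_finrank (z : RatFunc k) : Hdeg z = Module.finrank k⟮z⟯ (RatFunc k) :=
  (RatFunc.finrank_eq_max_natDegree z).symm

end FH

theorem Hdeg_algHom (φ : RatFunc k →ₐ[k] RatFunc k) (z : RatFunc k) :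
    Hdeg (φ z) = Hdeg z * Hdeg (φ RatFunc.X) := by
  have h1 : k⟮φ z⟯ = (k⟮z⟯).map φ := by
    rw [IntermediateField.adjoin_map, Set.image_singleton]
  have h2 : k⟮φ RatFunc.X⟯ = (⊤ : IntermediateField k (RatFunc k)).map φ := by
    rw [← RatFunc.adjoin_X, IntermediateField.adjoin_map, Set.image_singleton]
  rw [FH.Hdeg_eq_finrank, FH.Hdeg_eq_finrank, FH.Hdeg_eq_finrank, h1, h2,
    ← IntermediateField.relfinrank_top_right (A := k⟮z⟯),
    ← IntermediateField.relfinrank_map_map _ _ φ]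
  exact (IntermediateField.relfinrank_mul_finrank_top
    (IntermediateField.map_mono φ le_top)).symm

theorem Hdeg_pow (z : RatFunc k) (n : ℕ) : Hdeg (z ^ n) = n * Hdeg z := by
  by_cases h : Hdeg z = 0
  · obtain ⟨c, rfl⟩ := exists_C_of_Hdeg_eq_zero h
    rw [← map_pow, Hdeg_C, Hdeg_C, mul_zero]
  · have ht := transcendental_of_Hdeg_ne_zero h
    have h1 := Hdeg_algHom (ratHom z ht) (RatFunc.X ^ n)
    rw [map_pow, ratHom_X] at h1
    rw [h1]
    congr 1
    have h2 := Hdeg_div (k := k) (p := X ^ n) (q := 1) one_ne_zero isCoprime_one_right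
    simpa using h2

end Fermat.Agent.S52
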