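import Fermat.Agent.S52.FDefs
import Fermat.Agent.S52.FH

set_option autoImplicit false

/-! # S52, block F, package F-L0 : API of the function field `L0 = k(t, s)` -/

namespace Fermat.Agent.S52

open Polynomial WeierstrassCurve
open scoped WeierstrassCurve.Affine

variable {k : Type*} [Field k] {A B : k}

namespace FL0

/-- every element of `L0` is `a + b s`. -/
lemma exists_decomp (z : L0 A B) : ∃ a b : RatFunc k,
    z = algebraMap (RatFunc k) (L0 A B) a + algebraMap (RatFunc k) (L0 A B) b * sL A B := by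
  have hpow : ∀ n : ℕ, ∃ a b : RatFunc k, sL A B ^ n
      = algebraMap (RatFunc k) (L0 A B) a + algebraMap (RatFunc k) (L0 A B) b * sL A B := by
    intro n
    induction n with
    | zero => exact ⟨1, 0, by simp⟩
    | succ n ih =>
      obtain ⟨a, b, h⟩ := ih
      refine ⟨b * fT A B, a, ?_⟩
      rw [pow_succ, h, map_mul, ← sL_sq]
      ring
  induction z using AdjoinRoot.induction_on with
  | ih p =>
    induction p using Polynomial.induction_on' with
    | add p q hp hq =>
      obtain ⟨a, b, h⟩ := hp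
      obtain ⟨a', b', h'⟩ := hq
      refine ⟨a + a', b + b', ?_⟩
      rw [map_add, h, h', map_add, map_add]
      ring
    | monomial n c =>
      obtain ⟨a, b, h⟩ := hpow n
      refine ⟨c * a, c * b, ?_⟩
      have e : AdjoinRoot.mk (quadPoly A B) (monomial n c)
          = algebraMap (RatFunc k) (L0 A B) c * sL A B ^ n := by
        rw [← C_mul_X_pow_eq_monomial, map_mul, map_pow, AdjoinRoot.mk_C, AdjoinRoot.mk_X]
        rfl
      rw [e, h, map_mul, map_mul]
      ring

lemma conjL_decomp (a b : RatFunc k) :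
    conjL A B (algebraMap (RatFunc k) (L0 A B) a + algebraMap (RatFunc k) (L0 A B) b * sL A B)
      = algebraMap (RatFunc k) (L0 A B) a - algebraMap (RatFunc k) (L0 A B) b * sL A B := by
  rw [map_add, map_mul, AlgHom.commutes, AlgHom.commutes, conjL_sL]
  ring

lemma sL_ne_zero : sL A B ≠ 0 := by
  intro h
  have h1 := sL_sq A B
  rw [h, zero_pow two_ne_zero] at h1
  have h2 : fT A B = 0 := (algebraMap (RatFunc k) (L0 A B)).injective (by rw [← h1, map_zero])
  exact fT_ne_sq A B 0 (by rw [h2]; simp)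

lemma two_ne_zero' (h2 : (2 : k) ≠ 0) : (2 : L0 A B) ≠ 0 := by
  have : (2 : L0 A B) = algebraMap k (L0 A B) 2 := (map_ofNat _ 2).symm
  rw [this]
  exact (_root_.map_ne_zero _).2 h2

/-- two `k`-algebra homomorphisms out of `k(t)` agreeing at `t` are equal -/
lemma ratFunc_algHom_ext {L' : Type*} [Field L'] [Algebra k L'] {f g : RatFunc k →ₐ[k] L'}
    (h : f RatFunc.X = g RatFunc.X) (z : RatFunc k) : f z = g z := by
  have hp : ∀ p : k[X], f (algebraMap k[X] (RatFunc k) p) = g (algebraMap k[X] (RatFunc k) p) := by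
    intro p
    have e : (f.comp (IsScalarTower.toAlgHom k k[X] (RatFunc k)))
        = (g.comp (IsScalarTower.toAlgHom k k[X] (RatFunc k))) := by
      apply Polynomial.algHom_ext
      simpa [RatFunc.algebraMap_X] using h
    exact DFunLike.congr_fun e p
  rw [← RatFunc.num_div_denom z, map_div₀, map_div₀, hp, hp]

lemma ratHom_algebraMap' (w : RatFunc k) (hw : Transcendental k w)
    (hw' : Transcendental k (algebraMap (RatFunc k) (L0 A B) w)) (z : RatFunc k) :
    ratHom (algebraMap (RatFunc k) (L0 A B) w) hw' z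
      = algebraMap (RatFunc k) (L0 A B) (ratHom w hw z) := by
  refine ratFunc_algHom_ext (f := ratHom (algebraMap (RatFunc k) (L0 A B) w) hw')
    (g := (IsScalarTower.toAlgHom k (RatFunc k) (L0 A B)).comp (ratHom w hw)) ?_ z
  rw [ratHom_X, AlgHom.comp_apply, ratHom_X]
  rfl

lemma Hdeg_X' : Hdeg (RatFunc.X : RatFunc k) = 1 := by
  simp [Hdeg]

end FL0

open FL0

theorem conjL_fixed (h2 : (2 : k) ≠ 0) {z : L0 A B} (h : conjL A B z = z) :
    ∃ w, algebraMap (RatFunc k) (L0 A B) w = z := by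
  obtain ⟨a, b, rfl⟩ := exists_decomp z
  rw [conjL_decomp] at h
  have h1 : (2 : L0 A B) * (algebraMap (RatFunc k) (L0 A B) b * sL A B) = 0 := by
    linear_combination -h
  have h3 := (mul_eq_zero.mp h1).resolve_left (two_ne_zero' h2)
  exact ⟨a, by rw [h3, add_zero]⟩

theorem conjL_anti (h2 : (2 : k) ≠ 0) {z : L0 A B} (h : conjL A B z = -z) :
    ∃ w, z = algebraMap (RatFunc k) (L0 A B) w * sL A B := by
  obtain ⟨a, b, rfl⟩ := exists_decomp z
  rw [conjL_decomp] at h
  have h1 : (2 : L0 A B) * algebraMap (RatFunc k) (L0 A B) a = 0 := by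
    linear_combination h
  have h3 := (mul_eq_zero.mp h1).resolve_left (two_ne_zero' h2)
  exact ⟨b, by rw [h3, zero_add]⟩

theorem xK_algebraMap (w : RatFunc k) :
    xK (A := A) (B := B) (algebraMap (RatFunc k) (L0 A B) w) = w := by
  have hex : ∃ w', algebraMap (RatFunc k) (L0 A B) w' = algebraMap (RatFunc k) (L0 A B) w :=
    ⟨w, rfl⟩
  rw [xK, dif_pos hex]
  exact (algebraMap (RatFunc k) (L0 A B)).injective hex.choose_spec

theorem some_mem_Gm {x y : L0 A B} (h : ((Esh A B)⁄(L0 A B)).Nonsingular x y) :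
    (Affine.Point.some x y h) ∈ Gm A B ↔ conjL A B x = x ∧ conjL A B y = - y := by
  rw [Gm, AddMonoidHom.mem_ker, AddMonoidHom.add_apply, AddMonoidHom.id_apply,
    add_eq_zero_iff_eq_neg, Affine.Point.map_some, Affine.Point.neg_some,
    Affine.Point.some.injEq]
  have e : ((Esh A B)⁄(L0 A B)).negY x y = -y := by
    simp [Affine.negY, Esh, WeierstrassCurve.baseChange, WeierstrassCurve.map]
  rw [e]
  rfl

theorem gen_mem_Gm (hΔ : (Esh A B).Δ ≠ 0) : gen hΔ ∈ Gm A B := by
  rw [gen, mkPt, some_mem_Gm]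
  exact ⟨AlgHom.commutes _ _, conjL_sL A B⟩

theorem hP_gen (hΔ : (Esh A B).Δ ≠ 0) : hP (gen hΔ) = 1 := by
  change Hdeg (xK (tL A B)) = 1
  rw [tL, xK_algebraMap, Hdeg_X']

/-- substitution: the endomorphism `R ↦ R ∘ S`. -/
theorem exists_subst (h2 : (2 : k) ≠ 0) (hΔ : (Esh A B).Δ ≠ 0)
    {S : ((Esh A B)⁄(L0 A B)).Point} (hS : S ∈ Gm A B) (h0 : hP S ≠ 0) :
    ∃ φ : L0 A B →ₐ[k] L0 A B, Affine.Point.map (W' := Esh A B) φ (gen hΔ) = S ∧
      ∀ R ∈ Gm A B, Affine.Point.map (W' := Esh A B) φ R ∈ Gm A B ∧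
        hP (Affine.Point.map (W' := Esh A B) φ R) = hP R * hP S := by
  rcases S with _ | ⟨xS, yS, hns⟩
  · exact absurd rfl h0
  obtain ⟨hx, hy⟩ := (some_mem_Gm hns).1 hS
  obtain ⟨w, rfl⟩ := conjL_fixed h2 hx
  have hPS : hP (Affine.Point.some _ yS hns) = Hdeg w := by
    change Hdeg (xK (algebraMap (RatFunc k) (L0 A B) w)) = _
    rw [xK_algebraMap]
  rw [hPS] at h0
  have hw : Transcendental k w := transcendental_of_Hdeg_ne_zero h0
  have hw' : Transcendental k (algebraMap (RatFunc k) (L0 A B) w) := by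
    have := (transcendental_algebraMap_iff (R := k)
      (algebraMap (RatFunc k) (L0 A B)).injective (a := w)).2 hw
    exact this
  have heq := (Esh_equation _ _).1 hns.1
  let φ : L0 A B →ₐ[k] L0 A B := specHom A B _ yS hw' heq
  have hφK : ∀ z : RatFunc k, φ (algebraMap (RatFunc k) (L0 A B) z)
      = algebraMap (RatFunc k) (L0 A B) (ratHom w hw z) := by
    intro z
    rw [specHom_algebraMap, ratHom_algebraMap' w hw hw']
  have hφs : φ (sL A B) = yS := specHom_sL A B _ _ _ _
  have hcomm : ∀ z : L0 A B, conjL A B (φ z) = φ (conjL A B z) := by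
    intro z
    obtain ⟨a, b, rfl⟩ := exists_decomp z
    rw [conjL_decomp, map_add, map_sub, map_mul, hφK, hφK, hφs, map_add, map_mul,
      AlgHom.commutes, AlgHom.commutes, hy]
    ring
  refine ⟨φ, ?_, ?_⟩
  · rw [gen, mkPt, Affine.Point.map_some]
    simp only [Affine.Point.some.injEq]
    exact ⟨specHom_tL A B _ _ _ _, hφs⟩
  · intro R hR
    rcases R with _ | ⟨x, y, hxy⟩
    · refine ⟨zero_mem _, ?_⟩
      change (0 : ℕ) = 0 * _
      rw [zero_mul]
    · obtain ⟨hx', hy'⟩ := (some_mem_Gm hxy).1 hR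
      rw [Affine.Point.map_some]
      refine ⟨(some_mem_Gm _).2 ⟨by rw [hcomm, hx'], by rw [hcomm, hy', map_neg]⟩, ?_⟩
      obtain ⟨v, rfl⟩ := conjL_fixed h2 hx'
      rw [hPS]
      change Hdeg (xK (φ (algebraMap (RatFunc k) (L0 A B) v)))
        = Hdeg (xK (algebraMap (RatFunc k) (L0 A B) v)) * _
      rw [hφK, xK_algebraMap, xK_algebraMap, Hdeg_algHom (ratHom w hw) v, ratHom_X]

end Fermat.Agent.S52
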