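import Fermat.Agent.S52.FDefs

set_option autoImplicit false
set_option linter.unusedSimpArgs false
set_option linter.unusedVariables false

/-! # S52, block F, package F-PAR: the exact parallelogram law for `Hdeg` on `RatFunc k` -/

namespace Fermat.Agent.S52

open Polynomial

namespace FPar

/-! ### The biquadratic forms -/

section forms

variable {R : Type*} [CommRing R]

/-- `(X₁Z₂ - X₂Z₁)²`. -/
def G0 (X1 Z1 X2 Z2 : R) : R := (X1 * Z2 - X2 * Z1) ^ 2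

/-- `2(X₁X₂ + A Z₁Z₂)(X₁Z₂ + X₂Z₁) + 4B Z₁²Z₂²`. -/
def G1 (A B X1 Z1 X2 Z2 : R) : R :=
  2 * (X1 * X2 + A * (Z1 * Z2)) * (X1 * Z2 + X2 * Z1) + 4 * B * ((Z1 * Z2) * (Z1 * Z2))

/-- `(X₁X₂ - A Z₁Z₂)² - 4B Z₁Z₂(X₁Z₂ + X₂Z₁)`. -/
def G2 (A B X1 Z1 X2 Z2 : R) : R :=
  (X1 * X2 - A * (Z1 * Z2)) ^ 2 - 4 * B * ((Z1 * Z2) * (X1 * Z2 + X2 * Z1))

lemma map_G0 {S : Type*} [CommRing S] (φ : R →+* S) (X1 Z1 X2 Z2 : R) :
    φ (G0 X1 Z1 X2 Z2) = G0 (φ X1) (φ Z1) (φ X2) (φ Z2) := by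
  simp [G0]

lemma map_G1 {S : Type*} [CommRing S] (φ : R →+* S) (A B X1 Z1 X2 Z2 : R) :
    φ (G1 A B X1 Z1 X2 Z2) = G1 (φ A) (φ B) (φ X1) (φ Z1) (φ X2) (φ Z2) := by
  simp [G1, map_ofNat]

lemma map_G2 {S : Type*} [CommRing S] (φ : R →+* S) (A B X1 Z1 X2 Z2 : R) :
    φ (G2 A B X1 Z1 X2 Z2) = G2 (φ A) (φ B) (φ X1) (φ Z1) (φ X2) (φ Z2) := by
  simp [G2, map_ofNat]

end forms

/-! ### No base points -/

lemma no_base {L : Type*} [Field L] {A B : L} (h2 : (2 : L) ≠ 0)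
    (hd : 4 * A ^ 3 + 27 * B ^ 2 ≠ 0) {X1 Z1 X2 Z2 : L} (h1 : X1 ≠ 0 ∨ Z1 ≠ 0)
    (h2' : X2 ≠ 0 ∨ Z2 ≠ 0) (g0 : G0 X1 Z1 X2 Z2 = 0) (g1 : G1 A B X1 Z1 X2 Z2 = 0)
    (g2 : G2 A B X1 Z1 X2 Z2 = 0) : False := by
  unfold G0 at g0
  unfold G1 at g1
  unfold G2 at g2
  have e : X1 * Z2 = X2 * Z1 := sub_eq_zero.mp (pow_eq_zero_iff two_ne_zero |>.mp g0)
  by_cases hZ1 : Z1 = 0
  · subst hZ1
    have hX1 : X1 ≠ 0 := by simpa using h1
    have hZ2 : Z2 = 0 := by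
      rw [mul_zero] at e
      exact (mul_eq_zero.mp e).resolve_left hX1
    subst hZ2
    have hX2 : X2 ≠ 0 := by simpa using h2'
    have : (X1 * X2) ^ 2 = 0 := by linear_combination g2
    exact mul_ne_zero hX1 hX2 (pow_eq_zero_iff two_ne_zero |>.mp this)
  · have hZ2 : Z2 ≠ 0 := by
      rintro rfl
      rw [mul_zero] at e
      have hX2 : X2 = 0 := (mul_eq_zero.mp e.symm).resolve_right hZ1
      simp [hX2] at h2'
    obtain ⟨x, rfl⟩ : ∃ x, X1 = x * Z1 := ⟨X1 / Z1, by field_simp⟩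
    have hx2 : X2 = x * Z2 := by
      have : (X2 - x * Z2) * Z1 = 0 := by linear_combination -e
      exact sub_eq_zero.mp ((mul_eq_zero.mp this).resolve_right hZ1)
    subst hx2
    have h4 : (4 : L) ≠ 0 := by
      have : (4 : L) = 2 * 2 := by norm_num
      rw [this]
      exact mul_ne_zero h2 h2
    have hZ : (Z1 * Z2) ^ 2 ≠ 0 := pow_ne_zero _ (mul_ne_zero hZ1 hZ2)
    have hF : x ^ 3 + A * x + B = 0 := by
      have : 4 * (Z1 * Z2) ^ 2 * (x ^ 3 + A * x + B) = 0 := by linear_combination g1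
      exact (mul_eq_zero.mp this).resolve_left (mul_ne_zero h4 hZ)
    have hG : (x ^ 2 - A) ^ 2 - 8 * B * x = 0 := by
      have : (Z1 * Z2) ^ 2 * ((x ^ 2 - A) ^ 2 - 8 * B * x) = 0 := by linear_combination g2
      exact (mul_eq_zero.mp this).resolve_left hZ
    have hF' : 3 * x ^ 2 + A = 0 := by
      have : (3 * x ^ 2 + A) ^ 2 = 0 := by linear_combination hG + 8 * x * hF
      exact pow_eq_zero_iff two_ne_zero |>.mp this
    apply hd
    linear_combination (27 * B - 18 * A * x) * hF + (6 * A * x ^ 2 - 9 * B * x + 4 * A ^ 2) * hF'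

lemma no_base' {L : Type*} [Field L] {X3 Z3 X4 Z4 : L} (h3 : X3 ≠ 0 ∨ Z3 ≠ 0)
    (h4 : X4 ≠ 0 ∨ Z4 ≠ 0) (b0 : Z3 * Z4 = 0) (b1 : X3 * Z4 + X4 * Z3 = 0)
    (b2 : X3 * X4 = 0) : False := by
  rcases mul_eq_zero.mp b0 with rfl | rfl
  · have hX3 : X3 ≠ 0 := by simpa using h3
    have hX4 : X4 = 0 := (mul_eq_zero.mp b2).resolve_left hX3
    subst hX4
    have hZ4 : Z4 ≠ 0 := by simpa using h4
    simp [hX3, hZ4] at b1
  · have hX4 : X4 ≠ 0 := by simpa using h4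
    have hX3 : X3 = 0 := (mul_eq_zero.mp b2).resolve_right hX4
    subst hX3
    have hZ3 : Z3 ≠ 0 := by simpa using h3
    simp [hX4, hZ3] at b1

/-! ### Top coefficients -/

section top

variable {k : Type*} [Field k]

/-- `p` has degree at most `n` and its coefficient of degree `n` is `c`. -/
def Top (p : k[X]) (n : ℕ) (c : k) : Prop := p.natDegree ≤ n ∧ p.coeff n = c

lemma Top.mul {p q : k[X]} {m n N : ℕ} {a b : k} (hp : Top p m a) (hq : Top q n b)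
    (hN : N = m + n) : Top (p * q) N (a * b) := by
  subst hN
  exact ⟨natDegree_mul_le_of_le hp.1 hq.1, by
    rw [coeff_mul_add_eq_of_natDegree_le hp.1 hq.1, hp.2, hq.2]⟩

lemma Top.add {p q : k[X]} {n : ℕ} {a b : k} (hp : Top p n a) (hq : Top q n b) :
    Top (p + q) n (a + b) :=
  ⟨natDegree_add_le_of_degree_le hp.1 hq.1, by rw [coeff_add, hp.2, hq.2]⟩

lemma Top.sub {p q : k[X]} {n : ℕ} {a b : k} (hp : Top p n a) (hq : Top q n b) :
    Top (p - q) n (a - b) :=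
  ⟨(natDegree_sub_le_of_le hp.1 hq.1).trans (by simp), by rw [coeff_sub, hp.2, hq.2]⟩

lemma Top.C (c : k) : Top (C c) 0 c := ⟨by simp, by simp⟩

lemma Top.two : Top (2 : k[X]) 0 2 := by
  rw [show (2 : k[X]) = Polynomial.C 2 from (map_ofNat Polynomial.C 2).symm]
  exact Top.C 2

lemma Top.four : Top (4 : k[X]) 0 4 := by
  rw [show (4 : k[X]) = Polynomial.C 4 from (map_ofNat Polynomial.C 4).symm]
  exact Top.C 4

lemma Top.sq {p : k[X]} {n N : ℕ} {a : k} (hp : Top p n a) (hN : N = 2 * n) :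
    Top (p ^ 2) N (a ^ 2) := by
  rw [pow_two, pow_two]
  exact hp.mul hp (by omega)

variable {X1 Z1 X2 Z2 : k[X]} {d1 d2 : ℕ} {x1 z1 x2 z2 : k}

lemma top_G0 (hX1 : Top X1 d1 x1) (hZ1 : Top Z1 d1 z1) (hX2 : Top X2 d2 x2)
    (hZ2 : Top Z2 d2 z2) : Top (G0 X1 Z1 X2 Z2) (2 * d1 + 2 * d2) (G0 x1 z1 x2 z2) :=
  ((hX1.mul hZ2 rfl).sub (hX2.mul hZ1 (by omega))).sq (by omega)

lemma top_G1 (A B : k) (hX1 : Top X1 d1 x1) (hZ1 : Top Z1 d1 z1) (hX2 : Top X2 d2 x2)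
    (hZ2 : Top Z2 d2 z2) :
    Top (G1 (C A) (C B) X1 Z1 X2 Z2) (2 * d1 + 2 * d2) (G1 A B x1 z1 x2 z2) :=
  ((Top.two.mul ((hX1.mul hX2 rfl).add ((Top.C A).mul (hZ1.mul hZ2 rfl) (by omega)))
    (Nat.zero_add _).symm).mul ((hX1.mul hZ2 rfl).add (hX2.mul hZ1 (by omega))) (by omega)).add
    ((Top.four.mul (Top.C B) rfl).mul ((hZ1.mul hZ2 rfl).mul (hZ1.mul hZ2 rfl) rfl) (by omega))

lemma top_G2 (A B : k) (hX1 : Top X1 d1 x1) (hZ1 : Top Z1 d1 z1) (hX2 : Top X2 d2 x2)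
    (hZ2 : Top Z2 d2 z2) :
    Top (G2 (C A) (C B) X1 Z1 X2 Z2) (2 * d1 + 2 * d2) (G2 A B x1 z1 x2 z2) :=
  (((hX1.mul hX2 rfl).sub ((Top.C A).mul (hZ1.mul hZ2 rfl) (by omega))).sq (by omega)).sub
    ((Top.four.mul (Top.C B) rfl).mul ((hZ1.mul hZ2 rfl).mul
      ((hX1.mul hZ2 rfl).add (hX2.mul hZ1 (by omega))) rfl) (by omega))

end top

/-! ### Primitive pairs and triples -/

section prim

variable {k : Type*} [Field k]

/-- A coprime pair of polynomials with maximal degree exactly `d`. -/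
structure PairOK (X Z : k[X]) (d : ℕ) : Prop where
  cop : IsCoprime X Z
  degX : X.natDegree ≤ d
  degZ : Z.natDegree ≤ d
  top : X.coeff d ≠ 0 ∨ Z.coeff d ≠ 0

/-- A primitive triple of polynomials with maximal degree exactly `D`. -/
structure TripleOK (a0 a1 a2 : k[X]) (D : ℕ) : Prop where
  bez : ∃ u0 u1 u2 : k[X], u0 * a0 + u1 * a1 + u2 * a2 = 1
  deg0 : a0.natDegree ≤ D
  deg1 : a1.natDegree ≤ D
  deg2 : a2.natDegree ≤ D
  top : a0.coeff D ≠ 0 ∨ a1.coeff D ≠ 0 ∨ a2.coeff D ≠ 0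

lemma pairOK_num_denom (x : RatFunc k) : PairOK x.num x.denom (Hdeg x) where
  cop := x.isCoprime_num_denom
  degX := le_max_left _ _
  degZ := le_max_right _ _
  top := by
    unfold Hdeg
    rcases le_total x.num.natDegree x.denom.natDegree with h | h
    · right
      rw [max_eq_right h]
      exact leadingCoeff_ne_zero.mpr x.denom_ne_zero
    · rcases h.eq_or_lt with h' | h'
      · right
        rw [max_eq_left h, ← h']
        exact leadingCoeff_ne_zero.mpr x.denom_ne_zero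
      · left
        rw [max_eq_left h]
        apply leadingCoeff_ne_zero.mpr
        rintro h0
        rw [h0] at h'
        simp at h'

lemma bez_of_maximal {R : Type*} [CommRing R] (a0 a1 a2 : R)
    (h : ∀ M : Ideal R, M.IsMaximal → a0 ∈ M → a1 ∈ M → a2 ∈ M → False) :
    ∃ u0 u1 u2 : R, u0 * a0 + u1 * a1 + u2 * a2 = 1 := by
  by_contra hne
  have hI : Ideal.span {a0, a1, a2} ≠ ⊤ := by
    intro htop
    have h1 : (1 : R) ∈ Ideal.span {a0, a1, a2} := by rw [htop]; trivial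
    rw [Ideal.mem_span_insert] at h1
    obtain ⟨u0, z, hz, h1⟩ := h1
    rw [Ideal.mem_span_pair] at hz
    obtain ⟨u1, u2, rfl⟩ := hz
    exact hne ⟨u0, u1, u2, by rw [h1]; ring⟩
  obtain ⟨M, hM, hle⟩ := Ideal.exists_le_maximal _ hI
  exact h M hM (hle (Ideal.subset_span (by simp))) (hle (Ideal.subset_span (by simp)))
    (hle (Ideal.subset_span (by simp)))

lemma PairOK.map_ne {X Z : k[X]} {d : ℕ} (h : PairOK X Z d) {L : Type*} [Field L]
    (φ : k[X] →+* L) : φ X ≠ 0 ∨ φ Z ≠ 0 := by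
  obtain ⟨a, b, hab⟩ := h.cop
  by_contra hne
  push Not at hne
  have := congrArg φ hab
  rw [map_add, map_mul, map_mul, hne.1, hne.2, map_one] at this
  simp at this

lemma TripleOK.le {a0 a1 a2 b0 b1 b2 : k[X]} {D D' : ℕ} (ha : TripleOK a0 a1 a2 D)
    (hb : TripleOK b0 b1 b2 D') (e01 : a0 * b1 = a1 * b0) (e02 : a0 * b2 = a2 * b0)
    (e12 : a1 * b2 = a2 * b1) : D ≤ D' := by
  obtain ⟨u0, u1, u2, hu⟩ := ha.bez
  set c := u0 * b0 + u1 * b1 + u2 * b2 with hc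
  have h0 : b0 = c * a0 := by
    rw [hc]; linear_combination (-b0) * hu - u1 * e01 - u2 * e02
  have h1 : b1 = c * a1 := by
    rw [hc]; linear_combination (-b1) * hu + u0 * e01 - u2 * e12
  have h2 : b2 = c * a2 := by
    rw [hc]; linear_combination (-b2) * hu + u0 * e02 + u1 * e12
  have hc0 : c ≠ 0 := by
    intro h
    rw [h, zero_mul] at h0 h1 h2
    have := hb.top
    rw [h0, h1, h2] at this
    simp at this
  have key : ∀ a b : k[X], b = c * a → a.coeff D ≠ 0 → b.natDegree ≤ D' → D ≤ D' := by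
    intro a b hba ha0 hbD
    have ha1 : a ≠ 0 := by
      rintro rfl
      simp at ha0
    rw [hba, natDegree_mul hc0 ha1] at hbD
    have := le_natDegree_of_ne_zero ha0
    omega
  rcases ha.top with h | h | h
  · exact key _ _ h0 h hb.deg0
  · exact key _ _ h1 h hb.deg1
  · exact key _ _ h2 h hb.deg2

lemma TripleOK.eq {a0 a1 a2 b0 b1 b2 : k[X]} {D D' : ℕ} (ha : TripleOK a0 a1 a2 D)
    (hb : TripleOK b0 b1 b2 D') (e01 : a0 * b1 = a1 * b0) (e02 : a0 * b2 = a2 * b0)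
    (e12 : a1 * b2 = a2 * b1) : D = D' :=
  le_antisymm (ha.le hb e01 e02 e12) (hb.le ha (by linear_combination -e01)
    (by linear_combination -e02) (by linear_combination -e12))

lemma PairOK.topX {X Z : k[X]} {d : ℕ} (h : PairOK X Z d) : Top X d (X.coeff d) := ⟨h.degX, rfl⟩

lemma PairOK.topZ {X Z : k[X]} {d : ℕ} (h : PairOK X Z d) : Top Z d (Z.coeff d) := ⟨h.degZ, rfl⟩

lemma tripleOK_G {A B : k} (h2 : (2 : k) ≠ 0) (hd : 4 * A ^ 3 + 27 * B ^ 2 ≠ 0)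
    {X1 Z1 X2 Z2 : k[X]} {d1 d2 : ℕ} (P1 : PairOK X1 Z1 d1) (P2 : PairOK X2 Z2 d2) :
    TripleOK (G0 X1 Z1 X2 Z2) (G1 (C A) (C B) X1 Z1 X2 Z2) (G2 (C A) (C B) X1 Z1 X2 Z2)
      (2 * d1 + 2 * d2) where
  bez := by
    apply bez_of_maximal
    intro M hM m0 m1 m2
    let _ : Field (k[X] ⧸ M) := Ideal.Quotient.field M
    let φ : k[X] →+* (k[X] ⧸ M) := Ideal.Quotient.mk M
    have hφ : ∀ a, a ∈ M → φ a = 0 := fun a ha => Ideal.Quotient.eq_zero_iff_mem.mpr ha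
    have h2L : (2 : k[X] ⧸ M) ≠ 0 := by
      have := (map_ne_zero (φ.comp C)).mpr h2
      simpa [map_ofNat] using this
    have hdL : 4 * (φ (C A)) ^ 3 + 27 * (φ (C B)) ^ 2 ≠ 0 := by
      have := (map_ne_zero (φ.comp C)).mpr hd
      simpa [map_ofNat] using this
    refine no_base h2L hdL (P1.map_ne φ) (P2.map_ne φ) ?_ ?_ ?_
    · rw [← map_G0]; exact hφ _ m0
    · rw [← map_G1]; exact hφ _ m1
    · rw [← map_G2]; exact hφ _ m2
  deg0 := (top_G0 P1.topX P1.topZ P2.topX P2.topZ).1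
  deg1 := (top_G1 A B P1.topX P1.topZ P2.topX P2.topZ).1
  deg2 := (top_G2 A B P1.topX P1.topZ P2.topX P2.topZ).1
  top := by
    rw [(top_G0 P1.topX P1.topZ P2.topX P2.topZ).2, (top_G1 A B P1.topX P1.topZ P2.topX P2.topZ).2,
      (top_G2 A B P1.topX P1.topZ P2.topX P2.topZ).2]
    by_contra hne
    push Not at hne
    exact no_base h2 hd P1.top P2.top hne.1 hne.2.1 hne.2.2

lemma tripleOK_S {X3 Z3 X4 Z4 : k[X]} {d3 d4 : ℕ} (P3 : PairOK X3 Z3 d3)
    (P4 : PairOK X4 Z4 d4) :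
    TripleOK (Z3 * Z4) (X3 * Z4 + X4 * Z3) (X3 * X4) (d3 + d4) where
  bez := by
    apply bez_of_maximal
    intro M hM m0 m1 m2
    let _ : Field (k[X] ⧸ M) := Ideal.Quotient.field M
    let φ : k[X] →+* (k[X] ⧸ M) := Ideal.Quotient.mk M
    have hφ : ∀ a, a ∈ M → φ a = 0 := fun a ha => Ideal.Quotient.eq_zero_iff_mem.mpr ha
    refine no_base' (P3.map_ne φ) (P4.map_ne φ) ?_ ?_ ?_
    · rw [← map_mul]; exact hφ _ m0
    · rw [← map_mul, ← map_mul, ← map_add]; exact hφ _ m1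
    · rw [← map_mul]; exact hφ _ m2
  deg0 := (P3.topZ.mul P4.topZ rfl).1
  deg1 := ((P3.topX.mul P4.topZ rfl).add (P4.topX.mul P3.topZ (by omega))).1
  deg2 := (P3.topX.mul P4.topX rfl).1
  top := by
    rw [(P3.topZ.mul P4.topZ rfl).2,
      ((P3.topX.mul P4.topZ rfl).add (P4.topX.mul P3.topZ (Nat.add_comm _ _))).2,
      (P3.topX.mul P4.topX rfl).2]
    by_contra hne
    push Not at hne
    exact no_base' P3.top P4.top hne.1 hne.2.1 hne.2.2

lemma tripleOK_pair {X3 Z3 : k[X]} {d3 : ℕ} (P3 : PairOK X3 Z3 d3) :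
    TripleOK 0 Z3 X3 d3 where
  bez := by
    obtain ⟨a, b, hab⟩ := P3.cop
    exact ⟨0, b, a, by linear_combination hab⟩
  deg0 := by simp
  deg1 := P3.degZ
  deg2 := P3.degX
  top := by
    rcases P3.top with h | h
    · exact Or.inr (Or.inr h)
    · exact Or.inr (Or.inl h)

lemma num_eq (x : RatFunc k) :
    algebraMap k[X] (RatFunc k) x.num = x * algebraMap k[X] (RatFunc k) x.denom := by
  have h := RatFunc.num_div_denom x
  have h0 : algebraMap k[X] (RatFunc k) x.denom ≠ 0 := RatFunc.algebraMap_ne_zero x.denom_ne_zero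
  rw [div_eq_iff h0] at h
  exact h

end prim

end FPar

open FPar

variable {k : Type*} [Field k] {A B : k}

theorem Hdeg_add_sub (h2 : (2 : k) ≠ 0) (hd : 4 * A ^ 3 + 27 * B ^ 2 ≠ 0)
    {x₁ x₂ x₃ x₄ : RatFunc k} (h12 : x₁ ≠ x₂)
    (hs : (x₃ + x₄) * (x₁ - x₂) ^ 2
      = 2 * (x₁ * x₂ + RatFunc.C A) * (x₁ + x₂) + 4 * RatFunc.C B)
    (hp : x₃ * x₄ * (x₁ - x₂) ^ 2
      = (x₁ * x₂ - RatFunc.C A) ^ 2 - 4 * RatFunc.C B * (x₁ + x₂)) :
    Hdeg x₃ + Hdeg x₄ = 2 * Hdeg x₁ + 2 * Hdeg x₂ := by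
  have TA := tripleOK_G h2 hd (pairOK_num_denom x₁) (pairOK_num_denom x₂)
  have TB := tripleOK_S (pairOK_num_denom x₃) (pairOK_num_denom x₄)
  have hinj := RatFunc.algebraMap_injective k
  refine TB.eq TA ?_ ?_ ?_
  · apply hinj
    simp only [map_mul, map_add, map_G0, map_G1, map_G2, num_eq, RatFunc.algebraMap_C]
    generalize algebraMap k[X] (RatFunc k) x₁.denom = z₁
    generalize algebraMap k[X] (RatFunc k) x₂.denom = z₂
    generalize algebraMap k[X] (RatFunc k) x₃.denom = z₃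
    generalize algebraMap k[X] (RatFunc k) x₄.denom = z₄
    unfold G0 G1
    linear_combination (-(z₁ ^ 2 * z₂ ^ 2 * z₃ * z₄)) * hs
  · apply hinj
    simp only [map_mul, map_add, map_G0, map_G1, map_G2, num_eq, RatFunc.algebraMap_C]
    generalize algebraMap k[X] (RatFunc k) x₁.denom = z₁
    generalize algebraMap k[X] (RatFunc k) x₂.denom = z₂
    generalize algebraMap k[X] (RatFunc k) x₃.denom = z₃
    generalize algebraMap k[X] (RatFunc k) x₄.denom = z₄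
    unfold G0 G2
    linear_combination (-(z₁ ^ 2 * z₂ ^ 2 * z₃ * z₄)) * hp
  · apply hinj
    simp only [map_mul, map_add, map_G0, map_G1, map_G2, num_eq, RatFunc.algebraMap_C]
    generalize algebraMap k[X] (RatFunc k) x₁.denom = z₁
    generalize algebraMap k[X] (RatFunc k) x₂.denom = z₂
    generalize algebraMap k[X] (RatFunc k) x₃.denom = z₃
    generalize algebraMap k[X] (RatFunc k) x₄.denom = z₄
    unfold G1 G2
    linear_combination (z₁ ^ 2 * z₂ ^ 2 * z₃ * z₄ * (x₃ * x₄)) * hs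
      - (z₁ ^ 2 * z₂ ^ 2 * z₃ * z₄ * (x₃ + x₄)) * hp

theorem Hdeg_dbl (h2 : (2 : k) ≠ 0) (hd : 4 * A ^ 3 + 27 * B ^ 2 ≠ 0)
    {x₁ x₃ : RatFunc k} (hf : x₁ ^ 3 + RatFunc.C A * x₁ + RatFunc.C B ≠ 0)
    (h : x₃ * (4 * (x₁ ^ 3 + RatFunc.C A * x₁ + RatFunc.C B))
      = (x₁ ^ 2 - RatFunc.C A) ^ 2 - 8 * RatFunc.C B * x₁) :
    Hdeg x₃ = 4 * Hdeg x₁ := by
  have TA := tripleOK_G h2 hd (pairOK_num_denom x₁) (pairOK_num_denom x₁)
  have TB := tripleOK_pair (pairOK_num_denom x₃)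
  have hinj := RatFunc.algebraMap_injective k
  have key : Hdeg x₃ = 2 * Hdeg x₁ + 2 * Hdeg x₁ := by
    refine TB.eq TA ?_ ?_ ?_
    · unfold G0; ring
    · unfold G0; ring
    · apply hinj
      simp only [map_mul, map_add, map_G0, map_G1, map_G2, num_eq, RatFunc.algebraMap_C]
      generalize algebraMap k[X] (RatFunc k) x₁.denom = z₁
      generalize algebraMap k[X] (RatFunc k) x₃.denom = z₃
      unfold G1 G2
      linear_combination (-(z₁ ^ 4 * z₃)) * h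
  omega

end Fermat.Agent.S52
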