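import Fermat.Agent.S52.FDefs
import Fermat.Agent.S52.FH
import Fermat.Agent.S52.FL0
import Fermat.Agent.S52.FPar

set_option autoImplicit false

/-! # S52, block F, package F-GRP : the height `hP` on `Gm` satisfies the parallelogram law -/

namespace Fermat.Agent.S52

open Polynomial WeierstrassCurve
open scoped WeierstrassCurve.Affine

variable {k : Type*} [Field k] {A B : k}

namespace FGrp

/-! ### pure algebra -/

section Alg

variable {F : Type*} [Field F]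

theorem sum_formula {a b x₁ x₂ y₁ y₂ l l' : F}
    (h₁ : y₁ ^ 2 = x₁ ^ 3 + a * x₁ + b) (h₂ : y₂ ^ 2 = x₂ ^ 3 + a * x₂ + b)
    (hl : l * (x₁ - x₂) = y₁ - y₂) (hl' : l' * (x₁ - x₂) = y₁ + y₂) :
    ((l ^ 2 - x₁ - x₂) + (l' ^ 2 - x₁ - x₂)) * (x₁ - x₂) ^ 2
      = 2 * (x₁ * x₂ + a) * (x₁ + x₂) + 4 * b := by
  linear_combination (l * (x₁ - x₂) + (y₁ - y₂)) * hl + (l' * (x₁ - x₂) + (y₁ + y₂)) * hl'
    + 2 * h₁ + 2 * h₂

theorem prod_formula {a b x₁ x₂ y₁ y₂ l l' : F} (hx : x₁ ≠ x₂)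
    (h₁ : y₁ ^ 2 = x₁ ^ 3 + a * x₁ + b) (h₂ : y₂ ^ 2 = x₂ ^ 3 + a * x₂ + b)
    (hl : l * (x₁ - x₂) = y₁ - y₂) (hl' : l' * (x₁ - x₂) = y₁ + y₂) :
    (l ^ 2 - x₁ - x₂) * (l' ^ 2 - x₁ - x₂) * (x₁ - x₂) ^ 2
      = (x₁ * x₂ - a) ^ 2 - 4 * b * (x₁ + x₂) := by
  have hd : (x₁ - x₂) ^ 2 ≠ 0 := pow_ne_zero _ (sub_ne_zero.2 hx)
  apply mul_right_cancel₀ hd
  have e3 : (l ^ 2 - x₁ - x₂) * (x₁ - x₂) ^ 2 = (y₁ - y₂) ^ 2 - (x₁ + x₂) * (x₁ - x₂) ^ 2 := by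
    linear_combination (l * (x₁ - x₂) + (y₁ - y₂)) * hl
  have e4 : (l' ^ 2 - x₁ - x₂) * (x₁ - x₂) ^ 2 = (y₁ + y₂) ^ 2 - (x₁ + x₂) * (x₁ - x₂) ^ 2 := by
    linear_combination (l' * (x₁ - x₂) + (y₁ + y₂)) * hl'
  have e5 : (l ^ 2 - x₁ - x₂) * (l' ^ 2 - x₁ - x₂) * (x₁ - x₂) ^ 2 * (x₁ - x₂) ^ 2
      = ((l ^ 2 - x₁ - x₂) * (x₁ - x₂) ^ 2) * ((l' ^ 2 - x₁ - x₂) * (x₁ - x₂) ^ 2) := by ring
  rw [e5, e3, e4]
  linear_combination
    ((y₁ ^ 2 - y₂ ^ 2 + (x₁ ^ 3 + a * x₁ + b) - (x₂ ^ 3 + a * x₂ + b))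
      - 2 * (x₁ + x₂) * (x₁ - x₂) ^ 2) * h₁
    + (-(y₁ ^ 2 - y₂ ^ 2 + (x₁ ^ 3 + a * x₁ + b) - (x₂ ^ 3 + a * x₂ + b))
      - 2 * (x₁ + x₂) * (x₁ - x₂) ^ 2) * h₂

theorem dbl_formula {a b x₁ y₁ l : F} (h₁ : y₁ ^ 2 = x₁ ^ 3 + a * x₁ + b)
    (hl : l * (2 * y₁) = 3 * x₁ ^ 2 + a) :
    (l ^ 2 - x₁ - x₁) * (4 * (x₁ ^ 3 + a * x₁ + b)) = (x₁ ^ 2 - a) ^ 2 - 8 * b * x₁ := by
  linear_combination (l * (2 * y₁) + (3 * x₁ ^ 2 + a)) * hl + (- 4 * l ^ 2) * h₁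

end Alg

/-! ### the group law of `y² = x³ + A x + B` -/

section Curve

variable {L : Type*} [Field L] [Algebra k L]

theorem negY_eq (x y : L) : ((Esh A B)⁄L).negY x y = -y := by
  simp [Affine.negY, Esh, WeierstrassCurve.baseChange, WeierstrassCurve.map]

theorem addX_eq (x₁ x₂ l : L) : ((Esh A B)⁄L).addX x₁ x₂ l = l ^ 2 - x₁ - x₂ := by
  simp [Affine.addX, Esh, WeierstrassCurve.baseChange, WeierstrassCurve.map]

variable [DecidableEq L]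

theorem slope_mul_of_X_ne {x₁ x₂ : L} (y₁ y₂ : L) (hx : x₁ ≠ x₂) :
    ((Esh A B)⁄L).slope x₁ x₂ y₁ y₂ * (x₁ - x₂) = y₁ - y₂ := by
  rw [Affine.slope_of_X_ne hx, div_mul_cancel₀ _ (sub_ne_zero.2 hx)]

theorem slope_mul_of_Y_ne (h2 : (2 : L) ≠ 0) {x₁ y₁ : L} (hy : y₁ ≠ 0) :
    ((Esh A B)⁄L).slope x₁ x₁ y₁ y₁ * (2 * y₁) = 3 * x₁ ^ 2 + algebraMap k L A := by
  have hy' : y₁ ≠ ((Esh A B)⁄L).negY x₁ y₁ := by
    rw [negY_eq]
    intro h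
    apply hy
    have : (2 : L) * y₁ = 0 := by linear_combination h
    exact (mul_eq_zero.1 this).resolve_left h2
  rw [Affine.slope_of_Y_ne rfl hy', negY_eq]
  have h3 : y₁ - -y₁ = 2 * y₁ := by ring
  rw [h3, div_mul_cancel₀ _ (mul_ne_zero h2 hy)]
  simp [Esh, WeierstrassCurve.baseChange, WeierstrassCurve.map]

theorem add_self_eq (h2 : (2 : L) ≠ 0) {x y : L} (h : ((Esh A B)⁄L).Nonsingular x y)
    (hy : y ≠ 0) :
    ∃ (l x₃ y₃ : L) (h₃ : ((Esh A B)⁄L).Nonsingular x₃ y₃),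
      l * (2 * y) = 3 * x ^ 2 + algebraMap k L A ∧ x₃ = l ^ 2 - x - x ∧
      Affine.Point.some x y h + Affine.Point.some x y h = Affine.Point.some x₃ y₃ h₃ := by
  have hy' : y ≠ ((Esh A B)⁄L).negY x y := by
    rw [negY_eq]
    intro h
    apply hy
    have : (2 : L) * y = 0 := by linear_combination h
    exact (mul_eq_zero.1 this).resolve_left h2
  exact ⟨_, _, _, _, slope_mul_of_Y_ne h2 hy, addX_eq _ _ _, Affine.Point.add_self_of_Y_ne hy'⟩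

theorem add_eq_of_X_ne {x₁ x₂ y₁ y₂ : L} (h₁ : ((Esh A B)⁄L).Nonsingular x₁ y₁)
    (h₂ : ((Esh A B)⁄L).Nonsingular x₂ y₂) (hx : x₁ ≠ x₂) :
    ∃ (l x₃ y₃ : L) (h₃ : ((Esh A B)⁄L).Nonsingular x₃ y₃),
      l * (x₁ - x₂) = y₁ - y₂ ∧ x₃ = l ^ 2 - x₁ - x₂ ∧
      Affine.Point.some x₁ y₁ h₁ + Affine.Point.some x₂ y₂ h₂ = Affine.Point.some x₃ y₃ h₃ :=
  ⟨_, _, _, _, slope_mul_of_X_ne y₁ y₂ hx, addX_eq _ _ _, Affine.Point.add_of_X_ne hx⟩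

theorem sub_eq_of_X_ne {x₁ x₂ y₁ y₂ : L} (h₁ : ((Esh A B)⁄L).Nonsingular x₁ y₁)
    (h₂ : ((Esh A B)⁄L).Nonsingular x₂ y₂) (hx : x₁ ≠ x₂) :
    ∃ (l x₃ y₃ : L) (h₃ : ((Esh A B)⁄L).Nonsingular x₃ y₃),
      l * (x₁ - x₂) = y₁ + y₂ ∧ x₃ = l ^ 2 - x₁ - x₂ ∧
      Affine.Point.some x₁ y₁ h₁ - Affine.Point.some x₂ y₂ h₂ = Affine.Point.some x₃ y₃ h₃ := by
  obtain ⟨l, x₃, y₃, h₃, e1, e2, e3⟩ :=
    add_eq_of_X_ne h₁ ((Affine.nonsingular_neg ..).mpr h₂) hx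
  refine ⟨l, x₃, y₃, h₃, ?_, e2, ?_⟩
  · rw [e1, negY_eq, sub_neg_eq_add]
  · rw [sub_eq_add_neg (Affine.Point.some x₁ y₁ h₁), Affine.Point.neg_some, e3]

end Curve

theorem disc_ne_zero (hΔ : (Esh A B).Δ ≠ 0) : 4 * A ^ 3 + 27 * B ^ 2 ≠ 0 := by
  intro h
  apply hΔ
  have : (Esh A B).Δ = -16 * (4 * A ^ 3 + 27 * B ^ 2) := by
    simp [Esh, WeierstrassCurve.Δ, WeierstrassCurve.b₂, WeierstrassCurve.b₄, WeierstrassCurve.b₆,
      WeierstrassCurve.b₈]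
    ring
  rw [this, h, mul_zero]

local notation "ι" => algebraMap (RatFunc k) (L0 A B)

theorem algebraMap_eq' (c : k) : algebraMap k (L0 A B) c = algebraMap (RatFunc k) (L0 A B) (RatFunc.C c) := by
  rw [IsScalarTower.algebraMap_apply k (RatFunc k) (L0 A B), RatFunc.algebraMap_eq_C]

theorem hP_some {x y : L0 A B} (h : ((Esh A B)⁄(L0 A B)).Nonsingular x y) :
    hP (Affine.Point.some x y h) = Hdeg (xK x) := rfl

theorem hP_zero : hP (0 : ((Esh A B)⁄(L0 A B)).Point) = 0 := rfl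

theorem hP_neg (P : ((Esh A B)⁄(L0 A B)).Point) : hP (-P) = hP P := by
  rcases P with _ | ⟨x, y, h⟩
  · rfl
  · rfl

/-- the coordinates of a point of `Gm`. -/
theorem exists_coord (h2 : (2 : k) ≠ 0) {x y : L0 A B}
    {h : ((Esh A B)⁄(L0 A B)).Nonsingular x y} (hm : Affine.Point.some x y h ∈ Gm A B) :
    ∃ w η : RatFunc k, x = algebraMap (RatFunc k) (L0 A B) w ∧
      y = algebraMap (RatFunc k) (L0 A B) η * sL A B := by
  obtain ⟨hx, hy⟩ := (some_mem_Gm h).1 hm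
  obtain ⟨w, hw⟩ := conjL_fixed h2 hx
  obtain ⟨η, hη⟩ := conjL_anti h2 hy
  exact ⟨w, η, hw.symm, hη⟩

theorem equation_of {x y : L0 A B} (h : ((Esh A B)⁄(L0 A B)).Nonsingular x y) :
    y ^ 2 = x ^ 3 + algebraMap k (L0 A B) A * x + algebraMap k (L0 A B) B :=
  (Esh_equation x y).1 h.1

theorem Hdeg_eq_zero_of_root {w : RatFunc k}
    (h : w ^ 3 + RatFunc.C A * w + RatFunc.C B = 0) : Hdeg w = 0 := by
  by_contra h0
  have ht := transcendental_of_Hdeg_ne_zero h0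
  apply fPol_ne_zero A B
  apply (transcendental_iff.1 ht)
  rw [fPol]
  simp only [map_add, map_mul, map_pow, aeval_X, aeval_C, RatFunc.algebraMap_eq_C]
  exact h

theorem hP_add_self (h2 : (2 : k) ≠ 0) (hΔ : (Esh A B).Δ ≠ 0)
    {P : ((Esh A B)⁄(L0 A B)).Point} (hP' : P ∈ Gm A B) : hP (P + P) = 4 * hP P := by
  rcases P with _ | ⟨x, y, h⟩
  · rfl
  obtain ⟨w, η, rfl, hη⟩ := exists_coord h2 hP'
  have heq := equation_of h
  rw [algebraMap_eq', algebraMap_eq'] at heq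
  have heq' : y ^ 2 = algebraMap (RatFunc k) (L0 A B) (w ^ 3 + RatFunc.C A * w + RatFunc.C B) := by
    rw [heq]
    simp only [map_add, map_mul, map_pow]
  rw [hP_some h, xK_algebraMap]
  by_cases hy : y = 0
  · have h0 : Affine.Point.some _ y h + Affine.Point.some _ y h = 0 := by
      apply Affine.Point.add_self_of_Y_eq
      rw [negY_eq, hy, neg_zero]
    rw [h0, hP_zero]
    rw [hy, zero_pow two_ne_zero] at heq'
    have h3 : w ^ 3 + RatFunc.C A * w + RatFunc.C B = 0 :=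
      (algebraMap (RatFunc k) (L0 A B)).injective (by rw [← heq', map_zero])
    rw [Hdeg_eq_zero_of_root h3]
  · obtain ⟨l, x₃, y₃, h₃, e1, e2, e3⟩ := add_self_eq (FL0.two_ne_zero' h2) h hy
    have hm : Affine.Point.some x₃ y₃ h₃ ∈ Gm A B := e3 ▸ (Gm A B).add_mem hP' hP'
    obtain ⟨w₃, η₃, rfl, -⟩ := exists_coord h2 hm
    rw [e3, hP_some h₃, xK_algebraMap]
    rw [algebraMap_eq'] at e1
    have hd := dbl_formula heq e1
    rw [← e2] at hd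
    apply Hdeg_dbl h2 (disc_ne_zero hΔ) (A := A) (B := B)
    · intro h0
      rw [h0, map_zero] at heq'
      exact hy (pow_eq_zero_iff two_ne_zero |>.1 heq')
    · apply (algebraMap (RatFunc k) (L0 A B)).injective
      simp only [map_add, map_mul, map_pow, map_sub, map_ofNat]
      exact hd

end FGrp

open FGrp

theorem hP_parallelogram (h2 : (2 : k) ≠ 0) (hΔ : (Esh A B).Δ ≠ 0)
    {P Q : ((Esh A B)⁄(L0 A B)).Point} (hP' : P ∈ Gm A B) (hQ : Q ∈ Gm A B) :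
    hP (P + Q) + hP (P - Q) = 2 * hP P + 2 * hP Q := by
  rcases P with _ | ⟨x₁, y₁, h₁⟩
  · change hP (0 + Q) + hP (0 - Q) = 2 * hP 0 + 2 * hP Q
    rw [zero_add, zero_sub, hP_neg, hP_zero]
    ring
  rcases Q with _ | ⟨x₂, y₂, h₂⟩
  · change hP (Affine.Point.some x₁ y₁ h₁ + 0) + hP (Affine.Point.some x₁ y₁ h₁ - 0)
      = 2 * hP (Affine.Point.some x₁ y₁ h₁) + 2 * hP 0
    rw [add_zero, sub_zero, hP_zero]
    ring
  by_cases hx : x₁ = x₂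
  · rcases Affine.Point.X_eq_iff.1 hx with h | h
    · rw [h, sub_self, hP_zero, hP_add_self h2 hΔ hQ]
      ring
    · rw [h, neg_add_cancel, hP_zero, ← neg_add', hP_neg, hP_neg, hP_add_self h2 hΔ hQ]
      ring
  · obtain ⟨l, x₃, y₃, h₃, e1, e2, e3⟩ := add_eq_of_X_ne h₁ h₂ hx
    obtain ⟨l', x₄, y₄, h₄, e1', e2', e3'⟩ := sub_eq_of_X_ne h₁ h₂ hx
    have hm₃ : Affine.Point.some x₃ y₃ h₃ ∈ Gm A B := e3 ▸ (Gm A B).add_mem hP' hQ
    have hm₄ : Affine.Point.some x₄ y₄ h₄ ∈ Gm A B := e3' ▸ (Gm A B).sub_mem hP' hQ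
    obtain ⟨w₁, η₁, rfl, -⟩ := exists_coord h2 hP'
    obtain ⟨w₂, η₂, rfl, -⟩ := exists_coord h2 hQ
    obtain ⟨w₃, η₃, rfl, -⟩ := exists_coord h2 hm₃
    obtain ⟨w₄, η₄, rfl, -⟩ := exists_coord h2 hm₄
    rw [e3, e3', hP_some h₁, hP_some h₂, hP_some h₃, hP_some h₄, xK_algebraMap, xK_algebraMap,
      xK_algebraMap, xK_algebraMap]
    have q₁ := equation_of h₁
    have q₂ := equation_of h₂
    rw [algebraMap_eq', algebraMap_eq'] at q₁ q₂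
    have hs := sum_formula q₁ q₂ e1 e1'
    have hp := prod_formula hx q₁ q₂ e1 e1'
    rw [← e2, ← e2'] at hs hp
    apply Hdeg_add_sub h2 (disc_ne_zero hΔ) (A := A) (B := B) (x₁ := w₁) (x₂ := w₂)
    · intro h
      exact hx (by rw [h])
    · apply (algebraMap (RatFunc k) (L0 A B)).injective
      simp only [map_add, map_mul, map_pow, map_sub, map_ofNat]
      exact hs
    · apply (algebraMap (RatFunc k) (L0 A B)).injective
      simp only [map_add, map_mul, map_pow, map_sub, map_ofNat]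
      exact hp

theorem two_smul_eq_zero_of_hP (h2 : (2 : k) ≠ 0) (hΔ : (Esh A B).Δ ≠ 0)
    {P : ((Esh A B)⁄(L0 A B)).Point} (hP' : P ∈ Gm A B) (h : hP P = 0) : (2 : ℤ) • P = 0 := by
  rcases P with _ | ⟨x, y, hxy⟩
  · change (2 : ℤ) • (0 : ((Esh A B)⁄(L0 A B)).Point) = 0
    rw [two_zsmul, add_zero]
  obtain ⟨w, η, rfl, hη⟩ := exists_coord h2 hP'
  rw [hP_some hxy, xK_algebraMap] at h
  obtain ⟨c, rfl⟩ := exists_C_of_Hdeg_eq_zero h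
  have heq := equation_of hxy
  rw [algebraMap_eq', algebraMap_eq', hη, mul_pow, sL_sq] at heq
  have heq' : η ^ 2 * fT A B = RatFunc.C (c ^ 3 + A * c + B) := by
    apply (algebraMap (RatFunc k) (L0 A B)).injective
    simp only [map_add, map_mul, map_pow]
    exact heq
  have hη0 : η = 0 := by
    by_contra hne
    have hf0 : fT A B ≠ 0 := by
      intro h0
      exact fT_ne_sq A B 0 (by rw [h0]; simp)
    have h1 : (η ^ 2 * fT A B).intDegree = 2 * η.intDegree + 3 := by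
      rw [RatFunc.intDegree_mul (pow_ne_zero _ hne) hf0, pow_two, RatFunc.intDegree_mul hne hne]
      have h3 : (fT A B).intDegree = 3 := by
        unfold fT
        rw [RatFunc.intDegree_polynomial, natDegree_fPol]; rfl
      rw [h3]
      ring
    rw [heq', RatFunc.intDegree_C] at h1
    omega
  have hy : y = 0 := by rw [hη, hη0, map_zero, zero_mul]
  rw [two_zsmul]
  apply Affine.Point.add_self_of_Y_eq
  rw [negY_eq, hy, neg_zero]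

end Fermat.Agent.S52
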