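import Mathlib

set_option autoImplicit false

/-! # S52, block F: F-QUAD (a function satisfying the parallelogram law is a quadratic form) -/

namespace Fermat.Agent.S52

namespace FQuad

variable {G : Type*} [AddCommGroup G] (h : G → ℤ)
  (par : ∀ P Q, h (P + Q) + h (P - Q) = 2 * h P + 2 * h Q)

include par

theorem h_zero : h 0 = 0 := by
  have := par 0 0
  simp only [add_zero, sub_zero] at this
  omega

theorem h_three (P Q R : G) :
    h (P + Q + R) = h (P + Q) + h (P + R) + h (Q + R) - h P - h Q - h R := by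
  have e1 := par (P + Q) R
  have e2 := par P (Q - R)
  have e3 := par (P + R) Q
  have e4 := par Q R
  have a1 : P + (Q - R) = P + Q - R := by abel
  have a2 : P - (Q - R) = P + R - Q := by abel
  have a3 : P + R + Q = P + Q + R := by abel
  rw [a1, a2] at e2
  rw [a3] at e3
  omega

/-- the associated bilinear form, as an additive map in the first variable. -/
def bil (Q : G) : G →+ ℤ :=
  AddMonoidHom.mk' (fun P => h (P + Q) - h P - h Q) (by
    intro P R
    have e := h_three h par P R Q
    have a1 : R + Q = R + Q := rfl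
    show h (P + R + Q) - h (P + R) - h Q = (h (P + Q) - h P - h Q) + (h (R + Q) - h R - h Q)
    omega)

theorem bil_apply (P Q : G) : bil h par Q P = h (P + Q) - h P - h Q := rfl

theorem bil_comm (P Q : G) : bil h par Q P = bil h par P Q := by
  rw [bil_apply, bil_apply, add_comm]; ring

theorem h_add (P Q : G) : h (P + Q) = h P + h Q + bil h par Q P := by
  rw [bil_apply]; ring

theorem bil_self (P : G) : bil h par P P = 2 * h P := by
  have e := par P P
  rw [sub_self, h_zero h par] at e
  rw [bil_apply]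
  omega

theorem bil_zsmul_zsmul (a b : ℤ) (P Q : G) :
    bil h par (b • Q) (a • P) = a * b * bil h par Q P := by
  rw [map_zsmul, smul_eq_mul, bil_comm, map_zsmul, smul_eq_mul, bil_comm]
  ring

theorem h_zsmul (a : ℤ) (P : G) : h (a • P) = a ^ 2 * h P := by
  have e1 := bil_self h par (a • P)
  rw [bil_zsmul_zsmul, bil_self] at e1
  have : 2 * h (a • P) = 2 * (a ^ 2 * h P) := by rw [← e1]; ring
  omega

theorem h_lin (a b c : ℤ) (X Y Z : G) :
    h (a • X + b • Y + c • Z) = a ^ 2 * h X + b ^ 2 * h Y + c ^ 2 * h Z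
      + a * b * bil h par Y X + a * c * bil h par Z X + b * c * bil h par Z Y := by
  rw [h_add h par, h_add h par, map_add, bil_zsmul_zsmul, bil_zsmul_zsmul, bil_zsmul_zsmul,
    h_zsmul h par, h_zsmul h par, h_zsmul h par]
  ring

theorem h_sub (P Q : G) : h (P - Q) = h P + h Q - bil h par Q P := by
  have e := par P Q
  rw [h_add h par] at e
  omega

end FQuad

open FQuad in
theorem quad_zero {G : Type*} [AddCommGroup G] (h : G → ℤ)
    (par : ∀ P Q, h (P + Q) + h (P - Q) = 2 * h P + 2 * h Q) (P₀ P₁ P₂ : G) (l N : ℤ)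
    (h0 : h P₀ = 1) (h1 : h P₁ = l) (h2 : h P₂ = l ^ 2) (h10 : h (P₁ - P₀) = N)
    (h21 : h (P₂ - P₁) = l * N) (h20 : h (P₂ - P₀) = N * (2 * l + 2 - N)) :
    h (P₂ - (l + 1 - N) • P₁ + l • P₀) = 0 := by
  rw [h_sub h par, h0, h1] at h10
  rw [h_sub h par, h1, h2] at h21
  rw [h_sub h par, h0, h2] at h20
  have e : P₂ - (l + 1 - N) • P₁ + l • P₀
      = (1 : ℤ) • P₂ + (-(l + 1 - N)) • P₁ + l • P₀ := by
    rw [one_smul, neg_smul, sub_eq_add_neg]
  rw [e, h_lin h par, h0, h1, h2]
  have b10 : bil h par P₀ P₁ = l + 1 - N := by linarith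
  have b21 : bil h par P₁ P₂ = l ^ 2 + l - l * N := by linarith
  have b20 : bil h par P₀ P₂ = l ^ 2 + 1 - N * (2 * l + 2 - N) := by linarith
  rw [b10, b21, b20]
  ring

end Fermat.Agent.S52
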