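import Fermat.Agent.S52.FDefs
import Fermat.Agent.S52.FL0
import Fermat.Agent.S52.FQuad
import Fermat.Agent.S52.FH
import Fermat.Agent.S52.FCount
import Fermat.Agent.S52.FGrp

set_option autoImplicit false

/-! # S52, block F, package F-GEN : the Frobenius relation for the generic point -/

namespace Fermat.Agent.S52

open Polynomial WeierstrassCurve
open scoped WeierstrassCurve.Affine

namespace FGen

variable {ℓ : ℕ} [Fact ℓ.Prime] {A B : ZMod ℓ}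

/-- the points of the curve over its function field. -/
abbrev PtL (A B : ZMod ℓ) : Type := ((Esh A B)⁄(L0 A B)).Point

/-- the Frobenius on the points over the function field. -/
noncomputable abbrev FrL (A B : ZMod ℓ) : PtL A B →+ PtL A B := FrP ℓ (Esh A B) (L0 A B)

lemma two_ne_zero_of_le (hℓ : 5 ≤ ℓ) : (2 : ZMod ℓ) ≠ 0 := by
  intro h
  have h' : ((2 : ℕ) : ZMod ℓ) = 0 := by exact_mod_cast h
  rw [ZMod.natCast_eq_zero_iff] at h'
  have := Nat.le_of_dvd (by norm_num) h'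
  omega

/-- a `ZMod ℓ`-algebra endomorphism commutes with the Frobenius on points. -/
lemma map_Fr (φ : L0 A B →ₐ[ZMod ℓ] L0 A B) (P : PtL A B) :
    Affine.Point.map (W' := Esh A B) φ (FrL A B P)
      = FrL A B (Affine.Point.map (W' := Esh A B) φ P) := by
  have e : φ.comp (frobK ℓ (L0 A B)) = (frobK ℓ (L0 A B)).comp φ := by
    apply AlgHom.ext
    intro x
    simp [frobK_apply]
  rw [FrL, FrP, Affine.Point.map_map, Affine.Point.map_map, e]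

lemma Fr_mem_Gm {P : PtL A B} (hP : P ∈ Gm A B) : FrL A B P ∈ Gm A B := by
  rw [Gm, AddMonoidHom.mem_ker, AddMonoidHom.add_apply, AddMonoidHom.id_apply] at hP ⊢
  rw [map_Fr, ← map_add, hP, map_zero]

lemma Fr_some {x y : L0 A B} (h : ((Esh A B)⁄(L0 A B)).Nonsingular x y) :
    ∃ h', FrL A B (Affine.Point.some x y h) = Affine.Point.some (x ^ ℓ) (y ^ ℓ) h' := by
  rw [← frobK_apply ℓ x, ← frobK_apply ℓ y]
  exact ⟨_, Affine.Point.map_some (W' := Esh A B) (frobK ℓ (L0 A B)) h⟩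

lemma hP_some_algebraMap (w : RatFunc (ZMod ℓ)) {y : L0 A B}
    (h : ((Esh A B)⁄(L0 A B)).Nonsingular (algebraMap (RatFunc (ZMod ℓ)) (L0 A B) w) y) :
    hP (Affine.Point.some _ y h) = Hdeg w := by
  change Hdeg (xK (algebraMap (RatFunc (ZMod ℓ)) (L0 A B) w)) = _
  rw [xK_algebraMap]

lemma hP_Fr (h2 : (2 : ZMod ℓ) ≠ 0) {P : PtL A B} (hP' : P ∈ Gm A B) :
    hP (FrL A B P) = ℓ * hP P := by
  rcases P with _ | ⟨x, y, hxy⟩
  · change (0 : ℕ) = ℓ * 0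
    rw [mul_zero]
  · obtain ⟨hx, -⟩ := (some_mem_Gm hxy).1 hP'
    obtain ⟨w, rfl⟩ := conjL_fixed h2 hx
    obtain ⟨h', e⟩ := Fr_some hxy
    rw [e, hP_some_algebraMap]
    have h'' := h'
    rw [← map_pow] at h''
    have e2 : Affine.Point.some _ _ h' = Affine.Point.some _ _ h'' := by
      simp only [map_pow]
    rw [e2, hP_some_algebraMap, Hdeg_pow]

instance finite_points : Finite (Esh A B).toAffine.Point := by
  let f : (Esh A B).toAffine.Point → Option (ZMod ℓ × ZMod ℓ) := fun P =>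
    match P with
    | .zero => none
    | .some x y _ => some (x, y)
  refine Finite.of_injective f ?_
  rintro (_ | ⟨x, y, h⟩) (_ | ⟨x', y', h'⟩) e
  · rfl
  · simp [f] at e
  · simp [f] at e
  · simp only [f, Option.some.injEq, Prod.mk.injEq] at e
    obtain ⟨rfl, rfl⟩ := e
    rfl

lemma card_ne_zero : Nat.card (Esh A B).toAffine.Point ≠ 0 :=
  (Nat.card_pos (α := (Esh A B).toAffine.Point)).ne'

lemma negY_eq (x y : L0 A B) : ((Esh A B)⁄(L0 A B)).negY x y = -y := by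
  simp [Affine.negY, Esh, WeierstrassCurve.baseChange, WeierstrassCurve.map]

lemma addX_eq (x₁ x₂ L : L0 A B) : ((Esh A B)⁄(L0 A B)).addX x₁ x₂ L = L ^ 2 - x₁ - x₂ := by
  simp [Affine.addX, Esh, WeierstrassCurve.baseChange, WeierstrassCurve.map]

lemma X_pow_ne_X : (RatFunc.X : RatFunc (ZMod ℓ)) ^ ℓ ≠ RatFunc.X := by
  intro h
  rw [← RatFunc.algebraMap_X, ← map_pow] at h
  have h1 := IsFractionRing.injective (ZMod ℓ)[X] (RatFunc (ZMod ℓ)) h
  have h2 := congrArg Polynomial.natDegree h1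
  rw [natDegree_X_pow, natDegree_X] at h2
  exact (Fact.out : ℓ.Prime).one_lt.ne' h2

lemma tL_pow_ne : tL A B ^ ℓ ≠ tL A B := by
  intro h
  rw [tL, ← map_pow] at h
  exact X_pow_ne_X ((algebraMap (RatFunc (ZMod ℓ)) (L0 A B)).injective h)

lemma sL_pow (hℓ : 5 ≤ ℓ) :
    sL A B ^ ℓ = sL A B * algebraMap (RatFunc (ZMod ℓ)) (L0 A B) (fT A B) ^ ((ℓ - 1) / 2) := by
  have hodd : ℓ % 2 = 1 := by
    rcases (Fact.out : ℓ.Prime).eq_two_or_odd with h | h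
    · omega
    · exact h
  have e : ℓ = 2 * ((ℓ - 1) / 2) + 1 := by omega
  have key : ∀ m : ℕ, sL A B ^ (2 * m + 1)
      = sL A B * algebraMap (RatFunc (ZMod ℓ)) (L0 A B) (fT A B) ^ m := fun m => by
    rw [pow_succ, pow_mul, sL_sq, mul_comm]
  exact (congrArg (fun n => sL A B ^ n) e).trans (key _)

/-- `h (Fr gen - gen) = #E(𝔽_ℓ)`. -/
lemma hP_Fr_sub (hℓ : 5 ≤ ℓ) (hΔ : (Esh A B).Δ ≠ 0) :
    hP (FrL A B (gen hΔ) - gen hΔ) = Nat.card (Esh A B).toAffine.Point := by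
  obtain ⟨h0, e0⟩ : ∃ h, gen hΔ = Affine.Point.some (tL A B) (sL A B) h := ⟨_, rfl⟩
  obtain ⟨h', e⟩ := Fr_some h0
  rw [← Hdeg_manin hℓ A B hΔ, e0, e, sub_eq_add_neg, Affine.Point.neg_some,
    Affine.Point.add_of_X_ne tL_pow_ne]
  have ex : ((Esh A B)⁄(L0 A B)).addX (tL A B ^ ℓ) (tL A B)
      (((Esh A B)⁄(L0 A B)).slope (tL A B ^ ℓ) (tL A B) (sL A B ^ ℓ)
        (((Esh A B)⁄(L0 A B)).negY (tL A B) (sL A B)))
      = algebraMap (RatFunc (ZMod ℓ)) (L0 A B)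
        (fT A B * ((fT A B ^ ((ℓ - 1) / 2) + 1) / (RatFunc.X ^ ℓ - RatFunc.X)) ^ 2
          - RatFunc.X ^ ℓ - RatFunc.X) := by
    rw [Affine.slope_of_X_ne tL_pow_ne, addX_eq, negY_eq, sL_pow hℓ]
    simp only [map_sub, map_mul, map_pow, map_div₀, map_add, map_one]
    rw [← sL_sq, ← tL]
    ring
  change Hdeg (xK _) = _
  rw [ex, xK_algebraMap]

end FGen

open FGen in
/-- **F-GEN**. -/
theorem gen_relation {ℓ : ℕ} [Fact ℓ.Prime] (hℓ : 5 ≤ ℓ) (A B : ZMod ℓ) (hΔ : (Esh A B).Δ ≠ 0) :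
    (2 : ℤ) • (FrP ℓ (Esh A B) (L0 A B) (FrP ℓ (Esh A B) (L0 A B) (gen hΔ))
      - ((ℓ : ℤ) + 1 - (Nat.card (Esh A B).toAffine.Point : ℤ)) • FrP ℓ (Esh A B) (L0 A B) (gen hΔ)
      + (ℓ : ℤ) • gen hΔ) = 0 := by
  have h2 : (2 : ZMod ℓ) ≠ 0 := two_ne_zero_of_le hℓ
  set N : ℕ := Nat.card (Esh A B).toAffine.Point with hN
  set P₀ : PtL A B := gen hΔ with hP₀
  set P₁ : PtL A B := FrL A B P₀ with hP₁
  set P₂ : PtL A B := FrL A B P₁ with hP₂
  have m0 : P₀ ∈ Gm A B := gen_mem_Gm hΔ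
  have m1 : P₁ ∈ Gm A B := Fr_mem_Gm m0
  have m2 : P₂ ∈ Gm A B := Fr_mem_Gm m1
  have a0 : hP P₀ = 1 := hP_gen hΔ
  have a1 : hP P₁ = ℓ := by rw [hP₁, hP_Fr h2 m0, a0, mul_one]
  have a2 : hP P₂ = ℓ ^ 2 := by rw [hP₂, hP_Fr h2 m1, a1, sq]
  have a10 : hP (P₁ - P₀) = N := hP_Fr_sub hℓ hΔ
  have m10 : P₁ - P₀ ∈ Gm A B := sub_mem m1 m0
  have a21 : hP (P₂ - P₁) = ℓ * N := by
    rw [hP₂, hP₁, ← map_sub, hP_Fr h2 m10, a10]
  have apar := hP_parallelogram h2 hΔ m1 m0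
  rw [a10, a1, a0] at apar
  have hN0 : hP (P₁ - P₀) ≠ 0 := by rw [a10]; exact card_ne_zero
  obtain ⟨φ, hφ, hφ'⟩ := exists_subst h2 hΔ m10 hN0
  have a20 : hP (P₂ - P₀) = hP (P₁ + P₀) * N := by
    have e : Affine.Point.map (W' := Esh A B) φ (P₁ + P₀) = P₂ - P₀ := by
      rw [map_add, hP₁, map_Fr, hφ, map_sub, ← hP₁, ← hP₂]
      abel
    rw [← e, (hφ' _ (add_mem m1 m0)).2, a10]
  have hq := quad_zero (G := Gm A B) (fun P => (hP P.1 : ℤ))
    (fun P Q => by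
      have := hP_parallelogram h2 hΔ P.2 Q.2
      simp only [AddSubgroup.coe_add, AddSubgroup.coe_sub]
      exact_mod_cast this)
    ⟨P₀, m0⟩ ⟨P₁, m1⟩ ⟨P₂, m2⟩ (ℓ : ℤ) (N : ℤ)
    (by simp [a0]) (by simp [a1]) (by simp [a2])
    (by simp only [AddSubgroup.coe_sub]; exact_mod_cast a10)
    (by simp only [AddSubgroup.coe_sub]; exact_mod_cast a21)
    (by
      simp only [AddSubgroup.coe_sub]
      rw [a20]
      have : (hP (P₁ + P₀) : ℤ) = 2 * ℓ + 2 - N := by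
        have : (hP (P₁ + P₀) : ℤ) + N = 2 * ℓ + 2 * 1 := by exact_mod_cast apar
        linarith
      push_cast
      rw [this]
      ring)
  simp only [AddSubgroup.coe_add, AddSubgroup.coe_sub, AddSubgroup.coe_zsmul] at hq
  have hq' : hP (P₂ - ((ℓ : ℤ) + 1 - (N : ℤ)) • P₁ + (ℓ : ℤ) • P₀) = 0 := by exact_mod_cast hq
  exact two_smul_eq_zero_of_hP h2 hΔ
    (add_mem (sub_mem m2 (zsmul_mem m1 _)) (zsmul_mem m0 _)) hq'

end Fermat.Agent.S52
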