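import Fermat.Agent.S52.FDefs
import Fermat.Agent.S52.FGen

set_option autoImplicit false

/-! # S52, block F, package F-SPEC : specialisation of the generic Frobenius relation -/

namespace Fermat.Agent.S52

open Polynomial WeierstrassCurve
open scoped WeierstrassCurve.Affine

namespace FSpec

variable (ℓ : ℕ) [Fact ℓ.Prime] (W : WeierstrassCurve (ZMod ℓ)) (a : ℤ)

/-- `2 (Fr² - a Fr + ℓ)` as an endomorphism of the group of points. -/
noncomputable def Th (κ : Type*) [Field κ] [DecidableEq κ] [Algebra (ZMod ℓ) κ] :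
    (W⁄κ).Point →+ (W⁄κ).Point :=
  (2 : ℤ) • ((FrP ℓ W κ).comp (FrP ℓ W κ) - a • FrP ℓ W κ + (ℓ : ℤ) • AddMonoidHom.id _)

lemma Th_apply {κ : Type*} [Field κ] [DecidableEq κ] [Algebra (ZMod ℓ) κ] (P : (W⁄κ).Point) :
    Th ℓ W a κ P = (2 : ℤ) • (FrP ℓ W κ (FrP ℓ W κ P) - a • FrP ℓ W κ P + (ℓ : ℤ) • P) := rfl

variable {κ₁ κ₂ : Type*} [Field κ₁] [DecidableEq κ₁] [Algebra (ZMod ℓ) κ₁]
  [Field κ₂] [DecidableEq κ₂] [Algebra (ZMod ℓ) κ₂]

lemma map_FrP (ψ : κ₁ →ₐ[ZMod ℓ] κ₂) (P : (W⁄κ₁).Point) :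
    Affine.Point.map (W' := W) ψ (FrP ℓ W κ₁ P) = FrP ℓ W κ₂ (Affine.Point.map (W' := W) ψ P) := by
  unfold FrP
  rw [Affine.Point.map_map, Affine.Point.map_map]
  have h : ψ.comp (frobK ℓ κ₁) = (frobK ℓ κ₂).comp ψ :=
    AlgHom.ext fun x => by
      rw [AlgHom.comp_apply, AlgHom.comp_apply, frobK_apply, frobK_apply, map_pow]
  rw [h]

lemma map_Th (ψ : κ₁ →ₐ[ZMod ℓ] κ₂) (P : (W⁄κ₁).Point) :
    Affine.Point.map (W' := W) ψ (Th ℓ W a κ₁ P) = Th ℓ W a κ₂ (Affine.Point.map (W' := W) ψ P) := by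
  rw [Th_apply, Th_apply, map_zsmul, map_add, map_sub, map_zsmul, map_zsmul, map_FrP, map_FrP]

end FSpec

open FSpec

section

variable {ℓ : ℕ} [Fact ℓ.Prime] {A B : ZMod ℓ}

/-- the relation holds at the points with a transcendental `x`-coordinate -/
lemma FSpec.Th_eq_zero_of_transcendental (hΔ : (Esh A B).Δ ≠ 0) (a : ℤ)
    (hgen : Th ℓ (Esh A B) a (L0 A B) (gen hΔ) = 0)
    {κ' : Type*} [Field κ'] [DecidableEq κ'] [Algebra (ZMod ℓ) κ'] {x' y' : κ'}
    (hns : ((Esh A B)⁄κ').Nonsingular x' y') (hx' : Transcendental (ZMod ℓ) x') :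
    Th ℓ (Esh A B) a κ' (Affine.Point.some x' y' hns) = 0 := by
  have heq := (Esh_equation x' y').1 hns.1
  have h1 : Affine.Point.map (W' := Esh A B) (specHom A B x' y' hx' heq) (gen hΔ)
      = Affine.Point.some x' y' hns := by
    rw [gen, mkPt, Affine.Point.map_some]
    simp only [Affine.Point.some.injEq]
    exact ⟨specHom_tL A B _ _ _ _, specHom_sL A B _ _ _ _⟩
  rw [← h1, ← map_Th, hgen, map_zero]

/-- points with algebraic `x`-coordinate come from the relative algebraic closure -/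
lemma FSpec.mem_range_of_isAlgebraic {κ κ' : Type*} [Field κ] [Algebra (ZMod ℓ) κ]
    [Field κ'] [DecidableEq κ'] [Algebra (ZMod ℓ) κ'] [Algebra κ κ'] [IsScalarTower (ZMod ℓ) κ κ']
    [DecidableEq (algebraicClosure κ κ')] {x y : κ'}
    (hns : ((Esh A B)⁄κ').Nonsingular x y) (hx : IsAlgebraic κ x) :
    Affine.Point.some x y hns ∈ (Affine.Point.map (W' := Esh A B)
      ((algebraicClosure κ κ').val.restrictScalars (ZMod ℓ))).range := by
  have heq := (Esh_equation x y).1 hns.1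
  have hA : ∀ c : ZMod ℓ, IsAlgebraic κ (algebraMap (ZMod ℓ) κ' c) := by
    intro c
    rw [IsScalarTower.algebraMap_apply (ZMod ℓ) κ κ']
    exact isAlgebraic_algebraMap _
  have hy : IsAlgebraic κ y := by
    have h2 : IsAlgebraic κ (y ^ 2) := by
      rw [heq]
      exact ((hx.pow 3).add ((hA A).mul hx)).add (hA B)
    exact h2.of_pow two_pos
  let xM : algebraicClosure κ κ' := ⟨x, mem_algebraicClosure_iff.2 hx⟩
  let yM : algebraicClosure κ κ' := ⟨y, mem_algebraicClosure_iff.2 hy⟩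
  have hnsM : ((Esh A B)⁄(algebraicClosure κ κ')).Nonsingular xM yM :=
    (WeierstrassCurve.Affine.baseChange_nonsingular (Esh A B)
      (f := (algebraicClosure κ κ').val.restrictScalars (ZMod ℓ))
      ((algebraicClosure κ κ').val.restrictScalars (ZMod ℓ)).injective xM yM).mp hns
  exact ⟨Affine.Point.some xM yM hnsM, rfl⟩

end

theorem frob_relation {ℓ : ℕ} [Fact ℓ.Prime] (hℓ : 5 ≤ ℓ) (A B : ZMod ℓ) (hΔ : (Esh A B).Δ ≠ 0)
    {κ : Type*} [Field κ] [DecidableEq κ] [Algebra (ZMod ℓ) κ] (P : ((Esh A B)⁄κ).Point) :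
    (2 : ℤ) • (FrP ℓ (Esh A B) κ (FrP ℓ (Esh A B) κ P)
      - ((ℓ : ℤ) + 1 - (Nat.card (Esh A B).toAffine.Point : ℤ)) • FrP ℓ (Esh A B) κ P
      + (ℓ : ℤ) • P) = 0 := by
  classical
  set a : ℤ := (ℓ : ℤ) + 1 - (Nat.card (Esh A B).toAffine.Point : ℤ) with ha
  have hgen : Th ℓ (Esh A B) a (L0 A B) (gen hΔ) = 0 := gen_relation hℓ A B hΔ
  change Th ℓ (Esh A B) a κ P = 0
  -- the big field
  let κ' := AlgebraicClosure (RatFunc κ)
  let T : κ' := algebraMap (RatFunc κ) κ' RatFunc.X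
  have hT : Transcendental κ T := by
    have h1 : Transcendental κ (RatFunc.X : RatFunc κ) := by
      rw [← RatFunc.algebraMap_X]
      exact (transcendental_algebraMap_iff (IsFractionRing.injective κ[X] (RatFunc κ))).2
        (Polynomial.transcendental_X κ)
    exact (transcendental_algebraMap_iff (algebraMap (RatFunc κ) κ').injective).2 h1
  obtain ⟨yT, hyT⟩ := IsAlgClosed.exists_pow_nat_eq
    (T ^ 3 + algebraMap (ZMod ℓ) κ' A * T + algebraMap (ZMod ℓ) κ' B) two_pos
  let S : ((Esh A B)⁄κ').Point := mkPt hΔ T yT hyT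
  let j : κ →ₐ[ZMod ℓ] κ' := IsScalarTower.toAlgHom (ZMod ℓ) κ κ'
  let P' : ((Esh A B)⁄κ').Point := Affine.Point.map (W' := Esh A B) j P
  let ι : algebraicClosure κ κ' →ₐ[ZMod ℓ] κ' := (algebraicClosure κ κ').val.restrictScalars (ZMod ℓ)
  have htr : ∀ x : κ', Transcendental κ x → Transcendental (ZMod ℓ) x := by
    intro x hx halg
    exact hx (halg.extendScalars (algebraMap (ZMod ℓ) κ).injective)
  -- `P'` comes from the algebraic closure of `κ`
  have hP' : P' ∈ (Affine.Point.map (W' := Esh A B) ι).range := by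
    rcases P with _ | ⟨x, y, h⟩
    · exact zero_mem _
    · exact mem_range_of_isAlgebraic _ (isAlgebraic_algebraMap x)
  -- `S` does not
  have hS : S ∉ (Affine.Point.map (W' := Esh A B) ι).range := by
    rintro ⟨R, hR⟩
    rcases R with _ | ⟨x, y, h⟩
    · have h0 : (Affine.Point.map (W' := Esh A B) ι) Affine.Point.zero = 0 :=
        Affine.Point.map_zero (W' := Esh A B) ι
      rw [h0] at hR
      exact absurd hR.symm (Affine.Point.some_ne_zero _)
    · rw [Affine.Point.map_some] at hR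
      have h1 : ι x = T := (Affine.Point.some.inj hR).1
      exact hT (h1 ▸ mem_algebraicClosure_iff.1 x.2)
  have hSQ : Th ℓ (Esh A B) a κ' S = 0 :=
    Th_eq_zero_of_transcendental hΔ a hgen _ (htr T hT)
  have hQ : Th ℓ (Esh A B) a κ' (P' + S) = 0 := by
    have hQr : P' + S ∉ (Affine.Point.map (W' := Esh A B) ι).range := by
      intro h
      apply hS
      have := sub_mem h hP'
      rwa [add_sub_cancel_left] at this
    rcases hPS : P' + S with _ | ⟨x, y, h⟩
    · exact map_zero _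
    · refine Th_eq_zero_of_transcendental hΔ a hgen h (htr x ?_)
      intro halg
      apply hQr
      rw [hPS]
      exact mem_range_of_isAlgebraic h halg
  have h3 : Th ℓ (Esh A B) a κ' P' = 0 := by
    have : P' = (P' + S) - S := by rw [add_sub_cancel_right]
    rw [this, map_sub, hQ, hSQ, sub_zero]
  apply Affine.Point.map_injective (W' := Esh A B) j
  rw [map_Th, map_zero]
  exact h3

end Fermat.Agent.S52
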