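import Fermat.Agent.S52.PDefs
import Fermat.Agent.S52.FSpec

set_option autoImplicit false

/-! # S52, package FADAPT : the Frobenius relation in the `mapE` language -/

namespace Fermat.Agent.S52

open Polynomial WeierstrassCurve
open scoped WeierstrassCurve.Affine

namespace FAdapt

variable {ℓ : ℕ} [Fact ℓ.Prime] {κ : Type*} [Field κ] [DecidableEq κ] [Algebra (ZMod ℓ) κ]

omit [DecidableEq κ] in
lemma baseChange_eq (a b : ℤ) :
    (Esh (a : ZMod ℓ) (b : ZMod ℓ))⁄κ = Esh (a : κ) (b : κ) :=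
  Esh_map (algebraMap (ZMod ℓ) κ) (map_intCast _ a) (map_intCast _ b)

/-- the identification of the two groups of points -/
noncomputable def eqv (a b : ℤ) :
    ((Esh (a : ZMod ℓ) (b : ZMod ℓ))⁄κ).Point ≃+ (Esh (a : κ) (b : κ)).toAffine.Point :=
  congrW (baseChange_eq a b)

lemma eqv_FrP [CharP κ ℓ] (a b : ℤ) (Q : ((Esh (a : ZMod ℓ) (b : ZMod ℓ))⁄κ).Point) :
    eqv a b (FrP ℓ (Esh (a : ZMod ℓ) (b : ZMod ℓ)) κ Q)
      = mapE (frobenius κ ℓ) (map_intCast _ a) (map_intCast _ b) (eqv a b Q) := by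
  rcases Q with _ | ⟨x, y, h⟩
  · change eqv a b (FrP ℓ (Esh (a : ZMod ℓ) (b : ZMod ℓ)) κ 0)
      = mapE (frobenius κ ℓ) (map_intCast _ a) (map_intCast _ b) (eqv a b 0)
    rw [map_zero, map_zero, map_zero]
  · unfold FrP eqv
    rw [Affine.Point.map_some, congrW_some, congrW_some]
    obtain ⟨h', e⟩ := mapE_some (frobenius κ ℓ) (map_intCast _ a) (map_intCast _ b)
      ((baseChange_eq (ℓ := ℓ) (κ := κ) a b) ▸ h)
    rw [e]
    simp only [frobK_apply, frobenius_def]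

end FAdapt

open FAdapt in
theorem frob_relation_E {ℓ : ℕ} [Fact ℓ.Prime] (hℓ : 5 ≤ ℓ) (a b : ℤ)
    (hΔ : (Esh (a : ZMod ℓ) (b : ZMod ℓ)).Δ ≠ 0) {κ : Type*} [Field κ] [CharP κ ℓ] [DecidableEq κ]
    (P : (Esh (a : κ) (b : κ)).toAffine.Point) :
    (2 : ℤ) • (mapE (frobenius κ ℓ) (map_intCast _ a) (map_intCast _ b)
        (mapE (frobenius κ ℓ) (map_intCast _ a) (map_intCast _ b) P)
      - ((ℓ : ℤ) + 1 - (Nat.card (Esh (a : ZMod ℓ) (b : ZMod ℓ)).toAffine.Point : ℤ)) •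
        mapE (frobenius κ ℓ) (map_intCast _ a) (map_intCast _ b) P
      + (ℓ : ℤ) • P) = 0 := by
  let _ : Algebra (ZMod ℓ) κ := ZMod.algebra κ ℓ
  have h := frob_relation hℓ (a : ZMod ℓ) (b : ZMod ℓ) hΔ (κ := κ) ((eqv a b).symm P)
  have h2 := congrArg (eqv (ℓ := ℓ) (κ := κ) a b) h
  rw [map_zero, map_zsmul, map_add, map_sub, map_zsmul, map_zsmul, eqv_FrP, eqv_FrP,
    AddEquiv.apply_symm_apply] at h2
  exact h2

end Fermat.Agent.S52
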