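import Mathlib

set_option autoImplicit false

/-! # S52, block F: definitions (Frobenius relation on an elliptic curve over `ZMod ℓ`) -/

namespace Fermat.Agent.S52

open Polynomial WeierstrassCurve
open scoped WeierstrassCurve.Affine

/-- The short Weierstrass curve `y² = x³ + A x + B`. -/
def Esh {R : Type*} [CommRing R] (A B : R) : WeierstrassCurve R := ⟨0, 0, 0, A, B⟩

/-- The degree (height) of a rational function. -/
noncomputable def Hdeg {k : Type*} [Field k] (z : RatFunc k) : ℕ :=
  max z.num.natDegree z.denom.natDegree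

section

variable {k : Type*} [Field k] (A B : k)

/-- `f(t) = t³ + A t + B` as a polynomial. -/
noncomputable def fPol : k[X] := X ^ 3 + C A * X + C B

/-- `f(t) = t³ + A t + B` in `k(t)`. -/
noncomputable def fT : RatFunc k := algebraMap k[X] (RatFunc k) (fPol A B)

lemma natDegree_fPol : (fPol A B).natDegree = 3 := by
  unfold fPol
  compute_degree!

lemma fPol_ne_zero : fPol A B ≠ 0 := by
  intro h
  have := natDegree_fPol A B
  rw [h] at this
  simp at this

lemma fT_ne_sq (b : RatFunc k) : b ^ 2 ≠ fT A B := by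
  intro h
  have hb : b ≠ 0 := by
    rintro rfl
    have h0 : fT A B = 0 := by rw [← h]; simp
    unfold fT at h0
    exact fPol_ne_zero A B ((map_eq_zero_iff _ (IsFractionRing.injective k[X] (RatFunc k))).mp h0)
  have h1 : (b ^ 2).intDegree = 2 * b.intDegree := by
    rw [pow_two, RatFunc.intDegree_mul hb hb]; ring
  have h2 : (fT A B).intDegree = 3 := by
    unfold fT
    rw [RatFunc.intDegree_polynomial, natDegree_fPol]; rfl
  rw [h, h2] at h1
  omega

/-- `Y² - f(t)` over `k(t)`. -/
noncomputable def quadPoly : (RatFunc k)[X] := X ^ 2 - C (fT A B)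

lemma irreducible_quadPoly : Irreducible (quadPoly A B) :=
  X_pow_sub_C_irreducible_of_prime Nat.prime_two (fun b => fT_ne_sq A B b)

instance : Fact (Irreducible (quadPoly A B)) := ⟨irreducible_quadPoly A B⟩

/-- The function field `k(t, √f(t))` of `y² = x³ + A x + B`. -/
abbrev L0 : Type _ := AdjoinRoot (quadPoly A B)

noncomputable instance : DecidableEq (L0 A B) := Classical.decEq _

/-- `t` in `L0`. -/
noncomputable def tL : L0 A B := algebraMap (RatFunc k) (L0 A B) RatFunc.X

/-- `s = √f(t)` in `L0`. -/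
noncomputable def sL : L0 A B := AdjoinRoot.root (quadPoly A B)

lemma eval₂_quadPoly {T : Type*} [CommRing T] (i : RatFunc k →+* T) (x : T) :
    (quadPoly A B).eval₂ i x = x ^ 2 - i (fT A B) := by
  simp [quadPoly]

lemma sL_sq : sL A B ^ 2 = algebraMap (RatFunc k) (L0 A B) (fT A B) := by
  have h := AdjoinRoot.eval₂_root (quadPoly A B)
  rw [eval₂_quadPoly] at h
  exact sub_eq_zero.mp h

/-- The conjugation `s ↦ -s` of `L0` over `k(t)`. -/
noncomputable def conjL : L0 A B →ₐ[RatFunc k] L0 A B :=
  AdjoinRoot.liftAlgHom (quadPoly A B) (Algebra.ofId (RatFunc k) (L0 A B)) (-(sL A B)) (by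
    rw [eval₂_quadPoly, neg_pow_two, sL_sq]
    exact sub_self _)

lemma conjL_sL : conjL A B (sL A B) = - sL A B := by
  exact AdjoinRoot.liftAlgHom_root _ _ _ _

/-- The `k`-algebra homomorphism `k(t) → L'`, `t ↦ x'`, for `x'` transcendental over `k`. -/
noncomputable def ratHom {L' : Type*} [Field L'] [Algebra k L'] (x' : L')
    (hx' : Transcendental k x') : RatFunc k →ₐ[k] L' :=
  RatFunc.liftAlgHom (aeval x') (by
    intro p hp
    rw [Submonoid.mem_comap, mem_nonZeroDivisors_iff_ne_zero]
    intro h0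
    exact (mem_nonZeroDivisors_iff_ne_zero.mp hp) ((transcendental_iff.mp hx') p h0))

lemma ratHom_algebraMap {L' : Type*} [Field L'] [Algebra k L'] (x' : L')
    (hx' : Transcendental k x') (p : k[X]) :
    ratHom x' hx' (algebraMap k[X] (RatFunc k) p) = aeval x' p := by
  have h := RatFunc.liftAlgHom_apply_div (φ := (aeval x' : k[X] →ₐ[k] L')) (hφ := by
    intro p hp
    rw [Submonoid.mem_comap, mem_nonZeroDivisors_iff_ne_zero]
    intro h0
    exact (mem_nonZeroDivisors_iff_ne_zero.mp hp) ((transcendental_iff.mp hx') p h0)) p 1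
  simpa [ratHom] using h

lemma ratHom_X {L' : Type*} [Field L'] [Algebra k L'] (x' : L')
    (hx' : Transcendental k x') : ratHom x' hx' RatFunc.X = x' := by
  rw [← RatFunc.algebraMap_X, ratHom_algebraMap, aeval_X]

lemma ratHom_fT {L' : Type*} [Field L'] [Algebra k L'] (x' : L')
    (hx' : Transcendental k x') :
    ratHom x' hx' (fT A B) = x' ^ 3 + algebraMap k L' A * x' + algebraMap k L' B := by
  unfold fT
  rw [ratHom_algebraMap]
  simp [fPol]

/-- The `k`-algebra homomorphism `L0 → L'`, `(t, s) ↦ (x', y')`, for a point `(x', y')` of the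
curve with `x'` transcendental over `k`. -/
noncomputable def specHom {L' : Type*} [Field L'] [Algebra k L'] (x' y' : L')
    (hx' : Transcendental k x')
    (h : y' ^ 2 = x' ^ 3 + algebraMap k L' A * x' + algebraMap k L' B) : L0 A B →ₐ[k] L' :=
  AdjoinRoot.liftAlgHom (quadPoly A B) (ratHom x' hx') y' (by
    rw [eval₂_quadPoly]
    have := ratHom_fT A B x' hx'
    simp only [RingHom.coe_coe]
    rw [this, h, sub_self])

lemma specHom_algebraMap {L' : Type*} [Field L'] [Algebra k L'] (x' y' : L')
    (hx' : Transcendental k x')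
    (h : y' ^ 2 = x' ^ 3 + algebraMap k L' A * x' + algebraMap k L' B) (z : RatFunc k) :
    specHom A B x' y' hx' h (algebraMap (RatFunc k) (L0 A B) z) = ratHom x' hx' z := by
  unfold specHom
  exact AdjoinRoot.liftAlgHom_of _ _ _ _ _

lemma specHom_tL {L' : Type*} [Field L'] [Algebra k L'] (x' y' : L')
    (hx' : Transcendental k x')
    (h : y' ^ 2 = x' ^ 3 + algebraMap k L' A * x' + algebraMap k L' B) :
    specHom A B x' y' hx' h (tL A B) = x' := by
  unfold tL
  rw [specHom_algebraMap, ratHom_X]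

lemma specHom_sL {L' : Type*} [Field L'] [Algebra k L'] (x' y' : L')
    (hx' : Transcendental k x')
    (h : y' ^ 2 = x' ^ 3 + algebraMap k L' A * x' + algebraMap k L' B) :
    specHom A B x' y' hx' h (sL A B) = y' := by
  exact AdjoinRoot.liftAlgHom_root _ _ _ _

end

section points

variable {k : Type*} [Field k] {A B : k}

lemma Esh_equation {L : Type*} [Field L] [Algebra k L] (x y : L) :
    ((Esh A B)⁄L).Equation x y ↔
      y ^ 2 = x ^ 3 + algebraMap k L A * x + algebraMap k L B := by
  rw [WeierstrassCurve.Affine.equation_iff]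
  simp [Esh, WeierstrassCurve.baseChange, WeierstrassCurve.map]

/-- The point `(x, y)` of `y² = x³ + A x + B` over an extension `L` of `k`. -/
def mkPt (hΔ : (Esh A B).Δ ≠ 0) {L : Type*} [Field L] [Algebra k L] (x y : L)
    (h : y ^ 2 = x ^ 3 + algebraMap k L A * x + algebraMap k L B) : ((Esh A B)⁄L).Point :=
  .some x y (by
    have hE : ((Esh A B)⁄L).Equation x y := (Esh_equation x y).mpr h
    refine WeierstrassCurve.Affine.equation_iff_nonsingular_of_Δ_ne_zero ?_ |>.mp hE
    show ((Esh A B).map (algebraMap k L)).Δ ≠ 0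
    rw [WeierstrassCurve.map_Δ]
    exact (map_ne_zero_iff _ (algebraMap k L).injective).mpr hΔ)

/-- The generic point `(t, s)`. -/
noncomputable def gen (hΔ : (Esh A B).Δ ≠ 0) : ((Esh A B)⁄(L0 A B)).Point :=
  mkPt hΔ (tL A B) (sL A B) (by
    rw [sL_sq, fT, fPol, tL]
    simp only [map_add, map_mul, map_pow, RatFunc.algebraMap_X, RatFunc.algebraMap_C]
    rw [← RatFunc.algebraMap_eq_C, ← IsScalarTower.algebraMap_apply,
      ← IsScalarTower.algebraMap_apply])

/-- The anti-invariant points `conj P = -P`: `x ∈ k(t)`, `y ∈ s k(t)`. -/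
noncomputable def Gm (A B : k) : AddSubgroup ((Esh A B)⁄(L0 A B)).Point :=
  (WeierstrassCurve.Affine.Point.map (W' := Esh A B) ((conjL A B).restrictScalars k)
    + AddMonoidHom.id _).ker

open Classical in
/-- The element of `k(t)` mapping to `x` (junk value `0`). -/
noncomputable def xK (x : L0 A B) : RatFunc k :=
  if h : ∃ w, algebraMap (RatFunc k) (L0 A B) w = x then h.choose else 0

/-- The height `h(P) = deg x(P)`, `h(0) = 0`. -/
noncomputable def hP : ((Esh A B)⁄(L0 A B)).Point → ℕ
  | .zero => 0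
  | .some x _ _ => Hdeg (xK x)

end points

section frob

variable (ℓ : ℕ) [Fact ℓ.Prime]

/-- The Frobenius `x ↦ x ^ ℓ` of a `ZMod ℓ`-algebra. -/
noncomputable def frobK (κ : Type*) [CommRing κ] [Algebra (ZMod ℓ) κ] : κ →ₐ[ZMod ℓ] κ :=
  FiniteField.frobeniusAlgHom (ZMod ℓ) κ

lemma frobK_apply {κ : Type*} [CommRing κ] [Algebra (ZMod ℓ) κ] (x : κ) :
    frobK ℓ κ x = x ^ ℓ := by
  simp [frobK, ZMod.card]

/-- The Frobenius on the points of a curve over `ZMod ℓ`. -/
noncomputable def FrP (W : WeierstrassCurve (ZMod ℓ)) (κ : Type*) [Field κ] [DecidableEq κ]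
    [Algebra (ZMod ℓ) κ] : (W⁄κ).Point →+ (W⁄κ).Point :=
  WeierstrassCurve.Affine.Point.map (W' := W) (frobK ℓ κ)

end frob

end Fermat.Agent.S52
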