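import Mathlib

set_option autoImplicit false

/-! # S52: a small reflection tool: dense polynomials over `ℤ` as nested lists, evaluated by the
kernel (used for the two big polynomial identities `Hab_family`, `Tab_family`) -/

namespace Fermat.Agent.S52.Refl

/-- computable coefficient operations -/
class Coef (α : Type) where
  /-- zero -/
  zero : α
  /-- addition -/
  add : α → α → α
  /-- negation -/
  neg : α → α
  /-- multiplication -/
  mul : α → α → α
  /-- test for zero -/
  isZero : α → Bool

instance coefInt : Coef ℤ := ⟨0, Int.add, Int.neg, Int.mul, fun a => decide (a = 0)⟩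

section lists
variable {α : Type} [Coef α]

/-- addition of polynomials -/
def addL : List α → List α → List α
  | [], m => m
  | a :: l, [] => a :: l
  | a :: l, b :: m => Coef.add a b :: addL l m

/-- negation of polynomials -/
def negL : List α → List α
  | [] => []
  | a :: l => Coef.neg a :: negL l

/-- multiplication by a coefficient -/
def smulL (c : α) : List α → List α
  | [] => []
  | a :: l => Coef.mul c a :: smulL c l

/-- multiplication of polynomials -/
def mulL : List α → List α → List α
  | [], _ => []
  | a :: l, m => addL (smulL a m) (Coef.zero :: mulL l m)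

/-- all coefficients vanish -/
def isZeroL : List α → Bool
  | [] => true
  | a :: l => Coef.isZero a && isZeroL l

instance coefList : Coef (List α) := ⟨[], addL, negL, mulL, isZeroL⟩

end lists

/-- an evaluation of the representations in a commutative ring -/
structure Sem (α : Type) [Coef α] (R : Type*) [CommRing R] where
  /-- the value -/
  ev : α → R
  ev_zero : ev Coef.zero = 0
  ev_add : ∀ a b, ev (Coef.add a b) = ev a + ev b
  ev_neg : ∀ a, ev (Coef.neg a) = - ev a
  ev_mul : ∀ a b, ev (Coef.mul a b) = ev a * ev b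
  ev_isZero : ∀ a, Coef.isZero a = true → ev a = 0

section sem
variable {α : Type} [Coef α] {R : Type*} [CommRing R]

/-- integers -/
def Sem.int (R : Type*) [CommRing R] : Sem ℤ R where
  ev := Int.cast
  ev_zero := Int.cast_zero
  ev_add := Int.cast_add
  ev_neg := Int.cast_neg
  ev_mul := Int.cast_mul
  ev_isZero a h := by
    have h' : a = 0 := of_decide_eq_true h
    rw [h', Int.cast_zero]

/-- evaluation of a polynomial at `x` -/
def evL (σ : Sem α R) (x : R) : List α → R
  | [] => 0
  | a :: l => σ.ev a + x * evL σ x l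

theorem evL_addL (σ : Sem α R) (x : R) (l m : List α) :
    evL σ x (addL l m) = evL σ x l + evL σ x m := by
  induction l generalizing m with
  | nil => simp [addL, evL]
  | cons a l ih =>
    cases m with
    | nil => simp [addL, evL]
    | cons b m =>
      simp only [addL, evL, σ.ev_add, ih]
      ring

theorem evL_negL (σ : Sem α R) (x : R) (l : List α) : evL σ x (negL l) = - evL σ x l := by
  induction l with
  | nil => simp [negL, evL]
  | cons a l ih =>
    simp only [negL, evL, σ.ev_neg, ih]
    ring

theorem evL_smulL (σ : Sem α R) (x : R) (c : α) (l : List α) :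
    evL σ x (smulL c l) = σ.ev c * evL σ x l := by
  induction l with
  | nil => simp [smulL, evL]
  | cons a l ih =>
    simp only [smulL, evL, σ.ev_mul, ih]
    ring

theorem evL_mulL (σ : Sem α R) (x : R) (l m : List α) :
    evL σ x (mulL l m) = evL σ x l * evL σ x m := by
  induction l with
  | nil => simp [mulL, evL]
  | cons a l ih =>
    simp only [mulL, evL, evL_addL, evL_smulL, σ.ev_zero, ih]
    ring

theorem evL_isZeroL (σ : Sem α R) (x : R) (l : List α) (h : isZeroL l = true) :
    evL σ x l = 0 := by
  induction l with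
  | nil => rfl
  | cons a l ih =>
    simp only [isZeroL, Bool.and_eq_true] at h
    simp only [evL, σ.ev_isZero a h.1, ih h.2]
    ring

/-- polynomials -/
def Sem.list (σ : Sem α R) (x : R) : Sem (List α) R where
  ev := evL σ x
  ev_zero := rfl
  ev_add := evL_addL σ x
  ev_neg := evL_negL σ x
  ev_mul := evL_mulL σ x
  ev_isZero := evL_isZeroL σ x

/-- powers -/
def pw (one : α) (p : α) : ℕ → α
  | 0 => one
  | n + 1 => Coef.mul (pw one p n) p

theorem ev_pw (σ : Sem α R) (one : α) (h1 : σ.ev one = 1) (p : α) (n : ℕ) :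
    σ.ev (pw one p n) = σ.ev p ^ n := by
  induction n with
  | zero => simp [pw, h1]
  | succ n ih => simp only [pw, σ.ev_mul, ih, pow_succ]

theorem eq_of_isZero (σ : Sem α R) (p q : α)
    (h : Coef.isZero (Coef.add p (Coef.neg q)) = true) : σ.ev p = σ.ev q := by
  have := σ.ev_isZero _ h
  rw [σ.ev_add, σ.ev_neg] at this
  exact sub_eq_zero.mp (by rw [sub_eq_add_neg]; exact this)

end sem

/-- polynomials in one variable -/
abbrev P1 := List ℤ

/-- polynomials in two variables -/
abbrev P2 := List (List ℤ)

section two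
variable {R : Type*} [CommRing R]

/-- evaluation of `P1` -/
def s1 (x : R) : Sem P1 R := (Sem.int R).list x

/-- evaluation of `P2` -/
def s2 (x s : R) : Sem P2 R := (s1 x).list s

/-- `Σ c e4^i e6^j` -/
def mono (H T : P1) : List (ℤ × ℕ × ℕ) → P1
  | [] => []
  | (c, i, j) :: l => addL (smulL c (mulL (pw [1] H i) (pw [1] T j))) (mono H T l)

/-- `Σ c e4^i e6^j` -/
def monoR (e4 e6 : R) : List (ℤ × ℕ × ℕ) → R
  | [] => 0
  | (c, i, j) :: l => (c : R) * (e4 ^ i * e6 ^ j) + monoR e4 e6 l

theorem s1_one (x : R) : (s1 x).ev [1] = 1 := by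
  simp [s1, Sem.list, evL, Sem.int]

theorem ev_mono (x : R) (H T : P1) (l : List (ℤ × ℕ × ℕ)) :
    (s1 x).ev (mono H T l) = monoR ((s1 x).ev H) ((s1 x).ev T) l := by
  induction l with
  | nil => rfl
  | cons a l ih =>
    obtain ⟨c, i, j⟩ := a
    have e1 : (s1 x).ev (mono H T ((c, i, j) :: l))
        = (s1 x).ev (Coef.add (smulL c (Coef.mul (pw [1] H i) (pw [1] T j))) (mono H T l)) := rfl
    have e2 : ∀ p : P1, (s1 x).ev (smulL c p) = (c : R) * (s1 x).ev p := fun p =>
      evL_smulL (Sem.int R) x c p
    rw [e1, (s1 x).ev_add, e2, (s1 x).ev_mul, ev_pw _ _ (s1_one x), ev_pw _ _ (s1_one x), ih]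
    rfl

/-- `Σ t^k Σ c e4^i e6^j` -/
def polyR (e4 e6 t : R) : List (List (ℤ × ℕ × ℕ)) → R
  | [] => 0
  | l :: ls => monoR e4 e6 l + t * polyR e4 e6 t ls

/-- `Σ t^k Σ c e4^i e6^j` -/
def poly (H T : P1) : List (List (ℤ × ℕ × ℕ)) → P2
  | [] => []
  | l :: ls => mono H T l :: poly H T ls

theorem ev_poly (x s : R) (H T : P1) (ls : List (List (ℤ × ℕ × ℕ))) :
    (s2 x s).ev (poly H T ls) = polyR ((s1 x).ev H) ((s1 x).ev T) s ls := by
  induction ls with
  | nil => rfl
  | cons l ls ih =>
    have e1 : (s2 x s).ev (poly H T (l :: ls))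
        = (s1 x).ev (mono H T l) + s * (s2 x s).ev (poly H T ls) := rfl
    rw [e1, ev_mono, ih]
    rfl

end two

end Fermat.Agent.S52.Refl
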