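import Fermat.Agent.S52.UDefs
import Fermat.Agent.S52.Refl

set_option autoImplicit false

/-! # S52, package FAM6 : the dehomogenised `Tab_family` (kernel evaluation of dense polynomials) -/

namespace Fermat.Agent.S52

namespace Fam6

open Refl

/-- the coefficients of `F6` -/
def tbl : List (List (ℤ × ℕ × ℕ)) :=
  [[(1, 0, 1)],
  [(-30, 2, 0)],
  [(435, 1, 1)],
  [(-2900, 0, 2), (-1160, 3, 0)],
  [(27405, 2, 1)],
  [(-46980, 1, 2), (-95526, 4, 0)],
  [(156600, 0, 3), (437175, 3, 1)],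
  [(-3915000, 2, 2), (1879200, 5, 0)],
  [(14407200, 1, 3), (-8554275, 4, 1)],
  [(-32016000, 0, 4), (42021000, 3, 2), (-24312150, 6, 0)],
  [(-216588240, 2, 3), (246633255, 5, 1)],
  [(1459929600, 1, 4), (-1352475900, 4, 2), (-162081000, 7, 0)],
  [(-2433216000, 0, 5), (-1612005600, 3, 3), (4131714825, 6, 1)],
  [(12044419200, 2, 4), (-5235216300, 5, 2), (-6928962750, 8, 0)],
  [(-43045111800, 4, 3), (43190534475, 7, 1)],
  [(79420170240, 3, 4), (-79575287760, 6, 2)],
  [(-297825638400, 2, 5), (474659611200, 5, 3), (-176688550125, 8, 1)],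
  [(700766208000, 1, 6), (-935084908800, 4, 4), (-77604382800, 7, 2), (311803323750, 10, 0)],
  [(-778629120000, 0, 7), (-303665356800, 3, 5), (2776512362400, 6, 3), (-1694131392375, 9, 1)],
  [(4290656256000, 2, 6), (-8100765158400, 5, 4), (3481840250100, 8, 2), (328214025000, 11, 0)],
  [(-3442360320000, 1, 7), (3892110842880, 4, 5), (2424887357760, 7, 3), (-2874607835625, 10, 1)],
  [(3278438400000, 0, 8), (-5125838438400, 3, 6), (2709129888000, 6, 4), (-3077188825500, 9, 2), (2215444668750, 12, 0)],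
  [(-4573421568000, 2, 7), (7701051801600, 5, 5), (-1724509423800, 8, 3), (-1403114956875, 11, 1)],
  [(-6157762560000, 1, 8), (30337884979200, 4, 6), (-49888700928000, 7, 4), (33414470973000, 10, 2), (-7705894500000, 13, 0)],
  [(5131468800000, 0, 9), (-22779445248000, 3, 7), (35246094796800, 6, 5), (-22687218914400, 9, 3), (5089101159375, 12, 1)],
  [(18216714240000, 2, 8), (-71274600677376, 5, 6), (105528606261120, 8, 4), (-70097953635000, 11, 2), (17627233668750, 14, 0)],
  [(-41051750400000, 1, 9), (163803539865600, 4, 7), (-245438120632320, 7, 5), (163672057566000, 10, 3), (-40985726371875, 13, 1)],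
  [(30408704000000, 0, 10), (-111934439424000, 3, 8), (143803576074240, 6, 6), (-63806176396800, 9, 4), (-8104032382500, 12, 2), (9632368125000, 15, 0)],
  [(-21438136320000, 2, 9), (85731449241600, 5, 7), (-128580522647040, 8, 5), (85719228804000, 11, 3), (-21432019078125, 14, 1)],
  [(-5033164800000, 1, 10), (31344427008000, 4, 8), (-75042714746880, 7, 6), (87394892457600, 10, 4), (-49873523512500, 13, 2), (11210083593750, 16, 0)],
  [(3355443200000, 0, 11), (-17532190720000, 3, 9), (36574189977600, 6, 7), (-38083944628224, 9, 5), (19796866155000, 12, 3), (-4110363984375, 15, 1)]]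

/-- `alab x 1` -/
def pal : P2 := [[11, -66, -1]]
/-- `beab x 1` -/
def pbe : P2 := [[1, -66, -11]]
/-- `s` -/
def pS : P2 := [[], [1]]
/-- `x` -/
def pX : P2 := [[0, 1]]
/-- constants -/
def pk (n : ℤ) : P2 := [[n]]
/-- `Hab x 1` -/
def pH : P1 := [1, 228, 494, -228, 1]
/-- `Tab x 1` -/
def pT : P1 := [1, -522, -10005, 0, -10005, 522, 1]
/-- `x (1 + s α)^5` -/
def pA : P2 := Coef.mul pX (pw (pk 1) (Coef.add (pk 1) (Coef.mul pS pal)) 5)
/-- `(1 - s β)^5` -/
def pB : P2 := pw (pk 1) (Coef.add (pk 1) (Coef.neg (Coef.mul pS pbe))) 5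
/-- `A B` -/
def pm : P2 := Coef.mul pA pB
/-- `A² - B² + 261 A B` -/
def pd : P2 := Coef.add (Coef.add (Coef.mul pA pA) (Coef.neg (Coef.mul pB pB))) (Coef.mul (pk 261) pm)
/-- the left hand side -/
def lhs : P2 := Coef.mul (Coef.add (Coef.mul pA pA) (Coef.mul pB pB))
  (Coef.add (Coef.mul pd pd) (Coef.mul (pk (-78125)) (Coef.mul pm pm)))
/-- the right hand side -/
def rhs : P2 := poly pH pT tbl

set_option maxRecDepth 100000 in
theorem check : Coef.isZero (Coef.add lhs (Coef.neg rhs)) = true := by decide +kernel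

section
variable {R : Type*} [CommRing R]

theorem F6_eq_polyR (e4 e6 t : R) : F6 e4 e6 t = polyR e4 e6 t tbl := by
  simp only [tbl, polyR, monoR, F6, S6, h6_1, h6_2, h6_3, h6_4, h6_5, h6_6, h6_7, h6_8, h6_9, h6_10, h6_11, h6_12, h6_13, h6_14, h6_15, h6_16, h6_17, h6_18, h6_19, h6_20, h6_21, h6_22, h6_23, h6_24, h6_25, h6_26, h6_27, h6_28, h6_29, h6_30]
  push_cast
  ring

theorem ev_pal (x s : R) : (s2 x s).ev pal = alab x 1 := by
  simp only [s2, s1, Sem.list, evL, Sem.int, pal, alab]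
  push_cast
  ring

theorem ev_pbe (x s : R) : (s2 x s).ev pbe = beab x 1 := by
  simp only [s2, s1, Sem.list, evL, Sem.int, pbe, beab]
  push_cast
  ring

theorem ev_pS (x s : R) : (s2 x s).ev pS = s := by
  simp only [s2, s1, Sem.list, evL, Sem.int, pS]
  push_cast
  ring

theorem ev_pX (x s : R) : (s2 x s).ev pX = x := by
  simp only [s2, s1, Sem.list, evL, Sem.int, pX]
  push_cast
  ring

theorem ev_pk (x s : R) (n : ℤ) : (s2 x s).ev (pk n) = n := by
  simp only [s2, s1, Sem.list, evL, Sem.int, pk]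
  ring

theorem ev_pH (x : R) : (s1 x).ev pH = Hab x 1 := by
  simp only [s1, Sem.list, evL, Sem.int, pH, Hab]
  push_cast
  ring

theorem ev_pT (x : R) : (s1 x).ev pT = Tab x 1 := by
  simp only [s1, Sem.list, evL, Sem.int, pT, Tab]
  push_cast
  ring

theorem Tab_eq (A B : R) : Tab A B
    = (A * A + B * B) * ((A * A + - (B * B) + 261 * (A * B)) * (A * A + - (B * B) + 261 * (A * B))
      + (-78125) * ((A * B) * (A * B))) := by
  simp only [Tab]
  ring

theorem ev_pA (x s : R) : (s2 x s).ev pA = x * (1 + s * alab x 1) ^ 5 := by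
  have h1 : (s2 x s).ev (pk 1) = 1 := by rw [ev_pk]; simp
  rw [pA, Sem.ev_mul, ev_pw _ _ h1, Sem.ev_add, Sem.ev_mul, ev_pX, h1, ev_pS, ev_pal]

theorem ev_pB (x s : R) : (s2 x s).ev pB = 1 * (1 - s * beab x 1) ^ 5 := by
  have h1 : (s2 x s).ev (pk 1) = 1 := by rw [ev_pk]; simp
  rw [pB, ev_pw _ _ h1, Sem.ev_add, Sem.ev_neg, Sem.ev_mul, h1, ev_pS, ev_pbe, one_mul,
    sub_eq_add_neg]

theorem ev_lhs (x s : R) :
    (s2 x s).ev lhs = Tab (x * (1 + s * alab x 1) ^ 5) (1 * (1 - s * beab x 1) ^ 5) := by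
  rw [Tab_eq, lhs, pd, pm]
  simp only [Sem.ev_mul, Sem.ev_add, Sem.ev_neg, ev_pA, ev_pB, ev_pk]
  push_cast
  rfl

theorem ev_rhs (x s : R) : (s2 x s).ev rhs = F6 (Hab x 1) (Tab x 1) s := by
  rw [rhs, ev_poly, ev_pH, ev_pT, F6_eq_polyR]

/-- the dehomogenised identity -/
theorem Tab_family_one (x s : R) :
    Tab (x * (1 + s * alab x 1) ^ 5) (1 * (1 - s * beab x 1) ^ 5) = F6 (Hab x 1) (Tab x 1) s := by
  rw [← ev_lhs, ← ev_rhs]
  exact eq_of_isZero _ _ _ check

end

end Fam6

end Fermat.Agent.S52
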