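import Fermat.Agent.S52.PDefs
import Fermat.Agent.S51.Galois
import Fermat.Agent.Lib.Frobenius
import Fermat.Prelude.Def_FLTPrelim_Ramification

set_option autoImplicit false

/-! # S52, package INERT : inertia at `3` acts on the `5`-torsion through a group of odd order -/

namespace Fermat.Agent.S52

open Polynomial WeierstrassCurve Fermat.Agent.S51 Fermat.Agent.Lib.Frobenius
open scoped WeierstrassCurve.Affine

namespace Inert

/-! ### polynomial identities -/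

section Ident

variable {K : Type*} [CommRing K] (E : WeierstrassCurve K)

/-- `D = f' / 2`. -/
def dX (x : K) : K := 6 * x ^ 2 + E.b₂ * x + E.b₄

theorem four_nX (x : K) : 4 * nX E x = dX E x ^ 2 - (E.b₂ + 8 * x) * fX E x := by
  have hrel := E.b_relation
  simp only [nX, fX, dX]
  linear_combination (-1 : K) * hrel

theorem dX_sq {x x' : K} (h : x' * fX E x = nX E x) :
    dX E x ^ 2 = (4 * x' + E.b₂ + 8 * x) * fX E x := by
  have := four_nX E x
  linear_combination (-1 : K) * this - 4 * h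

theorem sixteen_Δ (x : K) :
    16 * E.Δ = dX E x * (4 * (E.b₂ + 12 * x) ^ 2 * dX E x - 128 * dX E x ^ 2
        + 144 * (E.b₂ + 12 * x) * fX E x)
      + fX E x * (-4 * (E.b₂ + 12 * x) ^ 3 - 432 * fX E x) := by
  have hrel := E.b_relation
  simp only [WeierstrassCurve.Δ, fX, dX]
  linear_combination (-4 * E.b₂ ^ 2) * hrel

theorem sixteen_fX (x x' : K) :
    16 * fX E x' = (4 * x' + E.b₂ + 8 * x) * ((4 * x' + E.b₂ + 8 * x) ^ 2
        - 3 * (4 * x' + E.b₂ + 8 * x) * (E.b₂ + 8 * x) + 3 * (E.b₂ + 8 * x) ^ 2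
        + E.b₂ * (4 * x' + E.b₂ + 8 * x) - 2 * E.b₂ * (E.b₂ + 8 * x) + 8 * E.b₄)
      + 16 * fX E x - 8 * dX E x * (E.b₂ + 12 * x) := by
  simp only [fX, dX]
  ring

theorem c₄_eq (x x' : K) :
    E.c₄ = 8 * dX E x' - (4 * x' + E.b₂ + 8 * x) * (3 * (4 * x' + E.b₂ + 8 * x)
        - 6 * (E.b₂ + 8 * x) + 2 * E.b₂) - 32 * dX E x := by
  simp only [WeierstrassCurve.c₄, dX]
  ring

end Ident

/-! ### valuation subrings of `Qb` -/

section Val

variable (A : ValuationSubring Qb)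

theorem mul_mem_m {a x : Qb} (ha : a ∈ A) (hx : x ∈ A.nonunits) : a * x ∈ A.nonunits := by
  rw [mul_comm]
  exact mul_mem_nonunits A hx ha

theorem mem_of_sq_mem {r : Qb} (h : r ^ 2 ∈ A) : r ∈ A := by
  rcases A.mem_or_inv_mem r with h1 | h1
  · exact h1
  · by_cases h0 : r = 0
    · rw [h0]; exact A.zero_mem
    · have : r = r ^ 2 * r⁻¹ := by field_simp
      rw [this]
      exact mul_mem h h1

theorem mem_m_of_mul {c z : Qb} (hc : c ∈ A) (hc' : c ∉ A.nonunits) (h : c * z ∈ A.nonunits) :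
    z ∈ A.nonunits := by
  rw [ValuationSubring.mem_nonunits_iff] at h ⊢
  rwa [map_mul, valuation_eq_one A hc hc', one_mul] at h

theorem mem_of_mul {c z : Qb} (hc : c ∈ A) (hc' : c ∉ A.nonunits) (h : c * z ∈ A) : z ∈ A := by
  rw [← ValuationSubring.valuation_le_one_iff] at h ⊢
  rwa [map_mul, valuation_eq_one A hc hc', one_mul] at h

theorem natCast_mem' (n : ℕ) : (n : Qb) ∈ A := natCast_mem A n

theorem m_le {x : Qb} (h : x ∈ A.nonunits) : x ∈ A := ValuationSubring.nonunits_subset h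

/-- elements of the inertia group act trivially modulo the maximal ideal. -/
theorem inertia_cong (σ : GQ) (hσ : σ ∈ A.inertiaSubgroupIn ℚ) {a : Qb} (ha : a ∈ A) :
    σ a - a ∈ A.nonunits := by
  obtain ⟨g, hg, rfl⟩ := Subgroup.mem_map.mp hσ
  have hker := MonoidHom.mem_ker.mp hg
  have h1 : IsLocalRing.residue A (g • (⟨a, ha⟩ : A)) = IsLocalRing.residue A ⟨a, ha⟩ := by
    rw [IsLocalRing.ResidueField.residue_smul]
    have := congrArg (fun f : RingAut (IsLocalRing.ResidueField A) =>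
      f (IsLocalRing.residue A ⟨a, ha⟩)) hker
    exact this
  have h2 : g • (⟨a, ha⟩ : A) - ⟨a, ha⟩ ∈ IsLocalRing.maximalIdeal A := by
    rw [← IsLocalRing.residue_eq_zero_iff, map_sub, h1, sub_self]
  exact (A.valuation_lt_one_iff _).mp h2

/-- an element of `A` which is negated by an element of the inertia group lies in the maximal
ideal (`2` being a unit). -/
theorem mem_m_of_neg (h2 : (2 : Qb) ∉ A.nonunits) (σ : GQ) (hσ : σ ∈ A.inertiaSubgroupIn ℚ)
    {a : Qb} (ha : a ∈ A) (h : σ a = -a) : a ∈ A.nonunits := by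
  have h1 := inertia_cong A σ hσ ha
  rw [h] at h1
  have h3 : (2 : Qb) * a ∈ A.nonunits := by
    have : (2 : Qb) * a = -(-a - a) := by ring
    rw [this]
    exact A.nonunits.neg_mem h1
  exact mem_m_of_mul A (by exact_mod_cast natCast_mem' A 2) h2 h3

/-- the core computation. -/
theorem core (E : WeierstrassCurve Qb) (h2 : (2 : Qb) ∉ A.nonunits) (hb2 : E.b₂ ∈ A)
    (hb4 : E.b₄ ∈ A) {x x' : Qb} (hx : x ∈ A) (hx' : x' ∈ A)
    (h' : x * fX E x' = nX E x') (hf : fX E x ∈ A.nonunits) (hD : dX E x ∈ A.nonunits)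
    (hc : 4 * x' + E.b₂ + 8 * x ∈ A.nonunits) : E.c₄ ∈ A.nonunits ∧ E.Δ ∈ A.nonunits := by
  have n2 : (2 : Qb) ∈ A := by exact_mod_cast natCast_mem' A 2
  have hn : ∀ n : ℕ, (n : Qb) ∈ A := natCast_mem' A
  have n3 : (3 : Qb) ∈ A := by exact_mod_cast hn 3
  have n4 : (4 : Qb) ∈ A := by exact_mod_cast hn 4
  have n6 : (6 : Qb) ∈ A := by exact_mod_cast hn 6
  have n8 : (8 : Qb) ∈ A := by exact_mod_cast hn 8
  have n12 : (12 : Qb) ∈ A := by exact_mod_cast hn 12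
  have n16 : (16 : Qb) ∈ A := by exact_mod_cast hn 16
  have n32 : (32 : Qb) ∈ A := by exact_mod_cast hn 32
  have n128 : (128 : Qb) ∈ A := by exact_mod_cast hn 128
  have n144 : (144 : Qb) ∈ A := by exact_mod_cast hn 144
  have n432 : (432 : Qb) ∈ A := by exact_mod_cast hn 432
  have u16 : (16 : Qb) ∉ A.nonunits := by
    have : (16 : Qb) = 2 ^ 4 := by norm_num
    rw [this, pow_mem_nonunits_iff A (by norm_num)]
    exact h2
  have hfA := m_le A hf
  have hDA := m_le A hD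
  have hcA := m_le A hc
  have hB : E.b₂ + 12 * x ∈ A := add_mem hb2 (mul_mem n12 hx)
  have hs : E.b₂ + 8 * x ∈ A := add_mem hb2 (mul_mem n8 hx)
  constructor
  · -- `f(x') ∈ 𝔪`
    have hf' : fX E x' ∈ A.nonunits := by
      apply mem_m_of_mul A n16 u16
      rw [sixteen_fX E x x']
      refine A.nonunits.sub_mem (A.nonunits.add_mem (mul_mem_nonunits A hc ?_)
        (mul_mem_m A n16 hf)) (mul_mem_nonunits A (mul_mem_m A n8 hD) hB)
      refine add_mem (sub_mem (add_mem (add_mem (sub_mem (pow_mem hcA 2)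
        (mul_mem (mul_mem n3 hcA) hs)) (mul_mem n3 (pow_mem hs 2)))
        (mul_mem hb2 hcA)) (mul_mem (mul_mem n2 hb2) hs)) (mul_mem n8 hb4)
    have hD' : dX E x' ∈ A.nonunits := by
      rw [← pow_mem_nonunits_iff A two_ne_zero, dX_sq E h']
      exact mul_mem_m A (add_mem (add_mem (mul_mem n4 hx) hb2) (mul_mem n8 hx')) hf'
    rw [c₄_eq E x x']
    refine A.nonunits.sub_mem (A.nonunits.sub_mem (mul_mem_m A n8 hD') (mul_mem_nonunits A hc ?_))
      (mul_mem_m A n32 hD)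
    exact add_mem (sub_mem (mul_mem n3 hcA) (mul_mem n6 hs)) (mul_mem n2 hb2)
  · apply mem_m_of_mul A n16 u16
    rw [sixteen_Δ E x]
    refine A.nonunits.add_mem (mul_mem_nonunits A hD ?_) (mul_mem_nonunits A hf ?_)
    · exact add_mem (sub_mem (mul_mem (mul_mem n4 (pow_mem hB 2)) hDA)
        (mul_mem n128 (pow_mem hDA 2))) (mul_mem (mul_mem n144 hB) hfA)
    · exact sub_mem (mul_mem (neg_mem n4) (pow_mem hB 3)) (mul_mem n432 hfA)

end Val

/-! ### the curve over `Qb` -/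

section Curve

variable (W : WeierstrassCurve ℤ)

/-- the curve over `Qb`. -/
noncomputable abbrev EQ : WeierstrassCurve Qb := (W.map (Int.castRingHom ℚ)).baseChange Qb

theorem EQ_eq : EQ W = W.map (Int.castRingHom Qb) := by
  rw [EQ, WeierstrassCurve.baseChange, WeierstrassCurve.map_map]
  congr 1

theorem a₁_eq : (EQ W).a₁ = (W.a₁ : Qb) := by rw [EQ_eq]; rfl
theorem a₃_eq : (EQ W).a₃ = (W.a₃ : Qb) := by rw [EQ_eq]; rfl
theorem b₂_eq : (EQ W).b₂ = (W.b₂ : Qb) := by rw [EQ_eq, WeierstrassCurve.map_b₂]; rfl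
theorem b₄_eq : (EQ W).b₄ = (W.b₄ : Qb) := by rw [EQ_eq, WeierstrassCurve.map_b₄]; rfl
theorem b₆_eq : (EQ W).b₆ = (W.b₆ : Qb) := by rw [EQ_eq, WeierstrassCurve.map_b₆]; rfl
theorem c₄_eq' : (EQ W).c₄ = (W.c₄ : Qb) := by rw [EQ_eq, WeierstrassCurve.map_c₄]; rfl
theorem Δ_eq : (EQ W).Δ = (W.Δ : Qb) := by rw [EQ_eq, WeierstrassCurve.map_Δ]; rfl

theorem fX_mem (A : ValuationSubring Qb) {x : Qb} (hx : x ∈ A) : fX (EQ W) x ∈ A := by
  have n2 : (2 : Qb) ∈ A := by exact_mod_cast natCast_mem' A 2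
  have n4 : (4 : Qb) ∈ A := by exact_mod_cast natCast_mem' A 4
  rw [fX, b₂_eq, b₄_eq, b₆_eq]
  exact add_mem (add_mem (add_mem (mul_mem n4 (pow_mem hx 3))
    (mul_mem (intCast_mem' A _) (pow_mem hx 2))) (mul_mem (mul_mem n2 (intCast_mem' A _)) hx))
    (intCast_mem' A _)

end Curve

end Inert

open Inert

section INERT

variable (W : WeierstrassCurve ℤ)

theorem x_mem_of_tors5 (A : ValuationSubring Qb) (h5 : (5 : Qb) ∉ A.nonunits) {x y : Qb}
    (h : ((W.map (Int.castRingHom ℚ))⁄Qb).Nonsingular x y)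
    (hP : (5 : ℤ) • (Affine.Point.some x y h : ((W.map (Int.castRingHom ℚ))⁄Qb).Point) = 0) :
    x ∈ A := by
  obtain ⟨x', y', h', -, hX⟩ := (five_smul_eq_zero_iff (EQ W) h).1 hP
  have hq := qX_eq_zero_of_isX5 (EQ W) hX
  rw [← eval_preΨ'_five, EQ_eq, WeierstrassCurve.map_preΨ', eval_map] at hq
  have hq' : aeval x (W.preΨ' 5) = 0 := by
    rw [aeval_def]
    exact hq
  have hint := isIntegral_leadingCoeff_smul (W.preΨ' 5) x hq'
  rw [WeierstrassCurve.leadingCoeff_preΨ' (W := W) (n := 5) (by norm_num)] at hint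
  have h5' : ¬ Even 5 := by decide
  rw [if_neg h5'] at hint
  have h1 : (5 : Qb) * x ∈ A := by
    have := mem_of_isIntegral A hint
    simpa [Algebra.smul_def] using this
  exact mem_of_mul A (by exact_mod_cast natCast_mem' A 5) h5 h1

theorem inv_inertia (hΔ : W.Δ ≠ 0) (h3 : (3 : ℤ) ∣ W.Δ → ¬ (3 : ℤ) ∣ W.c₄)
    (A : ValuationSubring Qb) (hA : A.LiesOverPrime 3) (θ : GQ) (hθ : θ ∈ A.inertiaSubgroupIn ℚ)
    (P : ((W.map (Int.castRingHom ℚ))⁄Qb).Point) (hP : (5 : ℤ) • P = 0) (h : θ • P = -P) :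
    P = 0 := by
  rcases P with _ | ⟨x, y, hxy⟩
  · rfl
  exfalso
  have p3 : Nat.Prime 3 := Nat.prime_three
  have u2 : (2 : Qb) ∉ A.nonunits := by
    exact_mod_cast intCast_notMem_nonunits A p3 hA (c := 2) (by norm_num)
  have u5 : (5 : Qb) ∉ A.nonunits := by
    exact_mod_cast intCast_notMem_nonunits A p3 hA (c := 5) (by norm_num)
  obtain ⟨x', y', h', e2, hX⟩ := (five_smul_eq_zero_iff (EQ W) hxy).1 hP
  obtain ⟨hne, hf, hf', hd, hd'⟩ := hX
  have hxA := x_mem_of_tors5 W A u5 hxy hP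
  have hP2 : (5 : ℤ) • (Affine.Point.some x' y' h' : ((W.map (Int.castRingHom ℚ))⁄Qb).Point)
      = 0 := by
    rw [← e2, smul_comm, hP]
    exact zsmul_zero 2
  have hx'A := x_mem_of_tors5 W A u5 h' hP2
  -- the action of `θ`
  obtain ⟨hθx, hθy⟩ : θ x = x ∧ θ y = (EQ W).toAffine.negY x y := by
    obtain ⟨h'', e⟩ := Galois.smul_some (W.map (Int.castRingHom ℚ)) θ hxy
    rw [e, Affine.Point.neg_some, Affine.Point.some.injEq] at h
    exact h
  set η : Qb := 2 * y + (EQ W).a₁ * x + (EQ W).a₃ with hη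
  have hη2 : η ^ 2 = fX (EQ W) x := sq_eq_fX (EQ W) hxy.1
  have hη0 : η ≠ 0 := by
    intro h0
    rw [h0, zero_pow two_ne_zero] at hη2
    exact hf hη2.symm
  have hθη : θ η = -η := by
    rw [hη]
    simp only [map_add, map_mul, map_ofNat, hθx, hθy, a₁_eq, a₃_eq, map_intCast, Affine.negY]
    ring
  have hθD : θ (dX (EQ W) x) = dX (EQ W) x := by
    simp only [dX, map_add, map_mul, map_pow, map_ofNat, hθx, b₂_eq, b₄_eq, map_intCast]
  set r : Qb := dX (EQ W) x / η with hr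
  have hrη : r * η = dX (EQ W) x := div_mul_cancel₀ _ hη0
  have hr2 : r ^ 2 = 4 * x' + (EQ W).b₂ + 8 * x := by
    have h1 := dX_sq (EQ W) hd
    rw [← hrη, ← hη2, mul_pow] at h1
    exact mul_right_cancel₀ (pow_ne_zero 2 hη0) h1
  have n4 : (4 : Qb) ∈ A := by exact_mod_cast natCast_mem' A 4
  have n8 : (8 : Qb) ∈ A := by exact_mod_cast natCast_mem' A 8
  have hb2 : (EQ W).b₂ ∈ A := by rw [b₂_eq]; exact intCast_mem' A _
  have hb4 : (EQ W).b₄ ∈ A := by rw [b₄_eq]; exact intCast_mem' A _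
  have hrA : r ∈ A := by
    apply mem_of_sq_mem
    rw [hr2]
    exact add_mem (add_mem (mul_mem n4 hx'A) hb2) (mul_mem n8 hxA)
  have hθr : θ r = -r := by
    rw [hr, map_div₀, hθD, hθη, div_neg]
  have hrm : r ∈ A.nonunits := mem_m_of_neg A u2 θ hθ hrA hθr
  have hηA : η ∈ A := by
    apply mem_of_sq_mem
    rw [hη2]
    exact fX_mem W A hxA
  have hηm : η ∈ A.nonunits := mem_m_of_neg A u2 θ hθ hηA hθη
  have hfm : fX (EQ W) x ∈ A.nonunits := by
    rw [← hη2, pow_mem_nonunits_iff A two_ne_zero]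
    exact hηm
  have hDm : dX (EQ W) x ∈ A.nonunits := by
    rw [← hrη]
    exact mul_mem_m A hrA hηm
  have hcm : 4 * x' + (EQ W).b₂ + 8 * x ∈ A.nonunits := by
    rw [← hr2, pow_mem_nonunits_iff A two_ne_zero]
    exact hrm
  obtain ⟨hc4, hΔm⟩ := core A (EQ W) u2 hb2 hb4 hxA hx'A hd' hfm hDm hcm
  rw [c₄_eq'] at hc4
  rw [Δ_eq] at hΔm
  have d1 : (3 : ℤ) ∣ W.Δ := by
    by_contra hcon
    exact intCast_notMem_nonunits A p3 hA (c := W.Δ) (by exact_mod_cast hcon) hΔm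
  have d2 : (3 : ℤ) ∣ W.c₄ := by
    by_contra hcon
    exact intCast_notMem_nonunits A p3 hA (c := W.c₄) (by exact_mod_cast hcon) hc4
  exact h3 d1 d2

/-- an element of the inertia group whose square acts trivially on the `5`-torsion acts
trivially. -/
theorem Inert.trivial_of_sq (hΔ : W.Δ ≠ 0) (h3 : (3 : ℤ) ∣ W.Δ → ¬ (3 : ℤ) ∣ W.c₄)
    (A : ValuationSubring Qb) (hA : A.LiesOverPrime 3) (θ : GQ) (hθ : θ ∈ A.inertiaSubgroupIn ℚ)
    (h : ∀ P : ((W.map (Int.castRingHom ℚ))⁄Qb).Point, (5 : ℤ) • P = 0 → (θ ^ 2) • P = P)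
    (P : ((W.map (Int.castRingHom ℚ))⁄Qb).Point) (hP : (5 : ℤ) • P = 0) : θ • P = P := by
  have h5 : (5 : ℤ) • (θ • P) = 0 := by
    rw [← Affine.Point.algEquiv_smul_zsmul, hP, smul_zero]
  have h1 : (5 : ℤ) • (P - θ • P) = 0 := by
    rw [zsmul_sub, hP, h5, sub_zero]
  have h2 : θ • (P - θ • P) = -(P - θ • P) := by
    rw [smul_sub, ← mul_smul, ← pow_two, h P hP, neg_sub]
  have h4 := inv_inertia W hΔ h3 A hA θ hθ _ h1 h2
  exact (sub_eq_zero.1 h4).symm

theorem Inert.trivial_of_two_pow (hΔ : W.Δ ≠ 0) (h3 : (3 : ℤ) ∣ W.Δ → ¬ (3 : ℤ) ∣ W.c₄)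
    (A : ValuationSubring Qb) (hA : A.LiesOverPrime 3) (a : ℕ) :
    ∀ θ : GQ, θ ∈ A.inertiaSubgroupIn ℚ →
      (∀ P : ((W.map (Int.castRingHom ℚ))⁄Qb).Point, (5 : ℤ) • P = 0 → (θ ^ (2 ^ a)) • P = P) →
      ∀ P : ((W.map (Int.castRingHom ℚ))⁄Qb).Point, (5 : ℤ) • P = 0 → θ • P = P := by
  induction a with
  | zero =>
    intro θ _ h P hP
    have := h P hP
    rwa [pow_zero, pow_one] at this
  | succ a ih =>
    intro θ hθ h
    apply Inert.trivial_of_sq W hΔ h3 A hA θ hθ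
    apply ih (θ ^ 2) (pow_mem hθ 2)
    intro P hP
    rw [← pow_mul, ← pow_succ']
    exact h P hP

theorem odd_inertia (hΔ : W.Δ ≠ 0) (h3 : (3 : ℤ) ∣ W.Δ → ¬ (3 : ℤ) ∣ W.c₄)
    (A : ValuationSubring Qb) (hA : A.LiesOverPrime 3) (τ : GQ) (hτ : τ ∈ A.inertiaSubgroupIn ℚ) :
    ∃ k : ℕ, Odd k ∧ ∀ P : ((W.map (Int.castRingHom ℚ))⁄Qb).Point, (5 : ℤ) • P = 0 →
      (τ ^ k) • P = P := by
  have hΔ' : (EQ W).Δ ≠ 0 := by
    rw [Δ_eq]
    exact_mod_cast hΔ
  have hfin : Finite (Submodule.torsionBy ℤ ((W.map (Int.castRingHom ℚ))⁄Qb).Point (5 : ℕ)) :=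
    (card_five_torsion (EQ W) hΔ').1
  set T := Submodule.torsionBy ℤ ((W.map (Int.castRingHom ℚ))⁄Qb).Point (5 : ℕ) with hT
  set g : Equiv.Perm T := MulAction.toPermHom GQ T τ with hg
  have hm0 : orderOf g ≠ 0 := (orderOf_pos g).ne'
  obtain ⟨a, k, hk, hm⟩ := Nat.exists_eq_two_pow_mul_odd hm0
  refine ⟨k, hk, ?_⟩
  apply Inert.trivial_of_two_pow W hΔ h3 A hA a (τ ^ k) (pow_mem hτ k)
  intro P hP
  have hPT : P ∈ T := by
    rw [hT, Submodule.mem_torsionBy_iff]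
    simpa using hP
  have h1 : g ^ orderOf g = 1 := pow_orderOf_eq_one g
  rw [hg, ← map_pow] at h1
  have h2 := congrArg (fun e : Equiv.Perm T => ((e ⟨P, hPT⟩ : T) :
    ((W.map (Int.castRingHom ℚ))⁄Qb).Point)) h1
  rw [← pow_mul, mul_comm k, ← hm]
  exact h2

end INERT

end Fermat.Agent.S52
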