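import Fermat.Agent.S51.Galois
import Fermat.Agent.S51.Final
import Fermat.Statements.S52

set_option autoImplicit false

/-! # S52, package IRR3 : irreducibility mod 3 from one auxiliary prime -/

namespace Fermat.Agent.S52

open Polynomial WeierstrassCurve Fermat.Agent.S51

namespace Irr3

/-- the field computation: `c₆ = 0`, a root of `ψ₃`, `3` not a square `⟹ c₄ = 0`. -/
lemma c₄_eq_zero {κ : Type*} [Field κ] (h2 : (2 : κ) ≠ 0) (h3' : (3 : κ) ≠ 0)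
    (E : WeierstrassCurve κ) (h6 : E.c₆ = 0)
    (h3 : ∀ s : κ, s ^ 2 ≠ 3) {x : κ} (hx : tX E x = 0) : E.c₄ = 0 := by
  have ha := j3a E hx
  have hb := j3b E hx
  have hc := E.c_relation
  rw [h6] at hc
  set e := 6 * x ^ 2 + E.b₂ * x + E.b₄ with he
  set G := fX E x ^ 2 with hG
  set D := E.Δ with hD
  have h1 : (D ^ 2 + 18 * D * G - 27 * G ^ 2) ^ 2 = 0 := by
    have hb3 : E.c₄ ^ 3 * G ^ 3 = e ^ 3 * (D + 3 * G) ^ 3 := by
      rw [← mul_pow, ← mul_pow, hb]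
    rw [ha] at hb3
    linear_combination (-1 : κ) * hb3 - G ^ 3 * hc
  have h2' : D ^ 2 + 18 * D * G - 27 * G ^ 2 = 0 := by simpa using h1
  by_cases hG0 : G = 0
  · rw [hG0] at h2'
    have hD0 : D = 0 := by simpa using h2'
    rw [hD0] at hc
    have : E.c₄ ^ 3 = 0 := by linear_combination -hc
    simpa using this
  · exfalso
    have h6G : 6 * G ≠ 0 := by
      refine mul_ne_zero ?_ hG0
      have : (6 : κ) = 2 * 3 := by norm_num
      rw [this]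
      exact mul_ne_zero h2 h3'
    apply h3 ((D + 9 * G) / (6 * G))
    rw [div_pow, div_eq_iff (pow_ne_zero 2 h6G)]
    linear_combination h2'

/-- a rational root of `ψ₃` of an integral model has denominator dividing `3`. -/
lemma exists_int (W : WeierstrassCurve ℤ) {x : ℚ} (hx : tX (W.map (Int.castRingHom ℚ)) x = 0) :
    ∃ z : ℤ, z ^ 4 + W.b₂ * z ^ 3 + 9 * W.b₄ * z ^ 2 + 27 * W.b₆ * z + 27 * W.b₈ = 0 := by
  let p : ℤ[X] := X ^ 4 + C W.b₂ * X ^ 3 + C (9 * W.b₄) * X ^ 2 + C (27 * W.b₆) * X + C (27 * W.b₈)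
  have hp : p.Monic := by
    simp only [p]
    monicity!
  have hx' : 3 * x ^ 4 + (W.b₂ : ℚ) * x ^ 3 + 3 * (W.b₄ : ℚ) * x ^ 2 + 3 * (W.b₆ : ℚ) * x
      + (W.b₈ : ℚ) = 0 := by
    simpa [tX] using hx
  have hint : _root_.IsIntegral ℤ (3 * x) := by
    refine ⟨p, hp, ?_⟩
    simp only [p, eval₂_add, eval₂_mul, eval₂_pow, eval₂_X, eval₂_C]
    simp only [eq_intCast, Int.cast_mul, Int.cast_ofNat]
    linear_combination 27 * hx'
  obtain ⟨z, hz⟩ := IsIntegrallyClosed.algebraMap_eq_of_integral hint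
  refine ⟨z, ?_⟩
  have hz' : (z : ℚ) = 3 * x := by rw [← hz]; rfl
  have : ((z ^ 4 + W.b₂ * z ^ 3 + 9 * W.b₄ * z ^ 2 + 27 * W.b₆ * z + 27 * W.b₈ : ℤ) : ℚ) = 0 := by
    push_cast
    rw [hz']
    linear_combination 27 * hx'
  exact_mod_cast this

end Irr3

theorem irr3_of_prime (W : WeierstrassCurve ℤ) (hΔ : W.Δ ≠ 0) {ℓ : ℕ} (hℓ : ℓ.Prime) (h5 : 5 ≤ ℓ)
    (h6 : (ℓ : ℤ) ∣ W.c₆) (h4 : ¬ (ℓ : ℤ) ∣ W.c₄) (h3 : ∀ s : ZMod ℓ, s ^ 2 ≠ 3) :
    W.ModRepIsIrreducible 3 := by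
  by_contra hn
  have hEΔ : (W.map (Int.castRingHom ℚ)).Δ ≠ 0 := by
    rw [WeierstrassCurve.map_Δ]
    simpa using hΔ
  obtain ⟨x, hx⟩ := exists_rat_of_not_irr3 _ hEΔ hn
  obtain ⟨z, hz⟩ := Irr3.exists_int W hx
  have : Fact ℓ.Prime := ⟨hℓ⟩
  have hne : ∀ n : ℕ, 0 < n → n < 5 → ((n : ℕ) : ZMod ℓ) ≠ 0 := by
    intro n h0 hn5 h
    rw [ZMod.natCast_eq_zero_iff] at h
    have := Nat.le_of_dvd h0 h
    omega
  have h2' : (2 : ZMod ℓ) ≠ 0 := by exact_mod_cast hne 2 (by norm_num) (by norm_num)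
  have h3' : (3 : ZMod ℓ) ≠ 0 := by exact_mod_cast hne 3 (by norm_num) (by norm_num)
  apply h4
  rw [← ZMod.intCast_zmod_eq_zero_iff_dvd]
  have hz' := congrArg (Int.cast : ℤ → ZMod ℓ) hz
  push_cast at hz'
  have hc4 := Irr3.c₄_eq_zero h2' h3' (W.map (Int.castRingHom (ZMod ℓ))) (by
      rw [WeierstrassCurve.map_c₆]
      simpa using (ZMod.intCast_zmod_eq_zero_iff_dvd _ _).2 h6) h3 (x := (z : ZMod ℓ) / 3) (by
      simp only [tX, WeierstrassCurve.map_b₂, WeierstrassCurve.map_b₄, WeierstrassCurve.map_b₆,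
        WeierstrassCurve.map_b₈, eq_intCast]
      field_simp
      linear_combination hz')
  simpa [WeierstrassCurve.map_c₄] using hc4

end Fermat.Agent.S52
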