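import Fermat.Agent.S52.Sol
import Fermat.Agent.S52.Fam4
import Fermat.Agent.S52.Fam6

set_option autoImplicit false

/-! # S52, package SEMI: `F4`, `F6` have no common prime factor `p ∤ 30 (e4³ - e6²) t` -/

namespace Fermat.Agent.S52

open Polynomial

namespace Semi

/-- solutions `(a, b)` of `Hab = e4`, `Tab = e6` over an algebraically closed field of
characteristic prime to `30`. -/
theorem exists_ab {K : Type*} [Field K] [IsAlgClosed K] (h2 : (2 : K) ≠ 0) (h3 : (3 : K) ≠ 0)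
    (h5 : (5 : K) ≠ 0) (e4 e6 : K) (hd : e4 ^ 3 - e6 ^ 2 ≠ 0) :
    ∃ a b : K, Hab a b = e4 ∧ Tab a b = e6 := by
  have hc : (Sol.pol e4 e6).coeff 12 ≠ 0 := by
    rw [Sol.coeff_pol]
    intro h
    exact hd (by linear_combination -h)
  have hdeg : (Sol.pol e4 e6).degree ≠ 0 := by
    intro h
    have h1 : (Sol.pol e4 e6).natDegree = 0 := natDegree_eq_zero_iff_degree_le_zero.mpr h.le
    have h2 := le_natDegree_of_ne_zero hc
    omega
  obtain ⟨l, hl⟩ := IsAlgClosed.exists_root _ hdeg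
  rw [IsRoot.def, Sol.eval_pol] at hl
  have hHT : ¬ (Hab l 1 = 0 ∧ Tab l 1 = 0) := by
    rintro ⟨h1, h2'⟩
    exact one_ne_zero (Hab_Tab_zero h2 h3 h5 h1 h2').2
  obtain ⟨b, hb4, hb6⟩ := Sol.exists_scale hd hHT (by linear_combination hl)
  exact ⟨l * b, b, by rw [Sol.Hab_homog, hb4], by rw [Sol.Tab_homog, hb6]⟩

/-- the field version of `semi_aux`. -/
theorem field_aux {K : Type*} [Field K] [IsAlgClosed K] (h2 : (2 : K) ≠ 0) (h3 : (3 : K) ≠ 0)
    (h5 : (5 : K) ≠ 0) (e4 e6 t : K) (hd : e4 ^ 3 - e6 ^ 2 ≠ 0) (ht : t ≠ 0) :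
    ¬ (F4 e4 e6 t = 0 ∧ F6 e4 e6 t = 0) := by
  rintro ⟨h4, h6⟩
  obtain ⟨a, b, rfl, rfl⟩ := exists_ab h2 h3 h5 e4 e6 hd
  rw [← Hab_family] at h4
  rw [← Tab_family] at h6
  obtain ⟨ha, hb⟩ := Hab_Tab_zero h2 h3 h5 h4 h6
  rw [Hab_Tab_rel, Dab] at hd
  have hd1 := right_ne_zero_of_mul hd
  have hd0 : b ^ 2 - 11 * a * b - a ^ 2 ≠ 0 := fun h => by
    apply right_ne_zero_of_mul hd1; rw [h]; ring
  have hab := left_ne_zero_of_mul hd1
  have ha0 := left_ne_zero_of_mul hab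
  have hb0 := right_ne_zero_of_mul hab
  have hP : 1 + t * alab a b = 0 :=
    pow_eq_zero_iff (n := 5) (by norm_num) |>.1 ((mul_eq_zero.1 ha).resolve_left ha0)
  have hQ : 1 - t * beab a b = 0 :=
    pow_eq_zero_iff (n := 5) (by norm_num) |>.1 ((mul_eq_zero.1 hb).resolve_left hb0)
  have h12 : t * (12 * (b ^ 2 - 11 * a * b - a ^ 2)) = 0 := by
    rw [← alab_add_beab]; linear_combination hP - hQ
  have h12' : (12 : K) ≠ 0 := by
    rw [show (12 : K) = 2 * 2 * 3 by norm_num]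
    exact mul_ne_zero (mul_ne_zero h2 h2) h3
  exact mul_ne_zero ht (mul_ne_zero h12' hd0) h12

theorem map_F4 {R S : Type*} [CommRing R] [CommRing S] (f : R →+* S) (a b c : R) :
    f (F4 a b c) = F4 (f a) (f b) (f c) := by
  simp only [F4, S4, h4_1, h4_2, h4_3, h4_4, h4_5, h4_6, h4_7, h4_8, h4_9, h4_10, h4_11, h4_12,
    h4_13, h4_14, h4_15, h4_16, h4_17, h4_18, h4_19, h4_20, map_add, map_sub, map_mul, map_pow,
    map_neg, map_ofNat]

theorem map_F6 {R S : Type*} [CommRing R] [CommRing S] (f : R →+* S) (a b c : R) :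
    f (F6 a b c) = F6 (f a) (f b) (f c) := by
  simp only [F6, S6, h6_1, h6_2, h6_3, h6_4, h6_5, h6_6, h6_7, h6_8, h6_9, h6_10, h6_11, h6_12,
    h6_13, h6_14, h6_15, h6_16, h6_17, h6_18, h6_19, h6_20, h6_21, h6_22, h6_23, h6_24, h6_25,
    h6_26, h6_27, h6_28, h6_29, h6_30, map_add, map_sub, map_mul, map_pow, map_neg, map_ofNat]

end Semi

/-- (the first plan statement with `5` replaced by `30`: the original statement fails for `p = 2, 3`.) -/
theorem semi_aux (e4 e6 t : ℤ) {p : ℕ} (hp : p.Prime) (h1 : ¬ (p : ℤ) ∣ 30 * (e4 ^ 3 - e6 ^ 2))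
    (ht : ¬ (p : ℤ) ∣ t) : ¬ ((p : ℤ) ∣ F4 e4 e6 t ∧ (p : ℤ) ∣ F6 e4 e6 t) := by
  have : Fact p.Prime := ⟨hp⟩
  let K := AlgebraicClosure (ZMod p)
  have : CharP K p := charP_of_injective_algebraMap (algebraMap (ZMod p) K).injective p
  have key : ∀ n : ℤ, (p : ℤ) ∣ n ↔ ((n : ℤ) : K) = 0 := fun n =>
    (CharP.intCast_eq_zero_iff K p n).symm
  have hn : ∀ m : ℤ, m ∣ 30 → ((m : ℤ) : K) ≠ 0 := fun m hm h0 =>
    h1 (Dvd.dvd.mul_right (((key m).2 h0).trans hm) _)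
  rintro ⟨h4, h6⟩
  rw [key] at h4 h6 ht
  refine Semi.field_aux (K := K) (by simpa using hn 2 (by norm_num))
    (by simpa using hn 3 (by norm_num)) (by simpa using hn 5 (by norm_num))
    (e4 : K) (e6 : K) (t : K) ?_ ht ⟨?_, ?_⟩
  · intro h0
    apply h1
    apply Dvd.dvd.mul_left
    rw [key]
    push_cast
    exact h0
  · rw [← h4]; exact (Semi.map_F4 (Int.castRingHom K) e4 e6 t).symm
  · rw [← h6]; exact (Semi.map_F6 (Int.castRingHom K) e4 e6 t).symm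

end Fermat.Agent.S52
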