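import Fermat.Statements.S52
import Fermat.Agent.S52.Ap
import Fermat.Agent.S52.Card
import Fermat.Agent.S52.Semi

set_option autoImplicit false
set_option linter.unusedVariables false
set_option linter.style.haveILetI false
set_option linter.unnecessarySeqFocus false

/-! # S52, package MODEL: the member `t = 1728 n` of the family as an integral model -/

namespace Fermat.Agent.S52

open WeierstrassCurve

/-- the member `t = 1728 n` of the family through `W`, as an integral Weierstrass model. -/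
def Wn (W : WeierstrassCurve ℤ) (n : ℤ) : WeierstrassCurve ℤ :=
  ⟨W.a₁, W.a₂, W.a₃, W.a₄ - 36 * n * S4 W.c₄ (-W.c₆) (1728 * n),
    W.a₆ - 3 * n * W.b₂ * S4 W.c₄ (-W.c₆) (1728 * n) + 2 * n * S6 W.c₄ (-W.c₆) (1728 * n)⟩

theorem Wn_c₄ (W : WeierstrassCurve ℤ) (n : ℤ) : (Wn W n).c₄ = F4 W.c₄ (-W.c₆) (1728 * n) := by
  unfold F4 Wn
  generalize S4 W.c₄ (-W.c₆) (1728 * n) = s4
  generalize S6 W.c₄ (-W.c₆) (1728 * n) = s6
  simp only [WeierstrassCurve.c₄, WeierstrassCurve.b₂, WeierstrassCurve.b₄]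
  ring

theorem Wn_c₆ (W : WeierstrassCurve ℤ) (n : ℤ) : (Wn W n).c₆ = - F6 W.c₄ (-W.c₆) (1728 * n) := by
  unfold F6 Wn
  generalize S4 W.c₄ (-W.c₆) (1728 * n) = s4
  generalize S6 W.c₄ (-W.c₆) (1728 * n) = s6
  simp only [WeierstrassCurve.c₆, WeierstrassCurve.b₂, WeierstrassCurve.b₄, WeierstrassCurve.b₆]
  ring

theorem Wn_reductionMod (W : WeierstrassCurve ℤ) (n : ℤ) {p : ℕ} (h : (p : ℤ) ∣ n) :
    (Wn W n).reductionMod p = W.reductionMod p := by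
  have hn : (n : ZMod p) = 0 := (ZMod.intCast_zmod_eq_zero_iff_dvd n p).mpr h
  unfold WeierstrassCurve.reductionMod Wn
  generalize S4 W.c₄ (-W.c₆) (1728 * n) = s4
  generalize S6 W.c₄ (-W.c₆) (1728 * n) = s6
  ext <;> simp [WeierstrassCurve.map, hn]

namespace Model

lemma dvd_Δ_sub (W : WeierstrassCurve ℤ) (n : ℤ) {p : ℕ} (h : (p : ℤ) ∣ n) :
    (p : ℤ) ∣ (Wn W n).Δ - W.Δ := by
  have h1 := congrArg WeierstrassCurve.Δ (Wn_reductionMod W n h)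
  unfold WeierstrassCurve.reductionMod at h1
  rw [WeierstrassCurve.map_Δ, WeierstrassCurve.map_Δ] at h1
  rw [← ZMod.intCast_zmod_eq_zero_iff_dvd]
  push_cast
  exact sub_eq_zero.mpr h1

lemma dvd_c₄_sub (W : WeierstrassCurve ℤ) (n : ℤ) {p : ℕ} (h : (p : ℤ) ∣ n) :
    (p : ℤ) ∣ (Wn W n).c₄ - W.c₄ := by
  have h1 := congrArg WeierstrassCurve.c₄ (Wn_reductionMod W n h)
  unfold WeierstrassCurve.reductionMod at h1
  rw [WeierstrassCurve.map_c₄, WeierstrassCurve.map_c₄] at h1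
  rw [← ZMod.intCast_zmod_eq_zero_iff_dvd]
  push_cast
  exact sub_eq_zero.mpr h1

lemma rel (W : WeierstrassCurve ℤ) : W.c₄ ^ 3 - (-W.c₆) ^ 2 = 1728 * W.Δ := by
  rw [W.c_relation]; ring

lemma rel' (W : WeierstrassCurve ℤ) (n : ℤ) :
    F4 W.c₄ (-W.c₆) (1728 * n) ^ 3 - F6 W.c₄ (-W.c₆) (1728 * n) ^ 2 = 1728 * (Wn W n).Δ := by
  rw [(Wn W n).c_relation, Wn_c₄, Wn_c₆]; ring

lemma not_dvd_1728 {p : ℕ} (hp : p.Prime) (h2 : p ≠ 2) (h3 : p ≠ 3) : ¬ (p : ℤ) ∣ 1728 := by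
  intro h
  have h' : p ∣ 2 ^ 6 * 3 ^ 3 := by
    have : (p : ℤ) ∣ ((2 ^ 6 * 3 ^ 3 : ℕ) : ℤ) := by norm_num; exact h
    exact Int.natCast_dvd_natCast.mp this
  rcases (Nat.Prime.dvd_mul hp).mp h' with h | h
  · exact h2 ((Nat.prime_dvd_prime_iff_eq hp Nat.prime_two).mp (hp.dvd_of_dvd_pow h))
  · exact h3 ((Nat.prime_dvd_prime_iff_eq hp Nat.prime_three).mp (hp.dvd_of_dvd_pow h))

end Model

open Model

theorem Wn_Δ_ne_zero (W : WeierstrassCurve ℤ) (hΔ : W.Δ ≠ 0) (n : ℤ) (h : 2 * W.Δ ∣ n) :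
    (Wn W n).Δ ≠ 0 := by
  intro h0
  have h1 : ((n.natAbs : ℕ) : ℤ) ∣ (Wn W n).Δ - W.Δ :=
    dvd_Δ_sub W n (Int.natAbs_dvd.mpr dvd_rfl)
  rw [h0, zero_sub, dvd_neg, Int.natAbs_dvd] at h1
  obtain ⟨m, hm⟩ := h.trans h1
  have h2 : W.Δ * (1 - 2 * m) = 0 := by linear_combination hm
  rcases mul_eq_zero.mp h2 with h3 | h3
  · exact hΔ h3
  · omega

theorem Wn_semistable (W : WeierstrassCurve ℤ) (hΔ : W.Δ ≠ 0) (hW : W.IsSemistableModel) (n : ℤ)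
    (h : 30 * W.Δ ∣ n) : (Wn W n).IsSemistableModel := by
  intro p hp hpΔ hpc
  have hpp : Prime (p : ℤ) := Nat.prime_iff_prime_int.mp hp
  by_cases hpn : (p : ℤ) ∣ n
  · have h1 : (p : ℤ) ∣ W.Δ := by
      have := dvd_sub hpΔ (dvd_Δ_sub W n hpn)
      simpa using this
    have h2 : (p : ℤ) ∣ W.c₄ := by
      have := dvd_sub hpc (dvd_c₄_sub W n hpn)
      simpa using this
    exact hW p hp h1 h2
  · have h30 : ¬ (p : ℤ) ∣ 30 * W.Δ := fun h' => hpn (h'.trans h)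
    have hp2 : p ≠ 2 := by
      rintro rfl
      exact h30 (Dvd.dvd.mul_right (by norm_num) _)
    have hp3 : p ≠ 3 := by
      rintro rfl
      exact h30 (Dvd.dvd.mul_right (by norm_num) _)
    have h1728 := not_dvd_1728 hp hp2 hp3
    have ht : ¬ (p : ℤ) ∣ 1728 * n := by
      intro h'
      rcases hpp.dvd_or_dvd h' with h' | h'
      · exact h1728 h'
      · exact hpn h'
    have h1 : ¬ (p : ℤ) ∣ 30 * (W.c₄ ^ 3 - (-W.c₆) ^ 2) := by
      rw [rel]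
      intro h'
      have : (p : ℤ) ∣ 1728 * (30 * W.Δ) := by
        convert h' using 1
        ring
      rcases hpp.dvd_or_dvd this with h' | h'
      · exact h1728 h'
      · exact h30 h'
    refine semi_aux W.c₄ (-W.c₆) (1728 * n) hp h1 ht ⟨?_, ?_⟩
    · rw [← Wn_c₄]; exact hpc
    · have h2 : (p : ℤ) ∣ F6 W.c₄ (-W.c₆) (1728 * n) ^ 2 := by
        have h3 := rel' W n
        have h4 : F6 W.c₄ (-W.c₆) (1728 * n) ^ 2
            = F4 W.c₄ (-W.c₆) (1728 * n) ^ 3 - 1728 * (Wn W n).Δ := by linear_combination -h3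
        rw [h4, ← Wn_c₄]
        exact dvd_sub (Dvd.dvd.pow hpc (by norm_num)) (Dvd.dvd.mul_left hpΔ _)
      exact hpp.dvd_of_dvd_pow h2

theorem Wn_ap (W : WeierstrassCurve ℤ) (hΔ : W.Δ ≠ 0) (n : ℤ) (h : 6 ∣ n) (ℓ : ℕ) (hℓ : ℓ.Prime)
    (h1 : W.IsGoodPrimeFor ℓ) (h2 : (Wn W n).IsGoodPrimeFor ℓ) (h5 : ℓ ≠ 5) :
    (5 : ℤ) ∣ ((Wn W n).apOfModel ℓ - W.apOfModel ℓ) := by
  have hpp : Prime (ℓ : ℤ) := Nat.prime_iff_prime_int.mp hℓ
  by_cases hℓn : (ℓ : ℤ) ∣ n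
  · unfold WeierstrassCurve.apOfModel
    rw [Wn_reductionMod W n hℓn, sub_self]
    exact dvd_zero _
  · have hℓ2 : ℓ ≠ 2 := by
      rintro rfl
      exact hℓn (Dvd.dvd.trans (by norm_num) h)
    have hℓ3 : ℓ ≠ 3 := by
      rintro rfl
      exact hℓn (Dvd.dvd.trans (by norm_num) h)
    have h7 : 7 ≤ ℓ := by
      by_contra hlt
      push Not at hlt
      have := hℓ.two_le
      interval_cases ℓ
      · exact hℓ2 rfl
      · exact hℓ3 rfl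
      · revert hℓ; norm_num
      · exact h5 rfl
      · revert hℓ; norm_num
    haveI : Fact ℓ.Prime := ⟨hℓ⟩
    have h1728 := not_dvd_1728 hℓ hℓ2 hℓ3
    have g1 : ¬ (ℓ : ℤ) ∣ W.c₄ ^ 3 - (-W.c₆) ^ 2 := by
      rw [rel]
      intro h'
      rcases hpp.dvd_or_dvd h' with h' | h'
      · exact h1728 h'
      · exact h1 h'
    have g2 : ¬ (ℓ : ℤ) ∣ F4 W.c₄ (-W.c₆) (1728 * n) ^ 3 - F6 W.c₄ (-W.c₆) (1728 * n) ^ 2 := by
      rw [rel']
      intro h'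
      rcases hpp.dvd_or_dvd h' with h' | h'
      · exact h1728 h'
      · exact h2 h'
    have key := ap_congr W.c₄ (-W.c₆) (1728 * n) hℓ h7 g1 g2
    have hred : ∀ V : WeierstrassCurve ℤ, V.IsGoodPrimeFor ℓ →
        Nat.card (V.reductionMod ℓ).toAffine.Point
          = Nat.card (Esh ((-27 * V.c₄ : ℤ) : ZMod ℓ) ((54 * (-V.c₆) : ℤ) : ZMod ℓ)).toAffine.Point := by
      intro V hV
      have hVΔ : (V.reductionMod ℓ).Δ ≠ 0 := by
        unfold WeierstrassCurve.reductionMod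
        rw [WeierstrassCurve.map_Δ]
        intro h0
        exact hV ((ZMod.intCast_zmod_eq_zero_iff_dvd _ _).mp h0)
      rw [card_short (by omega) (V.reductionMod ℓ) hVΔ]
      unfold WeierstrassCurve.reductionMod
      rw [WeierstrassCurve.map_c₄, WeierstrassCurve.map_c₆]
      congr 3 <;> · push_cast; simp
    have e1 := hred W h1
    have e2 := hred (Wn W n) h2
    rw [Wn_c₄, Wn_c₆, neg_neg] at e2
    unfold WeierstrassCurve.apOfModel WeierstrassCurve.traceOfFrobenius WeierstrassCurve.card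
    rw [e1, e2]
    have : ((Nat.card (ZMod ℓ) : ℤ) + 1 - (Nat.card (Esh ((-27 * F4 W.c₄ (-W.c₆) (1728 * n) : ℤ) : ZMod ℓ)
          ((54 * F6 W.c₄ (-W.c₆) (1728 * n) : ℤ) : ZMod ℓ)).toAffine.Point : ℤ))
        - ((Nat.card (ZMod ℓ) : ℤ) + 1 - (Nat.card (Esh ((-27 * W.c₄ : ℤ) : ZMod ℓ)
          ((54 * (-W.c₆) : ℤ) : ZMod ℓ)).toAffine.Point : ℤ))
        = -((Nat.card (Esh ((-27 * F4 W.c₄ (-W.c₆) (1728 * n) : ℤ) : ZMod ℓ)
          ((54 * F6 W.c₄ (-W.c₆) (1728 * n) : ℤ) : ZMod ℓ)).toAffine.Point : ℤ)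
          - (Nat.card (Esh ((-27 * W.c₄ : ℤ) : ZMod ℓ)
          ((54 * (-W.c₆) : ℤ) : ZMod ℓ)).toAffine.Point : ℤ)) := by ring
    rw [this]
    exact (dvd_neg).mpr key

end Fermat.Agent.S52
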