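import Fermat.Agent.S52.UId
import Fermat.Agent.S52.Fam6
import Fermat.Agent.S52.PDefs

set_option autoImplicit false

/-! # S52, package ROOT: a root of `F6 e4 e6 ·` rational in `u/v`, `v^10`, `i` -/

namespace Fermat.Agent.S52

namespace Root

variable {K : Type*} [Field K]

theorem TT_zero {U V ε : K} (hε : ε ^ 2 = -1) (h : U + ε * V = 0) : TT U V = 0 := by
  have h1 : U = -ε * V := by linear_combination h
  have h2 : (U ^ 5) ^ 2 + (V ^ 5) ^ 2 = 0 := by
    rw [h1]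
    linear_combination V ^ 10 * (ε ^ 8 - ε ^ 6 + ε ^ 4 - ε ^ 2 + 1) * hε
  simp only [TT, Tab]
  linear_combination ((U ^ 5) ^ 4 + 522 * (U ^ 5) ^ 3 * V ^ 5 - 10006 * (U ^ 5) ^ 2 * (V ^ 5) ^ 2
    - 522 * U ^ 5 * (V ^ 5) ^ 3 + (V ^ 5) ^ 4) * h2

/-- the denominator (divided by `v ^ 10`). -/
def den (r ε : K) : K := r * (11 - 66 * r ^ 5 - r ^ 10) - ε * (1 - 66 * r ^ 5 - 11 * r ^ 10)

theorem lin_zero {r v ε t : K} (ht : t * (v ^ 10 * den r ε) = -(r + ε)) :
    uT (r * v) v t + ε * vT (r * v) v t = 0 := by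
  simp only [den] at ht
  simp only [uT, vT, alab, beab]
  linear_combination v * ht

theorem den_ne {r i : K} (h2 : (2 : K) ≠ 0) (h3 : (3 : K) ≠ 0) (hi : i ^ 2 = -1) (hr : r ≠ 0)
    (hf : 1 - 11 * r ^ 5 - r ^ 10 ≠ 0) : den r i ≠ 0 ∨ den r (-i) ≠ 0 := by
  by_contra hcon
  push Not at hcon
  obtain ⟨h1, h2'⟩ := hcon
  simp only [den] at h1 h2'
  have hi0 : i ≠ 0 := by
    rintro rfl
    norm_num at hi
  have hbe : 1 - 66 * r ^ 5 - 11 * r ^ 10 = 0 := by
    have : 2 * (i * (1 - 66 * r ^ 5 - 11 * r ^ 10)) = 0 := by linear_combination h2' - h1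
    exact (mul_eq_zero.mp ((mul_eq_zero.mp this).resolve_left h2)).resolve_left hi0
  have hal : 11 - 66 * r ^ 5 - r ^ 10 = 0 := by
    have : 2 * (r * (11 - 66 * r ^ 5 - r ^ 10)) = 0 := by linear_combination h2' + h1
    exact (mul_eq_zero.mp ((mul_eq_zero.mp this).resolve_left h2)).resolve_left hr
  have h12 : (12 : K) ≠ 0 := by
    have : (12 : K) = 2 ^ 2 * 3 := by norm_num
    rw [this]; exact mul_ne_zero (pow_ne_zero _ h2) h3
  apply hf
  have : 12 * (1 - 11 * r ^ 5 - r ^ 10) = 0 := by linear_combination hal + hbe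
  exact (mul_eq_zero.mp this).resolve_left h12

theorem exists_t {r v ε : K} (hv : v ≠ 0) (hε : ε ^ 2 = -1) (hden : den r ε ≠ 0) :
    TT (uT (r * v) v (-(r + ε) / (v ^ 10 * den r ε))) (vT (r * v) v (-(r + ε) / (v ^ 10 * den r ε)))
      = 0 := by
  refine TT_zero hε (lin_zero ?_)
  have : v ^ 10 * den r ε ≠ 0 := mul_ne_zero (pow_ne_zero _ hv) hden
  field_simp

end Root

/-- a root `t₁` of `F6 e4 e6 ·` which is a rational expression of `u/v`, `v^10`, `i`. -/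
theorem exists_root {u v i e4 e6 : Qb} (h4 : HH u v = e4) (h6 : TT u v = e6)
    (hd : e4 ^ 3 - e6 ^ 2 ≠ 0) (hi : i ^ 2 = -1) :
    ∃ t₁ : Qb, F6 e4 e6 t₁ = 0 ∧
      ∀ σ : GQ, σ (u / v) = u / v → σ (v ^ 10) = v ^ 10 → σ i = i → σ t₁ = t₁ := by
  have hf : ff u v ≠ 0 := by
    intro hf
    apply hd
    rw [← h4, ← h6, HH_TT_rel, hf]; ring
  have hu : u ≠ 0 := by
    rintro rfl
    exact hf (by simp [ff])
  have hv : v ≠ 0 := by
    rintro rfl
    exact hf (by simp [ff])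
  obtain ⟨r, hr⟩ : ∃ r, u = r * v := ⟨u / v, by field_simp⟩
  have hrv : u / v = r := by rw [hr]; field_simp
  have hr0 : r ≠ 0 := by
    rintro rfl
    exact hu (by rw [hr, zero_mul])
  have hf' : 1 - 11 * r ^ 5 - r ^ 10 ≠ 0 := by
    intro h
    apply hf
    rw [hr]
    simp only [ff]
    linear_combination r * v ^ 12 * h
  have main : ∀ ε : Qb, ε ^ 2 = -1 → Root.den r ε ≠ 0 → (∀ σ : GQ, σ i = i → σ ε = ε) →
      ∃ t₁ : Qb, F6 e4 e6 t₁ = 0 ∧
      ∀ σ : GQ, σ (u / v) = u / v → σ (v ^ 10) = v ^ 10 → σ i = i → σ t₁ = t₁ := by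
    intro ε hε hden hσε
    refine ⟨-(r + ε) / (v ^ 10 * Root.den r ε), ?_, ?_⟩
    · rw [← h4, ← h6, ← TT_family, hr]
      exact Root.exists_t hv hε hden
    · intro σ h1 h2 h3
      rw [hrv] at h1
      have h3' := hσε σ h3
      simp only [Root.den, map_div₀, map_neg, map_add, map_mul, map_sub, map_pow, map_ofNat,
        map_one, h1, h3'] at h2 ⊢
      rw [h2]
  rcases Root.den_ne (by norm_num) (by norm_num) hi hr0 hf' with h | h
  · exact main i hi h (fun σ h => h)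
  · exact main (-i) (by rw [neg_sq, hi]) h (fun σ h => by rw [map_neg, h])

end Fermat.Agent.S52
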